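import Fermat.Agent.TwoAdic.Pair.Residual
import Fermat.Agent.TwoAdic.Scalar.LocalBound
import Fermat.Agent.BigImage.RootsOfUnity
import Fermat.Agent.GalCoh.GlobalLevels

/-!
# From the free problem to the minimal one

From the free problem to the minimal one: allowing ramification at the primes of `S` and dropping
the crystalline equation enlarges the universal ring by inertia entries at `S` and one element `z`
with `(1 - α²) z = 0`; hence the bound on cotangent lengths.
-/

set_option autoImplicit false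

noncomputable section

open IsLocalRing GaloisRep Fermat.Agent.DefRing Fermat.Agent.Deform
open scoped Pointwise

namespace Fermat.Agent.TwoAdic.Pair

open Scalar (inertiaIdeal sub_one_mem_inertiaIdeal scalarFactor cotImage cotClass)

variable {𝒪 : Type} [CommRing 𝒪] [IsLocalRing 𝒪] {D : NormalData 𝒪} {E : LiftData}
  {Q : Finset ℕ} {C : Set (GQ × GQ)}

/-- The entries of the identity matrix under a homomorphism. -/
theorem map_matrix_one_apply {A B F : Type*} [CommRing A] [CommRing B] [FunLike F A B]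
    [RingHomClass F A B] (f : F) (i j : Fin 2) :
    f ((1 : Matrix (Fin 2) (Fin 2) A) i j) = (1 : Matrix (Fin 2) (Fin 2) B) i j := by
  rw [Matrix.one_apply, Matrix.one_apply]
  split_ifs <;> simp

section Ring

variable {A : Type} [CommRing A] [IsLocalRing A] [Algebra 𝒪 A]
  {hl : IsLocalHom (algebraMap 𝒪 A)} {hs : Function.Surjective (residue A ∘ algebraMap 𝒪 A)}
  {N : MRep A} {α : A}

/-- Fewer conditions. -/
theorem IsPair.mono (h : IsPair D E Q C hl hs N α) {Q' : Finset ℕ} (hQ : Q ⊆ Q')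
    {C' : Set (GQ × GQ)} (hC : C' ⊆ C) : IsPair D E Q' C' hl hs N α := by
  obtain ⟨⟨hn, hr, hc, h1, h2, h3, h4, h5⟩, hres, hord⟩ := h
  exact ⟨⟨hn, hr, hc, h1, fun x hx => h2 x (hC hx), h3, h4,
    fun q hq hq2 hqD hqa hqQ => h5 q hq hq2 hqD hqa fun hm => hqQ (hQ hm)⟩, hres, hord⟩

/-- Unramified at every place as soon as at one. -/
theorem isUnramifiedAt_toAdic (hc : IsCont N) {q : ℕ} (hq : q.Prime)
    {P₀ : ValuationSubring (AlgebraicClosure ℚ)} (hP₀ : P₀.LiesOverPrime q)
    (h : ∀ τ ∈ P₀.inertiaSubgroupIn ℚ, N τ = 1) : (toAdic N hc).IsUnramifiedAt q := by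
  intro P hP τ hτ
  obtain ⟨g, rfl⟩ := Frobenius.exists_smul_eq_of_liesOverPrime_qbar hq hP₀ hP
  have h1 := GalCoh.conj_mem_inertiaSubgroupIn hτ g⁻¹
  rw [inv_smul_smul, inv_inv] at h1
  show Matrix.toLinAlgEquiv' (N τ) = 1
  rw [show N τ = N g * N (g⁻¹ * τ * g) * N g⁻¹ by rw [← map_mul, ← map_mul]; congr 1; group,
    h _ h1, mul_one, ← map_mul, mul_inv_cancel, map_one, map_one]

variable [IsNoetherianRing A]

/-- Inertia at `q ≠ 2` has determinant `1`, Frobenius has determinant `q`. -/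
theorem det_away (h : IsPair D E Q C hl hs N α) {q : ℕ} (hq : q.Prime) (hq2 : q ≠ 2)
    {P : ValuationSubring (AlgebraicClosure ℚ)} (hP : P.LiesOverPrime q) :
    (∀ τ ∈ P.inertiaSubgroupIn ℚ, (N τ).det = 1) ∧
      ∀ φ : GQ, P.IsFrobeniusAt φ q → (N φ).det = q := by
  obtain ⟨hc, hd⟩ := h.isDef.exists_cont
  have hdet := hd.1
  have h2m : (2 : A) ∈ maximalIdeal A := by simpa using hdet.1
  have hndvd : ∀ n : ℕ, ¬ q ∣ 2 ^ n := fun n hn =>
    hq2 ((Nat.prime_dvd_prime_iff_eq hq Nat.prime_two).mp (hq.dvd_of_dvd_pow hn))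
  have key : ∀ (σ : GQ) (a : ℕ),
      (∀ (n : ℕ) (μ : AlgebraicClosure ℚ), μ ^ 2 ^ n = 1 → σ μ = μ ^ a) → (N σ).det = a := by
    intro σ a ha
    refine sub_eq_zero.mp (eq_zero_of_forall_mem_pow fun n => ?_)
    refine (?_ : Ideal.span {((2 ^ n : ℕ) : A)} ≤ maximalIdeal A ^ n) ?_
    · rw [Ideal.span_le, Set.singleton_subset_iff, Nat.cast_pow, Nat.cast_ofNat]
      exact Ideal.pow_mem_pow h2m _
    · rw [← show LinearMap.det ((toAdic N hc).ρ σ) = (N σ).det from LinearMap.det_toLin' (N σ)]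
      exact hdet.2 n σ a (ha n)
  refine ⟨fun τ hτ => ?_, fun φ hφ => ?_⟩
  · rw [key τ 1 fun n μ hμ => by
      rw [BigImage.inertia_root_of_unity hq hP hτ (hndvd n) hμ, pow_one], Nat.cast_one]
  · exact key φ q fun n μ hμ => TameInertia.frobenius_root_of_unity hq hP hφ (hndvd n) hμ

omit [IsNoetherianRing A] in
/-- Inertia at a prime not dividing `D` is residually trivial. -/
theorem residual_inertia (h : IsPair D E Q C hl hs N α) (hr : IsDihedralResidual E.D D.rbar)
    {q : ℕ} (hq : q.Prime) (hqD : ¬ q ∣ E.D) {P : ValuationSubring (AlgebraicClosure ℚ)}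
    (hP : P.LiesOverPrime q) :
    ∀ τ ∈ P.inertiaSubgroupIn ℚ, ∀ i j, (N τ - 1) i j ∈ maximalIdeal A := fun τ hτ i j => by
  have hmap : (N τ).map (toResidue hl hs) = D.rbar τ := DFunLike.congr_fun h.isDef.reduces τ
  rw [hr.unramified q hq hqD P hP τ hτ] at hmap
  rw [← toResidue_eq_zero_iff hl hs, Matrix.sub_apply, map_sub,
    show toResidue hl hs (N τ i j) = (1 : Matrix (Fin 2) (Fin 2) (ResidueField 𝒪)) i j from
      congrFun (congrFun hmap i) j, map_matrix_one_apply, sub_self]

end Ring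

section Maps

variable {h : IsResidualPair D E Q C}

/-- Pairs map along surjective local maps. -/
theorem IsPair.map_surjective (h : IsResidualPair D E Q C) {A B : Type} [CommRing A]
    [IsLocalRing A] [IsNoetherianRing A] [IsAdicComplete (maximalIdeal A) A] [Algebra 𝒪 A]
    [CommRing B] [IsLocalRing B] [IsNoetherianRing B] [IsAdicComplete (maximalIdeal B) B]
    [Algebra 𝒪 B] {hlA : IsLocalHom (algebraMap 𝒪 A)}
    {hsA : Function.Surjective (residue A ∘ algebraMap 𝒪 A)}
    (hlB : IsLocalHom (algebraMap 𝒪 B))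
    (hsB : Function.Surjective (residue B ∘ algebraMap 𝒪 B)) (f : A →ₐ[𝒪] B)
    (hf : Function.Surjective f) {N : MRep A} {α : A} (hp : IsPair D E Q C hlA hsA N α) :
    IsPair D E Q C hlB hsB (mapRep (f : A →+* B) N) (f α) := by
  have h1 := (mem'_pairFunctor_iff (h := h) hlA hsA).mpr ⟨N, α, hp, rfl⟩
  have hfl : IsLocalHom (f : A →+* B) := isLocalHom_of_surjective' _ hf
  obtain ⟨N', α', hp', he⟩ := (mem'_pairFunctor_iff (h := h) hlB hsB
    (e := fun i => f (globalCoords (⇑N) (fun v : Empty => v.elim) (fun _ => α) i))).mp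
    fun C' _ _ _ hC q hq hqs => h1 hC (q.comp f) (RingHom.isLocalHom_comp (q : B →+* C')
      (f : A →+* B)) (hqs.comp hf)
  have eN : N' = mapRep (f : A →+* B) N := MonoidHom.ext fun σ => Matrix.ext fun a b =>
    congrFun he (Sum.inl (σ, a, b))
  have eα : α' = f α := congrFun he (Sum.inr (Sum.inr ()))
  exact eN ▸ eα ▸ hp'

end Maps

section Kernel

variable [Finite (ResidueField 𝒪)] [CharP (ResidueField 𝒪) 2] {S : Finset ℕ} (K : KummerPair)

variable (S) in
/-- The ideal by which the free ring exceeds the minimal one. -/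
def excessIdeal {A : Type} [CommRing A] (N : MRep A)
    (P : ℕ → ValuationSubring (AlgebraicClosure ℚ)) : Ideal A :=
  Ideal.span (Set.range fun ij : Fin 2 × Fin 2 =>
      (N K.s + (2 : A) • N K.t - (3 : A) • 1) ij.1 ij.2) ⊔
    ⨆ q ∈ S, inertiaIdeal N (P q)

variable {h' : IsResidualPair D E (Q ∪ S) ∅} {h : IsResidualPair D E Q {(K.s, K.t)}}

omit [Finite (ResidueField 𝒪)] [CharP (ResidueField 𝒪) 2] in
/-- **The map to the minimal ring and its kernel.** -/
theorem exists_map (U : (pairFunctor h').UniversalPoint) (V : (pairFunctor h).UniversalPoint)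
    (hS : ∀ q ∈ S, q.Prime ∧ q ≠ 2 ∧ ¬ q ∣ E.D ∧ q ∉ E.aux ∧ q ∉ Q)
    (P : ℕ → ValuationSubring (AlgebraicClosure ℚ)) (hP : ∀ q ∈ S, (P q).LiesOverPrime q) :
    ∃ f : U.R →ₐ[𝒪] V.R, Function.Surjective f ∧
      mapRep (f : U.R →+* V.R) (uRep U) = uRep V ∧ f (uRoot U) = uRoot V ∧
      RingHom.ker f = excessIdeal S K (uRep U) P := by
  classical
  have hV := isPair_universal V
  have hU := isPair_universal U
  obtain ⟨f, ⟨hf, hfN, hfα⟩, -⟩ := existsUnique_map U (A := V.R) V.residue_surjective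
    (hV.mono Finset.subset_union_left (Set.empty_subset _))
  obtain ⟨hVc, hVd⟩ := hV.isDef.exists_cont
  set J := excessIdeal S K (uRep U) P with hJdef
  have hfN' : ∀ σ i j, f (uRep U σ i j) = uRep V σ i j := fun σ i j =>
    congrFun (congrFun (DFunLike.congr_fun hfN σ) i) j
  have hkill : J ≤ RingHom.ker f := by
    refine sup_le (Ideal.span_le.mpr ?_) (iSup₂_le fun q hq => Ideal.span_le.mpr ?_)
    · rintro _ ⟨⟨i, j⟩, rfl⟩
      have h0 := congrFun (congrFun ((isCrystalline_toAdic_iff hVc K).mp hVd.2.1) i) j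
      simp only [Matrix.add_apply, Matrix.smul_apply, smul_eq_mul] at h0
      show f _ = 0
      simp only [Matrix.sub_apply, Matrix.add_apply, Matrix.smul_apply, smul_eq_mul, map_sub,
        map_add, map_mul, map_ofNat, hfN', h0, Matrix.one_apply]
      split_ifs <;> simp
    · rintro _ ⟨τ, hτ, i, j, rfl⟩
      obtain ⟨hq1, hq2, hqD, hqa, hqQ⟩ := hS q hq
      have h0 := hVd.2.2.2.2 q hq1 hq2 hqD hqa hqQ (P q) (hP q hq) τ hτ
      have h1 : uRep V τ = 1 := (Matrix.toLinAlgEquiv' (R := V.R) (n := Fin 2)).injective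
        (h0.trans (map_one _).symm)
      show f _ = 0
      rw [Matrix.sub_apply, map_sub, hfN', h1, map_matrix_one_apply, sub_self]
  have hJm : J ≤ maximalIdeal U.R := hkill.trans (le_maximalIdeal (RingHom.ker_ne_top _))
  let R := U.R ⧸ J
  have : Nontrivial R := Ideal.Quotient.nontrivial_iff.mpr fun htop =>
    (maximalIdeal.isMaximal U.R).ne_top (top_le_iff.mp (htop ▸ hJm))
  have : IsLocalRing R :=
    IsLocalRing.of_surjective' (Ideal.Quotient.mk J) Ideal.Quotient.mk_surjective
  have hmk : IsLocalHom (Ideal.Quotient.mk J) :=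
    isLocalHom_of_surjective' _ Ideal.Quotient.mk_surjective
  have : IsLocalHom (algebraMap U.R R) := hmk
  have : IsAdicComplete (maximalIdeal R) R :=
    IsLocalRing.isAdicComplete_of_module_finite (𝒪 := U.R) (T := R)
  have hlR : IsLocalHom (algebraMap 𝒪 R) := ⟨fun o ho =>
    U.instIsLocalHom.map_nonunit o (hmk.map_nonunit _ ho)⟩
  have hsR : Function.Surjective (residue R ∘ algebraMap 𝒪 R) := fun y => by
    obtain ⟨r, rfl⟩ := IsLocalRing.residue_surjective y
    obtain ⟨x, rfl⟩ := Ideal.Quotient.mk_surjective r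
    obtain ⟨o, ho⟩ := exists_algebraMap_add_mem U.residue_surjective x
    refine ⟨o, (Ideal.Quotient.mk_eq_mk_iff_sub_mem _ _).mpr ?_⟩
    intro hu
    rw [show algebraMap 𝒪 R o = Ideal.Quotient.mk J (algebraMap 𝒪 U.R o) from rfl, ← map_sub]
      at hu
    exact (by simpa using neg_mem ho : algebraMap 𝒪 U.R o - x ∈ maximalIdeal U.R)
      (hmk.map_nonunit _ hu)
  let mk : U.R →ₐ[𝒪] R := Ideal.Quotient.mkₐ 𝒪 J
  have hmks : Function.Surjective mk := Ideal.Quotient.mk_surjective
  have hR := IsPair.map_surjective h' hlR hsR mk hmks hU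
  set M := mapRep (mk : U.R →+* R) (uRep U) with hM
  have hR' : IsPair D E Q {(K.s, K.t)} hlR hsR M (mk (uRoot U)) := by
    obtain ⟨⟨hn, hred, hc, h1, -, h3, h4, h5⟩, hres, hord⟩ := hR
    refine ⟨⟨hn, hred, hc, h1, (isCrystalline_toAdic_iff hc K).mpr ?_, h3, h4,
      fun q hq hq2 hqD hqa hqQ => ?_⟩, hres, hord⟩
    · refine Matrix.ext fun i j => ?_
      have h0 : mk ((uRep U K.s + (2 : U.R) • uRep U K.t - (3 : U.R) • 1) i j) = 0 :=
        Ideal.Quotient.eq_zero_iff_mem.mpr
          (Ideal.mem_sup_left (Ideal.subset_span ⟨(i, j), rfl⟩))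
      simp only [Matrix.sub_apply, Matrix.add_apply, Matrix.smul_apply, smul_eq_mul, map_sub,
        map_add, map_mul, map_ofNat] at h0
      show mk (uRep U K.s i j) + 2 * mk (uRep U K.t i j) =
        (3 : R) * (1 : Matrix (Fin 2) (Fin 2) R) i j
      rw [sub_eq_zero.mp h0, map_matrix_one_apply]
    · by_cases hqS : q ∈ S
      · refine isUnramifiedAt_toAdic hc hq (hP q hqS) fun τ hτ => Matrix.ext fun i j => ?_
        have h0 : mk ((uRep U τ - 1) i j) = 0 := Ideal.Quotient.eq_zero_iff_mem.mpr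
          (Ideal.mem_sup_right (Ideal.mem_iSup_of_mem q (Ideal.mem_iSup_of_mem hqS
            (sub_one_mem_inertiaIdeal (uRep U) hτ i j))))
        rw [Matrix.sub_apply, map_sub, sub_eq_zero] at h0
        show mk (uRep U τ i j) = _
        rw [h0, map_matrix_one_apply]
      · exact h5 q hq hq2 hqD hqa (by simp [hqQ, hqS])
  obtain ⟨g, ⟨hg, hgN, hgα⟩, -⟩ := existsUnique_map V (A := R) hsR hR'
  let fbar : R →ₐ[𝒪] V.R := Ideal.Quotient.liftₐ J f fun x hx => hkill hx
  have hfbar : IsLocalHom (fbar : R →+* V.R) := ⟨fun x hx => by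
    obtain ⟨y, rfl⟩ := Ideal.Quotient.mk_surjective x
    exact (hf.map_nonunit y hx).map (Ideal.Quotient.mk J)⟩
  have hfg : fbar.comp g = AlgHom.id 𝒪 V.R := by
    refine (existsUnique_map V (A := V.R) V.residue_surjective hV).unique
      ⟨RingHom.isLocalHom_comp (fbar : R →+* V.R) (g : V.R →+* R), ?_, ?_⟩
      ⟨⟨fun x hx => hx⟩, mapRep_id _, rfl⟩
    · refine MonoidHom.ext fun σ => Matrix.ext fun i j => ?_
      show fbar (g (uRep V σ i j)) = _
      rw [show g (uRep V σ i j) = mk (uRep U σ i j) from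
        congrFun (congrFun (DFunLike.congr_fun hgN σ) i) j]
      exact hfN' σ i j
    · show fbar (g (uRoot V)) = _
      rw [hgα]; exact hfα
  have hgf : g.comp f = mk := by
    refine (existsUnique_map U (A := R) hsR hR).unique
      ⟨RingHom.isLocalHom_comp (g : V.R →+* R) (f : U.R →+* V.R), ?_, ?_⟩ ⟨hmk, rfl, rfl⟩
    · refine MonoidHom.ext fun σ => Matrix.ext fun i j => ?_
      show g (f (uRep U σ i j)) = _
      rw [hfN']
      exact congrFun (congrFun (DFunLike.congr_fun hgN σ) i) j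
    · show g (f (uRoot U)) = _
      rw [hfα, hgα]
  refine ⟨f, fun x => ?_, hfN, hfα, le_antisymm (fun x hx => ?_) hkill⟩
  · obtain ⟨y, hy⟩ := hmks (g x)
    refine ⟨y, ?_⟩
    have h1 := DFunLike.congr_fun hfg x
    rw [AlgHom.comp_apply, ← hy] at h1
    exact h1
  · have h1 := DFunLike.congr_fun hgf x
    rw [AlgHom.comp_apply, show f x = 0 from hx, map_zero] at h1
    exact Ideal.Quotient.eq_zero_iff_mem.mp h1.symm

end Kernel

section Cotangent

variable {O : Type} [CommRing O] [IsDomain O] [IsDiscreteValuationRing O]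

omit [IsDomain O] [IsDiscreteValuationRing O] in
/-- The class of an element killed by `u`. -/
theorem length_span_cotClass_le {R : Type} [CommRing R] [Algebra O R] (θ : R →ₐ[O] O) {u z : R}
    (hz : θ z = 0) (h : u * z = 0) :
    Module.length O (Submodule.span O {cotClass θ z}) ≤ Ring.ord O (θ u) := by
  have h1 : θ u • cotClass θ z = 0 := by
    have h2 := congrArg (cotClass θ) h
    rwa [Scalar.cotClass_mul, hz, zero_smul, add_zero, Scalar.cotClass_zero] at h2
  let g : O →ₗ[O] Submodule.span O {cotClass θ z} :=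
    LinearMap.toSpanSingleton O _ ⟨cotClass θ z, Submodule.mem_span_singleton_self _⟩
  have hg : Ideal.span {θ u} ≤ LinearMap.ker g := by
    rw [Ideal.span_le, Set.singleton_subset_iff]
    exact Subtype.ext (by simpa [g] using h1)
  refine Module.length_le_of_surjective (Submodule.liftQ (Ideal.span {θ u}) g hg) ?_
  rintro ⟨x, hx⟩
  obtain ⟨c, rfl⟩ := Submodule.mem_span_singleton.mp hx
  exact ⟨Submodule.Quotient.mk c, Subtype.ext rfl⟩

/-- **The local bound**: from the minimal problem to the free one. -/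
theorem length_cotangent_le [Finite (ResidueField O)] [CharP (ResidueField O) 2]
    {D : NormalData O} {E : LiftData} {Q S : Finset ℕ} (K : KummerPair)
    {h' : IsResidualPair D E (Q ∪ S) ∅} {h : IsResidualPair D E Q {(K.s, K.t)}}
    (U : (pairFunctor h').UniversalPoint) (V : (pairFunctor h).UniversalPoint)
    (hr : IsDihedralResidual E.D D.rbar)
    (hS : ∀ q ∈ S, q.Prime ∧ q ≠ 2 ∧ ¬ q ∣ E.D ∧ q ∉ E.aux ∧ q ∉ Q)
    (P : ℕ → ValuationSubring (AlgebraicClosure ℚ)) (φ : ℕ → GQ)
    (hP : ∀ q ∈ S, (P q).LiesOverPrime q) (hφ : ∀ q ∈ S, (P q).IsFrobeniusAt (φ q) q)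
    (f : U.R →ₐ[O] V.R) (hf : Function.Surjective f)
    (hfN : mapRep (f : U.R →+* V.R) (uRep U) = uRep V) (hfα : f (uRoot U) = uRoot V)
    (hker : RingHom.ker f ≤ excessIdeal S K (uRep U) P) (η : V.R →ₐ[O] O) :
    Module.length U.R (RingHom.ker (η.comp f)).Cotangent ≤
      Module.length V.R (RingHom.ker η).Cotangent +
        (Ring.ord O (η (uRoot V) ^ 2 - 1) +
          ∑ q ∈ S, Ring.ord O (scalarFactor q (η (uRep V (φ q)).trace))) := by
  classical
  rcases eq_or_ne (η (uRoot V) ^ 2 - 1) 0 with h0 | h0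
  · rw [h0, Ring.ord_eq_addVal, IsDiscreteValuationRing.addVal_zero, top_add, add_top]
    exact le_top
  set θ := η.comp f with hθ
  have hU := isPair_universal U
  have hV := isPair_universal V
  obtain ⟨hc, hd⟩ := hU.isDef.exists_cont
  have : Finite (ResidueField U.R) := by
    refine Finite.of_surjective (fun x : ResidueField O =>
      ResidueField.map (algebraMap O U.R) x) fun y => ?_
    obtain ⟨x, rfl⟩ := U.residue_surjective y
    exact ⟨residue O x, ResidueField.map_residue _ x⟩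
  obtain ⟨z, M, hzM, hz, -⟩ := hU.exists_defect hr K
  have hθα : θ (uRoot U) = η (uRoot V) := by rw [hθ, AlgHom.comp_apply, hfα]
  have hθz : θ z = 0 := by
    have h1 := congrArg θ hz
    rw [map_mul, map_sub, map_one, map_pow, hθα, map_zero] at h1
    refine (mul_eq_zero.mp h1).resolve_left fun h2 => h0 ?_
    linear_combination -h2
  let J : Option ℕ → Ideal U.R := fun o => o.elim (Ideal.span {z}) fun q =>
    inertiaIdeal (uRep U) (P q)
  have htr : ∀ q, θ (uRep U (φ q)).trace = η (uRep V (φ q)).trace := fun q => by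
    rw [hθ, AlgHom.comp_apply]
    congr 1
    rw [← hfN, Matrix.trace_fin_two, Matrix.trace_fin_two, map_add]
    rfl
  have hunr : ∀ q ∈ S, ∀ τ ∈ (P q).inertiaSubgroupIn ℚ, (uRep U τ).map θ = 1 := by
    intro q hq τ hτ
    obtain ⟨hq1, hq2, hqD, hqa, hqQ⟩ := hS q hq
    obtain ⟨hVc, hVd⟩ := hV.isDef.exists_cont
    have h1 : uRep V τ = 1 := (Matrix.toLinAlgEquiv' (R := V.R) (n := Fin 2)).injective
      ((hVd.2.2.2.2 q hq1 hq2 hqD hqa hqQ (P q) (hP q hq) τ hτ).trans (map_one _).symm)
    rw [← hfN] at h1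
    have h2 : ((uRep U τ).map f).map η = (1 : Matrix (Fin 2) (Fin 2) V.R).map η := by
      rw [show (uRep U τ).map f = 1 from h1]
    rw [Matrix.map_map, Matrix.map_one _ (map_zero η) (map_one η)] at h2
    exact h2
  have h2O : ((2 : ℕ) : O) ∈ maximalIdeal O := by
    intro hu
    have h1 := hu.map (residue O)
    rw [map_natCast, Nat.cast_ofNat, CharTwo.two_eq_zero] at h1
    exact not_isUnit_zero h1
  have hloc := fun q (hq : q ∈ S) => Scalar.length_cotImage_inertiaIdeal_le Nat.prime_two h2O hc θ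
    (hS q hq).1 (hS q hq).2.1 (hP q hq)
    (residual_inertia hU hr (hS q hq).1 (hS q hq).2.2.1 (hP q hq)) (hunr q hq)
    (det_away hU (hS q hq).1 (hS q hq).2.1 (hP q hq)).1 (hφ q hq)
    ((det_away hU (hS q hq).1 (hS q hq).2.1 (hP q hq)).2 _ (hφ q hq)) (htr q)
  have hJ : ∀ o ∈ S.insertNone, J o ≤ RingHom.ker θ := by
    intro o ho
    cases o with
    | none => exact (Ideal.span_singleton_le_iff_mem _).mpr hθz
    | some q => exact (hloc q (Finset.some_mem_insertNone.mp ho)).1
  have hker' : RingHom.ker f ≤ ⨆ o ∈ S.insertNone, J o := by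
    refine hker.trans (sup_le ?_ (iSup₂_le fun q hq => ?_))
    · refine le_trans ?_ (le_iSup₂ (f := fun o (_ : o ∈ S.insertNone) => J o) none
        Finset.none_mem_insertNone)
      rw [Ideal.span_le]
      rintro _ ⟨⟨i, j⟩, rfl⟩
      simp only [hzM, Matrix.smul_apply, smul_eq_mul]
      exact Ideal.mem_span_singleton'.mpr ⟨M i j, mul_comm _ _⟩
    · exact le_iSup₂ (f := fun o (_ : o ∈ S.insertNone) => J o) (some q)
        (Finset.some_mem_insertNone.mpr hq)
  refine (Scalar.length_cotangent_le_add θ f hf η rfl S.insertNone J hJ hker').trans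
    (add_le_add le_rfl ?_)
  rw [Finset.sum_insertNone]
  refine add_le_add ?_ (Finset.sum_le_sum fun q hq => (hloc q hq).2)
  refine (Module.length_le_of_injective (Submodule.inclusion ((Scalar.cotImage_span_le θ
    (G := {z}) (by simpa using hθz)).trans (le_of_eq (by rw [Set.image_singleton]))))
    (Submodule.inclusion_injective _)).trans ?_
  refine (length_span_cotClass_le θ hθz hz).trans (le_of_eq (Ring.ord_eq_of_associated ?_))
  rw [map_sub, map_one, map_pow, hθα, show 1 - η (uRoot V) ^ 2 = -(η (uRoot V) ^ 2 - 1) by ring]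
  exact Associated.refl _ |>.neg_left

end Cotangent

end Fermat.Agent.TwoAdic.Pair
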