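import Fermat.Agent.TwoAdic.Pair.Defect
import Fermat.Agent.TwoAdic.Blueprint.Local

/-!
# Pairs over a dihedral residual representation

Pairs over a dihedral residual representation: the residual pair, non-degeneracy of Frobenius at
`2`, the defect over a deformation, and removal of an auxiliary prime.
-/

set_option autoImplicit false

noncomputable section

open IsLocalRing GaloisRep Fermat.Agent.DefRing Fermat.Agent.Deform

namespace Fermat.Agent.TwoAdic.Pair

variable {k : Type} [Field k] [CharP k 2] {D : ℕ} {r : MRep k}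

theorem rbar_frobenius_two (hr : IsDihedralResidual D r) (hD8 : D % 8 = 3)
    {P : ValuationSubring (AlgebraicClosure ℚ)} (hP : P.LiesOverPrime 2) {φ : GQ}
    (hφ : P.IsFrobeniusAt φ 2) : (r φ).trace = 0 ∧ r φ ≠ 1 ∧ r φ * r φ = 1 := by
  obtain ⟨x, hx⟩ := IsAlgClosed.exists_pow_nat_eq (-(D : AlgebraicClosure ℚ)) (n := 2) (by omega)
  have hmove := frobenius_two_moves hD8 hP hφ hx
  have ht : (r φ).trace = 0 := by
    by_contra h
    exact hmove ((hr.fixing φ).mpr (Or.inl h) x hx)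
  refine ⟨ht, fun h => hmove ((hr.fixing φ).mpr (Or.inr h) x hx),
    mul_self_eq_one ht (hr.det_one φ)⟩

/-- On the decomposition group the residual representation is that of Frobenius. -/
theorem rbar_frobenius_pow_mul (hr : IsDihedralResidual D r) (hD8 : D % 8 = 3)
    {P : ValuationSubring (AlgebraicClosure ℚ)} (hP : P.LiesOverPrime 2) {φ : GQ}
    (hφ : P.IsFrobeniusAt φ 2) (n : ℕ) {τ : GQ} (hτ : τ ∈ P.inertiaSubgroupIn ℚ) :
    r (φ ^ n * τ) = 1 ∨ r (φ ^ n * τ) = r φ := by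
  rw [map_mul, map_pow, hr.unramified 2 Nat.prime_two (by omega) P hP τ hτ, mul_one]
  induction n with
  | zero => exact Or.inl (pow_zero _)
  | succ n ih =>
    rcases ih with h | h <;> rw [pow_succ, h]
    · exact Or.inr (one_mul _)
    · exact Or.inl (rbar_frobenius_two hr hD8 hP hφ).2.2

theorem isOrdinaryMat_rbar (hr : IsDihedralResidual D r) (hD8 : D % 8 = 3) :
    IsOrdinaryMat r 1 := by
  intro P hP φ hφ n n' τ hτ τ' hτ'
  obtain ⟨-, -, hsq⟩ := rbar_frobenius_two hr hD8 hP hφ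
  rw [one_pow, one_pow, one_smul, hr.det_one, one_smul]
  rcases rbar_frobenius_pow_mul hr hD8 hP hφ n hτ with h | h <;>
    rcases rbar_frobenius_pow_mul hr hD8 hP hφ n' hτ' with h' | h' <;> rw [h, h']
  · simp
  · simp
  · simp
  · rw [sub_mul, mul_sub, mul_one, one_mul, hsq]
    ext i j
    rw [Matrix.sub_apply, Matrix.sub_apply, Matrix.sub_apply, Matrix.zero_apply]
    linear_combination ((1 : Matrix (Fin 2) (Fin 2) k) i j - r φ i j) *
      (CharTwo.two_eq_zero : (2 : k) = 0)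

variable {𝒪 : Type} [CommRing 𝒪] [IsLocalRing 𝒪] [Finite (ResidueField 𝒪)]
  [CharP (ResidueField 𝒪) 2]

/-- Elements used in crystalline equations lie in inertia at `2`. -/
def IsInertialSet (C : Set (GQ × GQ)) : Prop :=
  ∀ x ∈ C, ∃ P : ValuationSubring (AlgebraicClosure ℚ), P.LiesOverPrime 2 ∧
    x.1 ∈ P.inertiaSubgroupIn ℚ ∧ x.2 ∈ P.inertiaSubgroupIn ℚ

theorem isInertialSet_kummer (K : KummerPair) : IsInertialSet {(K.s, K.t)} := by
  rintro x rfl
  exact ⟨K.P, K.over_two, K.exp.s_mem, K.exp.t_mem⟩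

/-- The residual pair satisfies the conditions. -/
theorem isResidualPair (E : LiftData) (Q : Finset ℕ) {C : Set (GQ × GQ)} (hC : IsInertialSet C)
    (D : NormalData 𝒪) (hr : IsDihedralResidual E.D D.rbar)
    (hA : ∀ q ∈ E.aux, ∀ P : ValuationSubring (AlgebraicClosure ℚ), P.LiesOverPrime q →
      ∀ φ : GQ, P.IsFrobeniusAt φ q → (D.rbar φ).trace = 0 ∧ D.rbar φ ≠ 1)
    (hc : IsCont D.rbar) : IsResidualPair D E Q C := by
  obtain ⟨hdet, -, hℓ₀, hnew, hur⟩ := cond_residual E Q D hr hA hc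
  refine (isResidualPair_iff D E Q C).mpr ⟨hc, ⟨hdet, fun x hx => ?_, hℓ₀, hnew, hur⟩,
    isOrdinaryMat_rbar hr E.mod_eight⟩
  obtain ⟨P, hP, hs, ht⟩ := hC x hx
  have h1 : ∀ τ ∈ P.inertiaSubgroupIn ℚ, (toAdic D.rbar hc).ρ τ = 1 := fun τ hτ => by
    show Matrix.toLinAlgEquiv' (D.rbar τ) = 1
    rw [hr.unramified 2 Nat.prime_two (by have := E.mod_eight; omega) P hP τ hτ, map_one]
  rw [h1 _ hs, h1 _ ht, show (3 : ResidueField 𝒪) = 2 + 1 by norm_num, CharTwo.two_eq_zero,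
    zero_smul, add_zero, zero_add, one_smul]

variable {D : NormalData 𝒪} {E : LiftData} {Q : Finset ℕ} {C : Set (GQ × GQ)}
  {A : Type} [CommRing A] [IsLocalRing A] [Algebra 𝒪 A]
  {hl : IsLocalHom (algebraMap 𝒪 A)} {hs : Function.Surjective (residue A ∘ algebraMap 𝒪 A)}
  {N : MRep A} {α : A}

omit [Finite (ResidueField 𝒪)] [CharP (ResidueField 𝒪) 2] in
theorem IsPair.isUnit_root (h : IsPair D E Q C hl hs N α) : IsUnit α :=
  notMem_maximalIdeal.mp fun hm => by
    have := (toResidue_eq_zero_iff hl hs).mpr hm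
    rw [h.residue_eq] at this
    exact one_ne_zero this

omit [Finite (ResidueField 𝒪)] in
/-- Frobenius at `2` gives the adapted frame. -/
theorem IsPair.exists_isUnit (h : IsPair D E Q C hl hs N α) (hr : IsDihedralResidual E.D D.rbar)
    {P : ValuationSubring (AlgebraicClosure ℚ)} (hP : P.LiesOverPrime 2) {φ : GQ}
    (hφ : P.IsFrobeniusAt φ 2) : ∃ i j, IsUnit ((α • N φ - (N φ).det • 1) i j) := by
  have hmap : (N φ).map (toResidue hl hs) = D.rbar φ := DFunLike.congr_fun h.isDef.reduces φ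
  refine exists_isUnit_of_residual (toResidue hl hs : A →+* ResidueField 𝒪)
    (fun x hx => notMem_maximalIdeal.mp fun hm => hx ((toResidue_eq_zero_iff hl hs).mpr hm))
    h.residue_eq ?_ ?_
  · rw [RingHom.map_det, show (RingHom.mapMatrix
      (toResidue hl hs : A →+* ResidueField 𝒪)) (N φ) = D.rbar φ from hmap, hr.det_one]
  · exact fun h1 => (rbar_frobenius_two hr E.mod_eight hP hφ).2.1 (hmap.symm.trans h1)

omit [Finite (ResidueField 𝒪)] in
/-- The crystalline defect of a pair. -/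
theorem IsPair.exists_defect [IsNoetherianRing A] [Finite (ResidueField A)]
    (h : IsPair D E Q C hl hs N α) (hr : IsDihedralResidual E.D D.rbar) (K : KummerPair) :
    ∃ (z : A) (M : Matrix (Fin 2) (Fin 2) A),
      N K.s + (2 : A) • N K.t - (3 : A) • 1 = z • M ∧ (1 - α ^ 2) * z = 0 ∧
      (N K.s + (2 : A) • N K.t = (3 : A) • 1 → z = 0) := by
  obtain ⟨hc, hd⟩ := h.isDef.exists_cont
  obtain ⟨φ, hφ⟩ := Frobenius.exists_isFrobeniusAt_qbar Nat.prime_two K.over_two
  exact K.exists_defect hc hd.1 h.isUnit_root h.ordinary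
    ⟨φ, hφ, h.exists_isUnit hr K.over_two hφ⟩

omit [Finite (ResidueField 𝒪)] [CharP (ResidueField 𝒪) 2] in
theorem isCrystalline_toAdic_iff (hc : IsCont N) (K : KummerPair) :
    IsCrystalline (toAdic N hc) {(K.s, K.t)} ↔
      N K.s + (2 : A) • N K.t = (3 : A) • 1 := by
  have key : (toAdic N hc).ρ K.s + (2 : A) • (toAdic N hc).ρ K.t = (3 : A) • 1 ↔
      N K.s + (2 : A) • N K.t = (3 : A) • 1 := by
    rw [← (Matrix.toLinAlgEquiv' (R := A) (n := Fin 2)).injective.eq_iff, map_add, map_smul,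
      map_smul, map_one]
    rfl
  simpa [IsCrystalline] using key

omit [IsLocalRing 𝒪] [Finite (ResidueField 𝒪)] [CharP (ResidueField 𝒪) 2] in
/-- Removing an auxiliary prime. -/
theorem pairCond_unramified_iff {q : ℕ} (hq : q ∈ E.aux) (hqQ : q ∉ Q) (ρ : GaloisRepAdic A) :
    (E.pairCond Q C 𝒪 ρ ∧ ρ.IsUnramifiedAt q) ↔
      ((E.erase q).pairCond Q C 𝒪 ρ ∧
        ∀ P : ValuationSubring (AlgebraicClosure ℚ), P.LiesOverPrime q →
          ∀ φ : GQ, P.IsFrobeniusAt φ q → ρ.trace φ = (E.sgn q : A) * ((q : A) + 1)) := by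
  obtain ⟨hqp, hq2, hqD⟩ := E.aux_spec q hq
  constructor
  · rintro ⟨⟨h1, h2, h3, h4, h5⟩, hu⟩
    refine ⟨⟨h1, h2, h3, fun r hr hr' => h4 r hr (hr'.imp id Finset.mem_of_mem_erase),
      fun r hr hr2 hrD hra hrQ => ?_⟩, fun P hP φ hφ => (h4 q hqp (Or.inr hq) P hP φ hφ).1⟩
    by_cases hrq : r = q
    · exact hrq ▸ hu
    · exact h5 r hr hr2 hrD (fun hm => hra (Finset.mem_erase.mpr ⟨hrq, hm⟩)) hrQ
  · rintro ⟨⟨h1, h2, h3, h4, h5⟩, ht⟩
    have hu : ρ.IsUnramifiedAt q := h5 q hqp hq2 hqD (Finset.notMem_erase q E.aux) hqQ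
    refine ⟨⟨h1, h2, h3, fun r hr hr' => ?_, fun r hr hr2 hrD hra hrQ =>
      h5 r hr hr2 hrD (fun hm => hra (Finset.mem_of_mem_erase hm)) hrQ⟩, hu⟩
    by_cases hrq : r = q
    · subst hrq
      intro P hP φ hφ
      refine ⟨ht P hP φ hφ, fun τ hτ => ?_⟩
      have h1' := hu P hP τ hτ
      refine ⟨?_, by rw [h1', sub_self, mul_zero], by rw [h1', sub_self, zero_mul]⟩
      rw [GaloisRepAdic.trace, h1', LinearMap.trace_one, ρ.finrank_eq, Nat.cast_ofNat]
    · exact h4 r hr (hr'.imp id fun hm => Finset.mem_erase.mpr ⟨hrq, hm⟩)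

end Fermat.Agent.TwoAdic.Pair
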