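import Fermat.Agent.TwoAdic.Blueprint.Local
import Fermat.Agent.Deform.Global
import Fermat.Agent.Deform.Finite
import Fermat.Agent.Deform.TangentBound

/-!
# Deformation problems of pairs

Deformation problems of pairs `(ρ, α)`.

`2` is never in the level: at `2` the representation is ordinary with unit root `α ≡ 1`
(an extra coordinate) and, for the minimal problem, crystalline, expressed by the single equation
`ρ s + 2 ρ t = 3` for a chosen pair `(s, t)` in inertia.
-/

set_option autoImplicit false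

open IsLocalRing GaloisRep Fermat.Agent.DefRing Fermat.Agent.Deform

namespace Fermat.Agent.TwoAdic

namespace Pair

/-- Ordinary at `2` with unit root `α`, in matrices: for `σ = φⁿ τ`, `σ' = φ^n' τ'` in a
decomposition group, `(α^n' ρσ' - det ρσ') (ρσ - αⁿ) = 0`. -/
def IsOrdinaryMat {A : Type} [CommRing A] (N : GQ → Matrix (Fin 2) (Fin 2) A) (α : A) : Prop :=
  ∀ P : ValuationSubring (AlgebraicClosure ℚ), P.LiesOverPrime 2 →
    ∀ φ : GQ, P.IsFrobeniusAt φ 2 → ∀ n n' : ℕ,
      ∀ τ ∈ P.inertiaSubgroupIn ℚ, ∀ τ' ∈ P.inertiaSubgroupIn ℚ,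
        (α ^ n' • N (φ ^ n' * τ') - (N (φ ^ n' * τ')).det • 1) *
          (N (φ ^ n * τ) - α ^ n • 1) = 0

/-- Ordinary at `2` with unit root `α`. -/
def IsOrdinary {A : Type} [CommRing A] [IsLocalRing A] (ρ : GaloisRepAdic A) (α : A) : Prop :=
  ∀ P : ValuationSubring (AlgebraicClosure ℚ), P.LiesOverPrime 2 →
    ∀ φ : GQ, P.IsFrobeniusAt φ 2 → ∀ n n' : ℕ,
      ∀ τ ∈ P.inertiaSubgroupIn ℚ, ∀ τ' ∈ P.inertiaSubgroupIn ℚ,
        (α ^ n' • ρ.ρ (φ ^ n' * τ') - LinearMap.det (ρ.ρ (φ ^ n' * τ')) • 1) *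
          (ρ.ρ (φ ^ n * τ) - α ^ n • 1) = 0

/-- The crystalline equations of a set of pairs of elements of inertia. -/
def IsCrystalline {A : Type} [CommRing A] [IsLocalRing A] (ρ : GaloisRepAdic A)
    (C : Set (GQ × GQ)) : Prop :=
  ∀ x ∈ C, ρ.ρ x.1 + (2 : A) • ρ.ρ x.2 = (3 : A) • 1

theorem isOrdinary_iff {A : Type} [CommRing A] [IsLocalRing A] (ρ : GaloisRepAdic A)
    (b : Module.Basis (Fin 2) A ρ.V) (α : A) :
    IsOrdinary ρ α ↔ IsOrdinaryMat (matrixRep ρ b) α := by
  refine forall_congr' fun P => forall_congr' fun _ => forall_congr' fun φ =>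
    forall_congr' fun _ => forall_congr' fun n => forall_congr' fun n' => forall_congr' fun τ =>
    forall_congr' fun _ => forall_congr' fun τ' => forall_congr' fun _ => ?_
  generalize φ ^ n' * τ' = σ'
  generalize φ ^ n * τ = σ
  rw [← (LinearMap.toMatrixAlgEquiv b).injective.eq_iff, map_zero]
  refine Eq.congr ?_ rfl
  simp only [map_mul, map_sub, map_smul, map_one, matrixRep_apply, LinearMap.det_toMatrix]
  rfl

theorem IsOrdinaryMat.map {A B : Type} [CommRing A] [CommRing B] {N : GQ → Matrix (Fin 2) (Fin 2) A}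
    {α : A} (h : IsOrdinaryMat N α) (f : A →+* B) :
    IsOrdinaryMat (fun σ => (N σ).map f) (f α) := by
  intro P hP φ hφ n n' τ hτ τ' hτ'
  have := congrArg f.mapMatrix (h P hP φ hφ n n' τ hτ τ' hτ')
  rw [map_mul, map_sub, map_sub, map_zero] at this
  simpa [RingHom.mapMatrix_apply, RingHom.map_det, Matrix.map_smul' f] using this

theorem isOrdinaryMat_conj_iff {A : Type} [CommRing A] {N N' : MRep A} {α : A}
    (g : (Matrix (Fin 2) (Fin 2) A)ˣ) (h : ∀ σ, (g : Matrix (Fin 2) (Fin 2) A) * N σ = N' σ * g) :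
    IsOrdinaryMat N α ↔ IsOrdinaryMat N' α := by
  have hc : ∀ (a c : A) (σ : GQ), (g : Matrix (Fin 2) (Fin 2) A) * (a • N σ - c • 1) =
      (a • N' σ - c • 1) * g := fun a c σ => by
    rw [mul_sub, sub_mul, mul_smul_comm, mul_smul_comm, smul_mul_assoc, smul_mul_assoc, h σ,
      mul_one, one_mul]
  refine forall_congr' fun P => forall_congr' fun _ => forall_congr' fun φ =>
    forall_congr' fun _ => forall_congr' fun n => forall_congr' fun n' => forall_congr' fun τ =>
    forall_congr' fun _ => forall_congr' fun τ' => forall_congr' fun _ => ?_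
  have h1 : ∀ σ, N σ - α ^ n • 1 = (1 : A) • N σ - α ^ n • 1 := fun σ => by rw [one_smul]
  have h2 : ∀ σ, N' σ - α ^ n • 1 = (1 : A) • N' σ - α ^ n • 1 := fun σ => by rw [one_smul]
  have key : (g : Matrix (Fin 2) (Fin 2) A) *
      ((α ^ n' • N (φ ^ n' * τ') - (N (φ ^ n' * τ')).det • 1) * (N (φ ^ n * τ) - α ^ n • 1)) =
      ((α ^ n' • N' (φ ^ n' * τ') - (N' (φ ^ n' * τ')).det • 1) *
        (N' (φ ^ n * τ) - α ^ n • 1)) * g := by
    rw [h1, h2, (conj_det g (h _)).1, ← mul_assoc, hc, mul_assoc, hc, mul_assoc]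
  constructor
  · intro h0
    rw [h0, mul_zero] at key
    exact g.isUnit.mul_left_eq_zero.mp key.symm
  · intro h0
    rw [h0, zero_mul] at key
    exact g.isUnit.mul_right_eq_zero.mp key

theorem isOrdinary_toAdic_iff {A : Type} [CommRing A] [IsLocalRing A] {N : MRep A} (hc : IsCont N)
    (α : A) : IsOrdinary (toAdic N hc) α ↔ IsOrdinaryMat N α := by
  rw [isOrdinary_iff _ (toAdicBasis N hc), matrixRep_toAdic]

theorem isOrdinary_congr {A : Type} [CommRing A] [IsLocalRing A] {ρ ρ' : GaloisRepAdic A}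
    (h : ρ.IsEquiv ρ') (α : A) : IsOrdinary ρ α ↔ IsOrdinary ρ' α := by
  obtain ⟨g, hg⟩ := (isEquiv_iff_exists_GL (repBasis ρ) (repBasis ρ')).mp h
  rw [isOrdinary_iff _ (repBasis ρ), isOrdinary_iff _ (repBasis ρ')]
  exact isOrdinaryMat_conj_iff g hg

end Pair

namespace LiftData

/-- The condition on the representation of a pair: `C` is the set of crystalline equations (one
pair for the minimal problems, none for the last one). -/
def pairCond (E : LiftData) (Q : Finset ℕ) (C : Set (GQ × GQ)) (𝒪 : Type) [CommRing 𝒪] :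
    ∀ ⦃A : Type⦄ [CommRing A] [IsLocalRing A] [Algebra 𝒪 A], GaloisRepAdic A → Prop :=
  fun _A _ _ _ ρ => ρ.DetIsCyclotomic 2 ∧ Pair.IsCrystalline ρ C ∧
    ρ.IsUnipotentOnInertiaAt E.ℓ₀ ∧
    (∀ q : ℕ, q.Prime → ((q ∣ E.D ∧ q ≠ E.ℓ₀) ∨ q ∈ E.aux) → IsSignedNewAt ρ q (E.sgn q)) ∧
    ∀ q : ℕ, q.Prime → q ≠ 2 → ¬ q ∣ E.D → q ∉ E.aux → q ∉ Q → ρ.IsUnramifiedAt q

end LiftData

namespace Pair

variable {𝒪 : Type} [CommRing 𝒪]

theorem isCrystalline_iff_condition (C : Set (GQ × GQ)) {A : Type} [CommRing A] [IsLocalRing A]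
    [Algebra 𝒪 A] (ρ : GaloisRepAdic A) :
    (groupAlgebraFamily ((fun x : GQ × GQ => MonoidAlgebra.of 𝒪 GQ x.1 +
      (2 : 𝒪) • MonoidAlgebra.of 𝒪 GQ x.2 - algebraMap 𝒪 _ 3) '' C)).condition ρ ↔
      IsCrystalline ρ C := by
  have key : ∀ x : GQ × GQ, evRep (matrixRep ρ (repBasis ρ))
      (MonoidAlgebra.of 𝒪 GQ x.1 + (2 : 𝒪) • MonoidAlgebra.of 𝒪 GQ x.2 - algebraMap 𝒪 _ 3) =
      LinearMap.toMatrixAlgEquiv (repBasis ρ)
        (ρ.ρ x.1 + (2 : A) • ρ.ρ x.2 - (3 : A) • 1) := fun x => by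
    simp only [map_sub, map_add, map_smul, map_one, evRep_of, matrixRep_apply,
      ← algebraMap_smul A (2 : 𝒪), map_ofNat]
    rw [← map_ofNat (algebraMap A (Matrix (Fin 2) (Fin 2) A)) 3, Algebra.algebraMap_eq_smul_one]
    rfl
  constructor
  · intro h x hx
    have h1 := h ⟨_, x, hx, rfl⟩
    change evRep _ _ = 0 at h1
    rw [key, map_eq_zero_iff _ (LinearMap.toMatrixAlgEquiv (repBasis ρ)).injective,
      sub_eq_zero] at h1
    exact h1
  · rintro h ⟨_, x, hx, rfl⟩
    show evRep _ _ = 0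
    rw [key, h x hx, sub_self, map_zero]

variable [IsLocalRing 𝒪]

theorem isDeformationCondition_pairCond (E : LiftData) (Q : Finset ℕ) (C : Set (GQ × GQ)) :
    IsDeformationCondition 𝒪 (E.pairCond Q C 𝒪) := by
  classical
  let Qd : Set ℕ := {q | q = 2 ∨ q ∣ E.D ∨ q ∈ E.aux ∨ q ∈ Q}
  let New : Set ℕ := {q | q.Prime ∧ ((q ∣ E.D ∧ q ≠ E.ℓ₀) ∨ q ∈ E.aux)}
  let Zset : Set (MonoidAlgebra 𝒪 GQ) :=
    {z | ∃ q ∈ New, ∃ P : ValuationSubring (AlgebraicClosure ℚ), P.LiesOverPrime q ∧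
      ∃ φ : GQ, P.IsFrobeniusAt φ q ∧ ∃ τ ∈ P.inertiaSubgroupIn ℚ,
        z = (MonoidAlgebra.of 𝒪 GQ φ - algebraMap 𝒪 _ ((E.sgn q : 𝒪) * (q : 𝒪))) *
            (MonoidAlgebra.of 𝒪 GQ τ - 1) ∨
          z = (MonoidAlgebra.of 𝒪 GQ τ - 1) *
            (MonoidAlgebra.of 𝒪 GQ φ - algebraMap 𝒪 _ (E.sgn q : 𝒪))}
  let Tset : Set (GQ × 𝒪) :=
    {x | ∃ q ∈ New, ∃ P : ValuationSubring (AlgebraicClosure ℚ), P.LiesOverPrime q ∧
      ∃ φ : GQ, P.IsFrobeniusAt φ q ∧ (x = (φ, (E.sgn q : 𝒪) * ((q : 𝒪) + 1)) ∨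
        ∃ τ ∈ P.inertiaSubgroupIn ℚ, x = (τ, 2))}
  refine isDeformationCondition_congr
    (isDeformationCondition_and (isDeformationCondition_detIsCyclotomic Nat.prime_two)
      (isDeformationCondition_and
        (groupAlgebraFamily ((fun x : GQ × GQ => MonoidAlgebra.of 𝒪 GQ x.1 +
          (2 : 𝒪) • MonoidAlgebra.of 𝒪 GQ x.2 - algebraMap 𝒪 _ 3) '' C)).isDeformationCondition
        (isDeformationCondition_and (isDeformationCondition_unipotentOnInertia E.ℓ₀)
          (isDeformationCondition_and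
            (isDeformationCondition_and (traceRelFamily Tset).isDeformationCondition
              (groupAlgebraFamily Zset).isDeformationCondition)
            (isDeformationCondition_unramifiedOutside Qd))))) fun A _ _ _ ρ => ?_
  refine and_congr Iff.rfl (and_congr (isCrystalline_iff_condition C ρ) (and_congr Iff.rfl
    (and_congr ?_ ?_)))
  · constructor
    · rintro ⟨hT, hZ⟩ q hq hqN P hP φ hφ
      refine ⟨?_, fun τ hτ => ⟨?_, ?_, ?_⟩⟩
      · have := (traceRelFamily_iff _ ρ).mp hT _ _ ⟨q, ⟨hq, hqN⟩, P, hP, φ, hφ, Or.inl rfl⟩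
        simpa using this
      · have := (traceRelFamily_iff _ ρ).mp hT _ _ ⟨q, ⟨hq, hqN⟩, P, hP, φ, hφ, Or.inr ⟨τ, hτ, rfl⟩⟩
        simpa only [map_ofNat] using this
      · have := hZ ⟨_, ⟨q, ⟨hq, hqN⟩, P, hP, φ, hφ, τ, hτ, Or.inl rfl⟩⟩
        refine (LinearMap.toMatrixAlgEquiv (repBasis ρ)).injective ?_
        change evRep _ _ = 0 at this
        rw [(evRep_sub_mul_sub ρ φ τ _).1, map_mul (algebraMap 𝒪 A), map_intCast,
          map_natCast] at this
        rw [map_zero]
        exact this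
      · have := hZ ⟨_, ⟨q, ⟨hq, hqN⟩, P, hP, φ, hφ, τ, hτ, Or.inr rfl⟩⟩
        refine (LinearMap.toMatrixAlgEquiv (repBasis ρ)).injective ?_
        change evRep _ _ = 0 at this
        rw [(evRep_sub_mul_sub ρ φ τ _).2, map_intCast] at this
        rw [map_zero]
        exact this
    · intro h
      refine ⟨(traceRelFamily_iff _ ρ).mpr ?_, ?_⟩
      · rintro σ o ⟨q, ⟨hq, hqN⟩, P, hP, φ, hφ, (he | ⟨τ, hτ, he⟩)⟩
        · simp only [Prod.mk.injEq] at he
          obtain ⟨rfl, rfl⟩ := he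
          simpa using (h q hq hqN P hP σ hφ).1
        · simp only [Prod.mk.injEq] at he
          obtain ⟨rfl, rfl⟩ := he
          simpa only [map_ofNat] using ((h q hq hqN P hP φ hφ).2 σ hτ).1
      · rintro ⟨z, q, ⟨hq, hqN⟩, P, hP, φ, hφ, τ, hτ, rfl | rfl⟩
        · show evRep _ _ = 0
          rw [(evRep_sub_mul_sub ρ φ τ _).1, map_mul (algebraMap 𝒪 A), map_intCast, map_natCast,
            ((h q hq hqN P hP φ hφ).2 τ hτ).2.1, map_zero]
        · show evRep _ _ = 0
          rw [(evRep_sub_mul_sub ρ φ τ _).2, map_intCast,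
            ((h q hq hqN P hP φ hφ).2 τ hτ).2.2, map_zero]
  · exact ⟨fun h q hq h1 h2 h3 h4 => h q hq (by
      rintro (rfl | h | h | h) <;> [exact h1 rfl; exact h2 h; exact h3 h; exact h4 h]),
      fun h q hq hn => h q hq (fun e => hn (Or.inl e)) (fun e => hn (Or.inr (Or.inl e)))
        (fun e => hn (Or.inr (Or.inr (Or.inl e)))) fun e => hn (Or.inr (Or.inr (Or.inr e)))⟩

/-- The primes at which pairs of a problem may ramify. -/
noncomputable def ramSet (E : LiftData) (Q : Finset ℕ) : Finset Nat.Primes :=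
  (insert 2 (E.D.primeFactors ∪ E.aux ∪ Q)).subtype Nat.Prime

omit [IsLocalRing 𝒪] in
theorem isUnramifiedAt_of_pairCond {E : LiftData} {Q : Finset ℕ} {C : Set (GQ × GQ)} {A : Type}
    [CommRing A] [IsLocalRing A] [Algebra 𝒪 A] {ρ : GaloisRepAdic A}
    (h : E.pairCond Q C 𝒪 ρ) (q : Nat.Primes) (hq : q ∉ ramSet E Q) :
    ρ.IsUnramifiedAt (q : ℕ) := by
  have hD : E.D ≠ 0 := by have := E.mod_eight; omega
  replace hq : (q : ℕ) ∉ insert 2 (E.D.primeFactors ∪ E.aux ∪ Q) := fun hm =>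
    hq (Finset.mem_subtype.mpr hm)
  simp only [Finset.mem_insert, Finset.mem_union, Nat.mem_primeFactors, not_or] at hq
  exact h.2.2.2.2 q q.2 hq.1 (fun h' => hq.2.1.1 ⟨q.2, h', hD⟩) hq.2.1.2 hq.2.2

theorem finite_tangentSet [Finite (ResidueField 𝒪)] (D : NormalData 𝒪) (E : LiftData)
    (Q : Finset ℕ) (C : Set (GQ × GQ)) : Finite (TangentSet D (E.pairCond Q C 𝒪)) :=
  finite_tangentSet_of_unramifiedOutside (S := ramSet E Q) fun _A _ _ _ _ρ h q hq =>
    isUnramifiedAt_of_pairCond h q hq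

/-! ### The functor and the universal pair -/

/-- The index of an ordinary equation. -/
structure OrdIndex where
  /-- a place over `2` -/
  P : ValuationSubring (AlgebraicClosure ℚ)
  /-- a Frobenius -/
  φ : GQ
  /-- exponent -/
  n : ℕ
  /-- exponent -/
  n' : ℕ
  /-- an element of inertia -/
  τ : GQ
  /-- an element of inertia -/
  τ' : GQ
  over_two : P.LiesOverPrime 2
  frob : P.IsFrobeniusAt φ 2
  mem : τ ∈ P.inertiaSubgroupIn ℚ
  mem' : τ' ∈ P.inertiaSubgroupIn ℚ

variable (𝒪) in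
/-- The ordinary equations, on coordinates with one extra variable `α`. -/
noncomputable def ordinaryMap : CoordMap 𝒪 (GlobalCoord Empty Unit) (OrdIndex × Fin 2 × Fin 2) :=
  CoordMap.ofMatrix
    (fun x _A _ _ e =>
      (e (Sum.inr (Sum.inr ())) ^ x.n' • matAt (fun i => e (Sum.inl i)) (x.φ ^ x.n' * x.τ') -
        (matAt (fun i => e (Sum.inl i)) (x.φ ^ x.n' * x.τ')).det • 1) *
      (matAt (fun i => e (Sum.inl i)) (x.φ ^ x.n * x.τ) - e (Sum.inr (Sum.inr ())) ^ x.n • 1))
    fun x A B _ _ _ _ f e => by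
      have hs : ∀ c : A, (c • (1 : Matrix (Fin 2) (Fin 2) A)).map f =
          f c • (1 : Matrix (Fin 2) (Fin 2) B) := fun c => by
        ext i j
        by_cases hij : i = j <;> simp [hij]
      rw [Matrix.map_mul, Matrix.map_sub _ (map_sub f), Matrix.map_sub _ (map_sub f), hs, hs,
        Matrix.map_smul' f _ _ (map_mul f), AlgHom.map_det, map_pow, map_pow]
      rfl

variable (𝒪) in
/-- The ordinary condition on coordinates. -/
noncomputable def ordinaryClosed : Closed 𝒪 (GlobalCoord Empty Unit) :=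
  Closed.equations (ordinaryMap 𝒪)

omit [IsLocalRing 𝒪] in
theorem ordinaryMap_eq_zero_iff {A : Type} [CommRing A] [Algebra 𝒪 A]
    (N : GQ → Matrix (Fin 2) (Fin 2) A) (g : Empty → (Matrix (Fin 2) (Fin 2) A)ˣ) (c : Unit → A) :
    (∀ j, (ordinaryMap 𝒪).val (globalCoords N g c) j = 0) ↔ IsOrdinaryMat N (c ()) := by
  constructor
  · intro h P hP φ hφ n n' τ hτ τ' hτ'
    exact Matrix.ext fun a b => h (⟨P, φ, n, n', τ, τ', hP, hφ, hτ, hτ'⟩, a, b)
  · rintro h ⟨x, a, b⟩
    exact congrFun (congrFun (h x.P x.over_two x.φ x.frob x.n x.n' x.τ x.mem x.τ' x.mem') a) b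

variable (𝒪) in
/-- No frames, the extra coordinate `α` with residue `1`, and the ordinary equations. -/
noncomputable def pairData : FrameData (𝒪 := 𝒪) Empty Unit (fun _ : Empty => PUnit) where
  map v := v.elim
  frame v := v.elim
  extra _ := 1
  cond v := v.elim
  further := ordinaryClosed 𝒪

variable (D : NormalData 𝒪) (E : LiftData) (Q : Finset ℕ) (C : Set (GQ × GQ))

/-- The residual pair satisfies all conditions. -/
abbrev IsResidualPair : Prop :=
  (pairData 𝒪).IsResidualPoint D (isDeformationCondition_pairCond E Q C)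

theorem isResidualPair_iff :
    IsResidualPair D E Q C ↔
      ∃ hc : IsCont D.rbar, E.pairCond Q C 𝒪 (toAdic D.rbar hc) ∧ IsOrdinaryMat D.rbar 1 := by
  constructor
  · intro h
    exact ⟨h.cont, h.type,
      (ordinaryMap_eq_zero_iff (⇑D.rbar) _ (pairData 𝒪).extra).mp h.further⟩
  · rintro ⟨hc, h1, h2⟩
    exact ⟨hc, h1, fun v => v.elim,
      (ordinaryMap_eq_zero_iff (⇑D.rbar) _ (pairData 𝒪).extra).mpr h2⟩

/-- A pair lifting the residual one. -/
structure IsPair {A : Type} [CommRing A] [IsLocalRing A] [Algebra 𝒪 A]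
    (hl : IsLocalHom (algebraMap 𝒪 A)) (hs : Function.Surjective (residue A ∘ algebraMap 𝒪 A))
    (N : MRep A) (α : A) : Prop where
  isDef : IsDef D (E.pairCond Q C 𝒪) hl hs N
  residue_eq : toResidue hl hs α = 1
  ordinary : IsOrdinaryMat N α

variable {D E Q C}

/-- The functor of pairs. -/
noncomputable def pairFunctor (h : IsResidualPair D E Q C) :
    PointFunctor 𝒪 (GlobalCoord Empty Unit) :=
  globalFramed (isDeformationCondition_pairCond E Q C) (pairData 𝒪) h

theorem mem'_pairFunctor_iff {h : IsResidualPair D E Q C} {A : Type} [CommRing A]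
    [IsLocalRing A] [IsNoetherianRing A] [IsAdicComplete (maximalIdeal A) A] [Algebra 𝒪 A]
    (hl : IsLocalHom (algebraMap 𝒪 A)) (hs : Function.Surjective (residue A ∘ algebraMap 𝒪 A))
    {e : GlobalCoord Empty Unit → A} :
    (pairFunctor h).Mem' e ↔ ∃ N α, IsPair D E Q C hl hs N α ∧
      globalCoords (⇑N) (fun v : Empty => v.elim) (fun _ => α) = e := by
  refine (mem'_globalFramed_iff (isDeformationCondition_pairCond E Q C) (pairData 𝒪) hl hs).trans ?_
  constructor
  · rintro ⟨N, g, c, hX, rfl⟩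
    refine ⟨N, c (), ⟨hX.isDef, hX.extra (), ?_⟩, ?_⟩
    · exact (ordinaryMap_eq_zero_iff (⇑N) g c).mp ((Closed.mem'_equations hl hs).mp hX.further)
    · rw [show (fun v : Empty => v.elim) = g from funext fun v => v.elim]
  · rintro ⟨N, α, hp, rfl⟩
    refine ⟨N, _, fun _ => α, ⟨hp.isDef, fun v => v.elim, fun _ => hp.residue_eq, fun v => v.elim,
      ?_⟩, rfl⟩
    exact (Closed.mem'_equations hl hs).mpr ((ordinaryMap_eq_zero_iff (⇑N) _ _).mpr hp.ordinary)

/-- The universal ring exists. -/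
theorem nonempty_universal [Finite (ResidueField 𝒪)] [IsNoetherianRing 𝒪]
    [IsAdicComplete (maximalIdeal 𝒪) 𝒪] (h : IsResidualPair D E Q C) :
    Nonempty (pairFunctor h).UniversalPoint := by
  have : Finite (pairFunctor h).Tangent :=
    finite_tangent_globalFramed (isDeformationCondition_pairCond E Q C) (pairData 𝒪) h
      (finite_tangentSet D E Q C)
  exact PointFunctor.nonempty_universalPoint _

section Universal

variable {h : IsResidualPair D E Q C} (U : (pairFunctor h).UniversalPoint)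

/-- The universal representation. -/
noncomputable def uRep : MRep U.R :=
  ((mem'_pairFunctor_iff U.instIsLocalHom U.residue_surjective).mp U.mem').choose

/-- The universal unit root. -/
noncomputable def uRoot : U.R :=
  ((mem'_pairFunctor_iff U.instIsLocalHom U.residue_surjective).mp U.mem').choose_spec.choose

theorem isPair_universal :
    IsPair D E Q C U.instIsLocalHom U.residue_surjective (uRep U) (uRoot U) :=
  ((mem'_pairFunctor_iff U.instIsLocalHom U.residue_surjective).mp U.mem').choose_spec.choose_spec.1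

theorem coords_universal :
    globalCoords (⇑(uRep U)) (fun v : Empty => v.elim) (fun _ => uRoot U) = U.point :=
  ((mem'_pairFunctor_iff U.instIsLocalHom U.residue_surjective).mp U.mem').choose_spec.choose_spec.2

/-- The universal property. -/
theorem existsUnique_map {A : Type} [CommRing A] [IsLocalRing A] [IsNoetherianRing A]
    [IsAdicComplete (maximalIdeal A) A] [Algebra 𝒪 A] [IsLocalHom (algebraMap 𝒪 A)]
    (hs : Function.Surjective (residue A ∘ algebraMap 𝒪 A)) {N : MRep A} {α : A}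
    (hN : IsPair D E Q C inferInstance hs N α) :
    ∃! f : U.R →ₐ[𝒪] A, IsLocalHom (f : U.R →+* A) ∧
      mapRep (f : U.R →+* A) (uRep U) = N ∧ f (uRoot U) = α := by
  obtain ⟨f, ⟨hf, hfe⟩, huniq⟩ := U.universal A hs
    (globalCoords (⇑N) (fun v : Empty => v.elim) fun _ => α)
    ((mem'_pairFunctor_iff inferInstance hs).mpr ⟨N, α, hN, rfl⟩)
  rw [← coords_universal] at hfe
  refine ⟨f, ⟨hf, MonoidHom.ext fun σ => Matrix.ext fun a b => hfe (Sum.inl (σ, a, b)),
    hfe (Sum.inr (Sum.inr ()))⟩, fun g hg => huniq g ⟨hg.1, ?_⟩⟩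
  rw [← coords_universal]
  rintro (⟨σ, a, b⟩ | ⟨v, -⟩ | u)
  · exact congrFun (congrFun (DFunLike.congr_fun hg.2.1 σ) a) b
  · exact v.elim
  · exact hg.2.2

/-- The entries of the universal representation and the unit root generate topologically. -/
theorem universal_topGen (r : U.R) (n : ℕ) :
    ∃ s ∈ Algebra.adjoin 𝒪
        (insert (uRoot U) (Set.range fun x : GQ × Fin 2 × Fin 2 => uRep U x.1 x.2.1 x.2.2)),
      r - s ∈ maximalIdeal U.R ^ n := by
  obtain ⟨s, hs, hr⟩ := U.topGen r n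
  refine ⟨s, Algebra.adjoin_mono ?_ hs, hr⟩
  rw [← coords_universal]
  rintro _ ⟨⟨σ, a, b⟩ | ⟨v, -⟩ | u, rfl⟩
  · exact Or.inr ⟨(σ, a, b), rfl⟩
  · exact v.elim
  · exact Or.inl rfl

attribute [local instance 10000] dualAlgebra

variable (D E Q C) in
/-- A first order deformation of the type, with some first order unit root making it ordinary. -/
def IsTangentPair [Finite (ResidueField 𝒪)] (N : TangentSet D (E.pairCond Q C 𝒪)) : Prop :=
  ∃ a : ResidueField 𝒪, IsOrdinaryMat N.1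
    (TrivSqZeroExt.inl 1 + TrivSqZeroExt.inr a : DualNumber (ResidueField 𝒪))

end Universal

end Pair

end Fermat.Agent.TwoAdic
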