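import Fermat.Agent.TwoAdic.Pair.Kummer
import Fermat.Agent.TwoAdic.Pair.Cond
import Fermat.Agent.TameInertia.Frobenius

/-!
# The crystalline defect of an ordinary pair

The crystalline defect of an ordinary pair: in the frame adapted to `ker (α ρφ - det ρφ)` the
representation is triangular on the decomposition group, so `ρ s + 2 ρ t - 3` is one element `z`
times a fixed matrix, and Kummer lemma (b) gives `(1 - α²) z = 0`.
-/

set_option autoImplicit false

noncomputable section

open IsLocalRing GaloisRep Fermat.Agent.DefRing Fermat.Agent.Deform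

namespace Fermat.Agent.TwoAdic.Pair

local notation "Ω" => AlgebraicClosure ℚ

variable {A : Type} [CommRing A] [IsLocalRing A]

omit [IsLocalRing A] in
/-- A frame in which an ordinary pair is triangular on the decomposition group. -/
theorem exists_triangular {N : MRep A} {α : A} (hord : IsOrdinaryMat N α)
    {P : ValuationSubring (AlgebraicClosure ℚ)} (hP : P.LiesOverPrime 2) {φ : GQ}
    (hφ : P.IsFrobeniusAt φ 2) (hu : ∃ i j, IsUnit ((α • N φ - (N φ).det • 1) i j)) :
    ∃ g g' : Matrix (Fin 2) (Fin 2) A, g * g' = 1 ∧ g' * g = 1 ∧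
      ∀ (n : ℕ), ∀ τ ∈ P.inertiaSubgroupIn ℚ,
        (g' * N (φ ^ n * τ) * g) 1 0 = 0 ∧ (g' * N (φ ^ n * τ) * g) 1 1 = α ^ n := by
  set M := α • N φ - (N φ).det • (1 : Matrix (Fin 2) (Fin 2) A) with hM
  obtain ⟨i, j, hij⟩ := hu
  obtain ⟨h0, h1, hh⟩ : ∃ h0 h1 : A, M i 0 * h0 + M i 1 * h1 = 1 := by
    fin_cases j
    · obtain ⟨c, hc⟩ := hij.exists_right_inv
      exact ⟨c, 0, by simpa using hc⟩
    · obtain ⟨c, hc⟩ := hij.exists_right_inv
      exact ⟨0, c, by simpa using hc⟩
  let g : Matrix (Fin 2) (Fin 2) A := !![M i 1, h0; -(M i 0), h1]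
  let g' : Matrix (Fin 2) (Fin 2) A := !![h1, -h0; M i 0, M i 1]
  have hgg : g' * g = 1 := by
    ext a b
    fin_cases a <;> fin_cases b <;> simp [g, g', Matrix.mul_apply, Fin.sum_univ_two]
    · linear_combination hh
    · ring
    · ring
    · linear_combination hh
  refine ⟨g, g', mul_eq_one_comm.mp hgg, hgg, fun n τ hτ => ?_⟩
  have h2 := hord P hP φ hφ n 1 τ hτ 1 (one_mem _)
  rw [pow_one, pow_one, mul_one] at h2
  set X := N (φ ^ n * τ) - α ^ n • (1 : Matrix (Fin 2) (Fin 2) A) with hX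
  have hrow : ∀ b, M i 0 * X 0 b + M i 1 * X 1 b = 0 := fun b => by
    have h3 := congrFun (congrFun h2 i) b
    rwa [Matrix.mul_apply, Fin.sum_univ_two, Matrix.zero_apply] at h3
  have hrow' : ∀ b, (g' * X) 1 b = 0 := fun b => by
    simpa [g', Matrix.mul_apply, Fin.sum_univ_two] using hrow b
  have hN : g' * N (φ ^ n * τ) * g = g' * X * g + α ^ n • 1 := by
    rw [hX, mul_sub, sub_mul, mul_smul_comm, smul_mul_assoc, mul_one, hgg, sub_add_cancel]
  have h0' : ∀ b, (g' * X * g) 1 b = 0 := fun b => by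
    rw [Matrix.mul_apply]
    exact Finset.sum_eq_zero fun c _ => by rw [hrow' c, zero_mul]
  rw [hN, Matrix.add_apply, Matrix.add_apply, h0', h0']
  simp

omit [IsLocalRing A] in
/-- `ρ` has a non-scalar residual Frobenius at `2` in the needed sense. -/
theorem exists_isUnit_of_residual {k : Type} [Field k] (f : A →+* k) (hf : ∀ x, f x ≠ 0 → IsUnit x)
    {N : MRep A} {α : A} {φ : GQ} (hα : f α = 1) (hdet : f (N φ).det = 1)
    (hne : (N φ).map f ≠ 1) : ∃ i j, IsUnit ((α • N φ - (N φ).det • 1) i j) := by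
  by_contra hcon
  push Not at hcon
  refine hne (Matrix.ext fun i j => ?_)
  have h1 : f ((α • N φ - (N φ).det • 1) i j) = 0 := by
    by_contra h
    exact hcon i j (hf _ h)
  simp only [Matrix.sub_apply, Matrix.smul_apply, smul_eq_mul, map_sub, map_mul, hα, hdet,
    one_mul, sub_eq_zero] at h1
  rw [Matrix.map_apply, h1]
  rw [Matrix.one_apply, Matrix.one_apply]
  split_ifs <;> simp

variable [IsNoetherianRing A] [Finite (ResidueField A)]

omit [Finite (ResidueField A)] in
theorem eq_zero_of_forall_mem_pow {x : A} (h : ∀ n, x ∈ maximalIdeal A ^ n) : x = 0 := by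
  have h0 := Ideal.iInf_pow_eq_bot_of_isLocalRing (maximalIdeal A)
    (maximalIdeal.isMaximal A).ne_top
  rw [← Submodule.mem_bot A, ← h0, Submodule.mem_iInf]
  exact h

/-- **The crystalline defect of an ordinary pair.** -/
theorem KummerPair.exists_defect (K : KummerPair) {N : MRep A} (hc : IsCont N)
    (hdet : (toAdic N hc).DetIsCyclotomic 2) {α : A} (hα : IsUnit α) (hord : IsOrdinaryMat N α)
    (hu : ∃ φ, K.P.IsFrobeniusAt φ 2 ∧ ∃ i j, IsUnit ((α • N φ - (N φ).det • 1) i j)) :
    ∃ (z : A) (E : Matrix (Fin 2) (Fin 2) A),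
      N K.s + (2 : A) • N K.t - (3 : A) • 1 = z • E ∧ (1 - α ^ 2) * z = 0 ∧
      (N K.s + (2 : A) • N K.t = (3 : A) • 1 → z = 0) := by
  obtain ⟨φ, hφ, hu⟩ := hu
  obtain ⟨g, g', hgg', hg'g, htri⟩ := exists_triangular hord K.over_two hφ hu
  have h2m : (2 : A) ∈ maximalIdeal A := by simpa using hdet.1
  have hdetN : ∀ σ, LinearMap.det ((toAdic N hc).ρ σ) = (N σ).det := fun σ =>
    LinearMap.det_toLin' (N σ)
  -- the triangular representation
  let T : MRep A :=
    { toFun := fun σ => g' * N σ * g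
      map_one' := by rw [map_one, mul_one, hg'g]
      map_mul' := fun σ τ => by
        rw [map_mul, show g' * N σ * g * (g' * N τ * g) = g' * N σ * (g * g') * N τ * g by
          simp only [mul_assoc], hgg', mul_one]
        simp only [mul_assoc] }
  have hTdet : ∀ σ, (T σ).det = (N σ).det := fun σ => by
    show (g' * N σ * g).det = _
    rw [Matrix.det_mul, Matrix.det_mul, mul_right_comm, ← Matrix.det_mul, hg'g, Matrix.det_one,
      one_mul]
  have hTI : ∀ τ ∈ K.P.inertiaSubgroupIn ℚ,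
      T τ 1 0 = 0 ∧ T τ 1 1 = 1 ∧ T τ 0 0 = (N τ).det := by
    intro τ hτ
    obtain ⟨h1, h2⟩ := htri 0 τ hτ
    rw [pow_zero, one_mul] at h1 h2
    rw [pow_zero] at h2
    refine ⟨h1, h2, ?_⟩
    have h3 := hTdet τ
    rw [Matrix.det_fin_two, show T τ 1 1 = 1 from h2, show T τ 1 0 = 0 from h1] at h3
    simpa using h3
  have hTφ : T φ 1 0 = 0 ∧ T φ 1 1 = α ∧ T φ 0 0 * α = (N φ).det := by
    obtain ⟨h1, h2⟩ := htri 1 1 (one_mem _)
    rw [pow_one, mul_one] at h1 h2
    rw [pow_one] at h2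
    refine ⟨h1, h2, ?_⟩
    have h3 := hTdet φ
    rw [Matrix.det_fin_two, show T φ 1 1 = α from h2, show T φ 1 0 = 0 from h1] at h3
    simpa using h3
  have hTmul : ∀ σ τ : GQ, T (σ * τ) 0 1 = T σ 0 0 * T τ 0 1 + T σ 0 1 * T τ 1 1 := fun σ τ => by
    rw [map_mul, Matrix.mul_apply, Fin.sum_univ_two]
  -- exponents
  choose ex hex using fun (n : ℕ) (σ : GQ) => exists_exponent_level Nat.prime_two σ n
  have hexdet : ∀ n σ, (N σ).det - (ex n σ : A) ∈ Ideal.span {((2 ^ n : ℕ) : A)} := fun n σ => by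
    rw [← hdetN]; exact hdet.2 n σ _ (hex n σ)
  obtain ⟨αi, hαi⟩ := hα.exists_right_inv
  set d := T K.s 0 1 + 2 * T K.t 0 1 with hd
  have hkill : ∀ n : ℕ, (1 - αi ^ 2) * d ∈ maximalIdeal A ^ n := by
    intro n
    set I := maximalIdeal A ^ (n + 1) with hI
    have : Finite (A ⧸ maximalIdeal A) := inferInstanceAs (Finite (ResidueField A))
    have : Finite (A ⧸ I) := Ideal.finite_quotient_pow (IsNoetherian.noetherian _) (n + 1)
    let q := Ideal.Quotient.mk I
    have hq2 : (2 : A ⧸ I) ^ (n + 1) = 0 := by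
      rw [← map_ofNat q 2, ← map_pow]
      exact Ideal.Quotient.eq_zero_iff_mem.mpr (Ideal.pow_mem_pow h2m _)
    have hdq : ∀ σ, q (N σ).det = (ex (n + 1) σ : A ⧸ I) := fun σ => by
      rw [← map_natCast q, Ideal.Quotient.eq]
      refine (?_ : Ideal.span {((2 ^ (n + 1) : ℕ) : A)} ≤ I) (hexdet (n + 1) σ)
      rw [Ideal.span_le, Set.singleton_subset_iff, Nat.cast_pow, Nat.cast_ofNat]
      exact Ideal.pow_mem_pow h2m _
    obtain ⟨L, hL, hL1⟩ := hc (n + 1)
    have h := K.mul_defect_eq (R := A ⧸ I) hq2 (ex (n + 1)) (hex (n + 1)) (fun σ => q (T σ 0 1))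
      ⟨L, hL, fun σ _ τ hτ hτL => by
        have h0 : q (T τ 0 1) = 0 := Ideal.Quotient.eq_zero_iff_mem.mpr (by
          have h1 : T τ 0 1 = (g' * (N τ - 1) * g) 0 1 := by
            show (g' * N τ * g) 0 1 = _
            rw [mul_sub, sub_mul, mul_one, hg'g, Matrix.sub_apply, Matrix.one_apply_ne (by decide),
              sub_zero]
          rw [h1]
          simp only [Matrix.mul_apply]
          exact Submodule.sum_mem _ fun a _ => Ideal.mul_mem_right _ _
            (Submodule.sum_mem _ fun b _ => Ideal.mul_mem_left _ _ (hL1 τ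
              (fun x hx => (IntermediateField.mem_fixingSubgroup_iff L τ).mp hτL x hx) b a)))
        show q (T (σ * τ) 0 1) = q (T σ 0 1)
        rw [hTmul, (hTI τ hτ).2.1, mul_one, map_add, map_mul, h0, mul_zero, zero_add]⟩
      (fun σ hσ τ hτ => by
        show q (T (σ * τ) 0 1) = _
        rw [hTmul, (hTI τ hτ).2.1, (hTI σ hσ).2.2, mul_one, map_add, map_mul, hdq, add_comm])
      hφ.mem_decompositionSubgroup (q αi ^ 2) (-(q αi * q (T φ 0 1)))
      (fun τ hτ => by
        have hτ' := conj_mem_inertia hφ.mem_decompositionSubgroup hτ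
        have e1 := hTmul (φ * τ * φ⁻¹) φ
        rw [inv_mul_cancel_right, hTmul, (hTI τ hτ).2.1, (hTI _ hτ').2.2, hTφ.2.1, mul_one] at e1
        have hdet' : (N (φ * τ * φ⁻¹)).det = (N τ).det := by
          rw [map_mul, map_mul, Matrix.det_mul, Matrix.det_mul, mul_right_comm, ← Matrix.det_mul,
            ← map_mul, mul_inv_cancel, map_one, Matrix.det_one, one_mul]
        rw [hdet'] at e1
        generalize φ * τ * φ⁻¹ = w at e1 ⊢
        have e2 := congrArg q e1
        have e3 := congrArg q hTφ.2.2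
        have e4 := congrArg q hαi
        simp only [map_add, map_mul, map_one, hdq] at e2 e3 e4
        show q (T w 0 1) = _
        linear_combination (-(q αi)) * e2 +
          (q αi ^ 2 * q (T τ 0 1)) * e3 -
          (q (T w 0 1) + q αi * q (T φ 0 0) * q (T τ 0 1)) * e4)
    refine Ideal.pow_le_pow_right (Nat.le_succ n) (Ideal.Quotient.eq_zero_iff_mem.mp ?_)
    show q ((1 - αi ^ 2) * d) = 0
    rw [hd, map_mul, map_add, map_mul, map_ofNat, map_sub, map_one, map_pow]
    linear_combination -h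
  -- the values of the determinant at the pair
  have hdets : (N K.s).det = 5 := sub_eq_zero.mp (eq_zero_of_forall_mem_pow fun n => by
    refine (?_ : Ideal.span {((2 ^ n : ℕ) : A)} ≤ maximalIdeal A ^ n)
      (by have := hdet.2 n K.s 5 fun μ hμ => K.exp.s_root n μ hμ
          rw [hdetN] at this; simpa using this)
    rw [Ideal.span_le, Set.singleton_subset_iff, Nat.cast_pow, Nat.cast_ofNat]
    exact Ideal.pow_mem_pow h2m _)
  have hdett : (N K.t).det = -1 := sub_eq_zero.mp (eq_zero_of_forall_mem_pow fun n => by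
    have h1 := hdet.2 n K.t (2 ^ n - 1) fun μ hμ => by
      rw [K.exp.t_root n μ hμ, pow_sub₀ _ (ne_zero_of_pow_eq_one hμ) Nat.one_le_two_pow, hμ,
        pow_one, one_mul]
    rw [hdetN, Ideal.mem_span_singleton] at h1
    refine (?_ : Ideal.span {((2 ^ n : ℕ) : A)} ≤ maximalIdeal A ^ n)
      (Ideal.mem_span_singleton.mpr ?_)
    · rw [Ideal.span_le, Set.singleton_subset_iff, Nat.cast_pow, Nat.cast_ofNat]
      exact Ideal.pow_mem_pow h2m _
    · obtain ⟨c, hc'⟩ := h1
      refine ⟨c + 1, ?_⟩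
      rw [Nat.cast_sub Nat.one_le_two_pow, Nat.cast_one] at hc'
      linear_combination hc')
  have hs := hTI _ K.exp.s_mem
  have ht := hTI _ K.exp.t_mem
  have hZ : T K.s + (2 : A) • T K.t - (3 : A) • 1 = d • Matrix.single 0 1 1 := by
    ext a b
    fin_cases a <;> fin_cases b <;> simp [hd, hs.1, hs.2.1, hs.2.2, ht.1, ht.2.1, ht.2.2,
      hdets, hdett] <;> ring
  have hback : ∀ σ, N σ = g * T σ * g' := fun σ => by
    show _ = g * (g' * N σ * g) * g'
    rw [show g * (g' * N σ * g) * g' = g * g' * N σ * (g * g') by simp only [mul_assoc], hgg',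
      one_mul, mul_one]
  refine ⟨d, g * Matrix.single 0 1 1 * g', ?_, ?_, fun h0 => ?_⟩
  · rw [← smul_mul_assoc, ← mul_smul_comm, ← hZ, hback, hback, mul_sub, sub_mul, mul_add,
      add_mul, mul_smul_comm, smul_mul_assoc, mul_smul_comm, smul_mul_assoc, mul_one, hgg']
  · have h1 := eq_zero_of_forall_mem_pow hkill
    linear_combination (-(α ^ 2)) * h1 - d * (α * αi + 1) * hαi
  · have h1 : T K.s + (2 : A) • T K.t - (3 : A) • 1 = 0 := by
      have h2 : g' * (N K.s + (2 : A) • N K.t) * g = g' * ((3 : A) • 1) * g := by rw [h0]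
      rw [mul_add, add_mul, mul_smul_comm, smul_mul_assoc, mul_smul_comm, smul_mul_assoc, mul_one,
        hg'g] at h2
      exact sub_eq_zero.mpr h2
    rw [hZ] at h1
    simpa using congrFun (congrFun h1 0) 1

/-- At a point with `α² ≠ 1` the crystalline equation is automatic. -/
theorem KummerPair.crystalline_of_isDomain [IsDomain A] (K : KummerPair) {N : MRep A}
    (hc : IsCont N) (hdet : (toAdic N hc).DetIsCyclotomic 2) {α : A} (hα : IsUnit α)
    (hord : IsOrdinaryMat N α)
    (hu : ∃ φ, K.P.IsFrobeniusAt φ 2 ∧ ∃ i j, IsUnit ((α • N φ - (N φ).det • 1) i j))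
    (hne : α ^ 2 ≠ 1) : N K.s + (2 : A) • N K.t = (3 : A) • 1 := by
  obtain ⟨z, E, hE, hz, -⟩ := K.exists_defect hc hdet hα hord hu
  rw [(mul_eq_zero.mp hz).resolve_left (sub_ne_zero.mpr (Ne.symm hne)), zero_smul,
    sub_eq_zero] at hE
  exact hE

end Fermat.Agent.TwoAdic.Pair
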