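import Fermat.Agent.TwoAdic.Pair.Cond
import Fermat.Agent.Deform.Traces

/-!
# The entry ideal of the universal ring of pairs

The ideal `(ϖ, entries - constants)` of the universal ring of pairs: modulo it the universal
representation is the residual one.
-/

set_option autoImplicit false

open IsLocalRing GaloisRep Fermat.Agent.DefRing Fermat.Agent.Deform

namespace Fermat.Agent.TwoAdic.Pair

variable {𝒪 : Type} [CommRing 𝒪] [IsLocalRing 𝒪]

section Entry

variable {A : Type} [CommRing A] [Algebra 𝒪 A] (r : MRep (ResidueField 𝒪))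

/-- Entries of `N` minus lifts of the entries of `r`, and the maximal ideal of the base. -/
noncomputable def entryIdealOf (N : MRep A) : Ideal A :=
  (maximalIdeal 𝒪).map (algebraMap 𝒪 A) ⊔
    Ideal.span {a : A | ∃ σ i j, ∃ o : 𝒪, residue 𝒪 o = r σ i j ∧ a = N σ i j - algebraMap 𝒪 A o}

theorem sub_mem_entryIdealOf (N : MRep A) {σ : GQ} {i j : Fin 2} {o : 𝒪}
    (ho : residue 𝒪 o = r σ i j) : N σ i j - algebraMap 𝒪 A o ∈ entryIdealOf r N :=
  Ideal.mem_sup_right (Ideal.subset_span ⟨σ, i, j, o, ho, rfl⟩)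

/-- The ideal is functorial. -/
theorem map_entryIdealOf {B : Type} [CommRing B] [Algebra 𝒪 B] (N : MRep A) (f : A →ₐ[𝒪] B) :
    (entryIdealOf r N).map f = entryIdealOf r (mapRep (f : A →+* B) N) := by
  show Ideal.map (f : A →+* B) _ = _
  rw [entryIdealOf, entryIdealOf, Ideal.map_sup, Ideal.map_map, f.comp_algebraMap, Ideal.map_span]
  congr 2
  ext b
  constructor
  · rintro ⟨a, ⟨σ, i, j, o, ho, rfl⟩, rfl⟩
    exact ⟨σ, i, j, o, ho, by simp⟩
  · rintro ⟨σ, i, j, o, ho, rfl⟩
    exact ⟨_, ⟨σ, i, j, o, ho, rfl⟩, by simp⟩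

/-- An element at which `r` is trivial is congruent to one. -/
theorem sub_one_mem_entryIdealOf (N : MRep A) {σ : GQ} (hσ : r σ = 1) (i j : Fin 2) :
    (N σ - 1) i j ∈ entryIdealOf r N := by
  by_cases h : i = j
  · subst h
    have := sub_mem_entryIdealOf r N (σ := σ) (i := i) (j := i) (o := 1) (by simp [hσ])
    simpa using this
  · have := sub_mem_entryIdealOf r N (σ := σ) (i := i) (j := j) (o := 0) (by simp [hσ, h])
    simpa [h] using this

/-- A diagonal value in a frame of an element at which `r` is trivial is congruent to one. -/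
theorem diag_sub_one_mem_entryIdealOf (N : MRep A) {σ : GQ} (hσ : r σ = 1)
    (g : (Matrix (Fin 2) (Fin 2) A)ˣ) (d : Fin 2 → A)
    (hg : N σ * g.1 = g.1 * Matrix.diagonal d) (i : Fin 2) : d i - 1 ∈ entryIdealOf r N := by
  have h2 : Matrix.diagonal d - 1 = g⁻¹.1 * (N σ - 1) * g.1 := by
    rw [mul_sub, sub_mul, mul_one, Units.inv_mul, mul_assoc, hg, ← mul_assoc, Units.inv_mul,
      one_mul]
  have h3 := congrFun (congrFun h2 i) i
  rw [Matrix.sub_apply, Matrix.diagonal_apply_eq, Matrix.one_apply_eq] at h3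
  rw [h3]
  simp only [Matrix.mul_apply]
  exact Submodule.sum_mem _ fun j _ => Ideal.mul_mem_right _ _
    (Submodule.sum_mem _ fun l _ => Ideal.mul_mem_left _ _ (sub_one_mem_entryIdealOf r N hσ l j))

omit [IsLocalRing 𝒪] [Algebra 𝒪 A] in
/-- Where the representation is trivial, so are the diagonal values in any frame. -/
theorem diag_eq_one_of_eq_one {B : Type} [CommRing B] (f : A →+* B) (N : MRep A) {σ : GQ}
    (g : (Matrix (Fin 2) (Fin 2) A)ˣ) (d : Fin 2 → A)
    (hg : N σ * g.1 = g.1 * Matrix.diagonal d) (h : mapRep f N σ = 1) (i : Fin 2) :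
    f (d i) = 1 := by
  have h1 := congrArg f.mapMatrix hg
  have hσ : f.mapMatrix (N σ) = 1 := h
  rw [map_mul, map_mul, hσ, one_mul] at h1
  have h2 := (IsUnit.map f.mapMatrix g.isUnit).mul_left_cancel ((mul_one _).trans h1)
  simpa [RingHom.mapMatrix_apply] using (congrFun (congrFun h2 i) i).symm

end Entry

variable [Finite (ResidueField 𝒪)] {D : NormalData 𝒪} {E : LiftData} {Q : Finset ℕ}
  {C : Set (GQ × GQ)} {h : IsResidualPair D E Q C} (U : (pairFunctor h).UniversalPoint)

/-- The entry ideal of the universal pair. -/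
noncomputable def entryIdeal : Ideal U.R := entryIdealOf D.rbar (uRep U)

/-- **Trace rigidity**: a map killing `ϖ` with constant traces kills the entry ideal. -/
theorem map_entryIdeal_eq_bot {B : Type} [CommRing B] [IsLocalRing B] [Algebra 𝒪 B]
    (hl : IsLocalHom (algebraMap 𝒪 B)) (hs : Function.Surjective (residue B ∘ algebraMap 𝒪 B))
    (f : U.R →ₐ[𝒪] B) (hf : IsLocalHom (f : U.R →+* B))
    (hspan : Submodule.span (ResidueField 𝒪) (Set.range D.rbar) = ⊤)
    (hϖ : ∀ o ∈ maximalIdeal 𝒪, algebraMap 𝒪 B o = 0)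
    (htr : ∀ σ, ∃ o : 𝒪, residue 𝒪 o = Matrix.trace (D.rbar σ) ∧
      f (Matrix.trace (uRep U σ)) = algebraMap 𝒪 B o) :
    (entryIdeal U).map f = ⊥ := by
  let ι : ResidueField 𝒪 →ₐ[𝒪] B := Ideal.Quotient.liftₐ _ (Algebra.ofId 𝒪 B) hϖ
  have hι : ∀ o, ι (residue 𝒪 o) = algebraMap 𝒪 B o := fun o => AlgHom.commutes ι o
  have hU := isPair_universal U
  have hιl : IsLocalHom (ι : ResidueField 𝒪 →+* B) := inferInstance
  have hred : D.Reduces hl hs (mapRep (ι : ResidueField 𝒪 →+* B) D.rbar) := by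
    refine MonoidHom.ext fun σ => Matrix.ext fun i j => ?_
    obtain ⟨o, ho⟩ := residue_surjective (D.rbar σ i j)
    simp only [mapRep_apply, Matrix.map_apply, RingHom.coe_coe, ← ho, hι, AlgHom.commutes]
    rfl
  have heq : mapRep (f : U.R →+* B) (uRep U) = mapRep (ι : ResidueField 𝒪 →+* B) D.rbar := by
    refine eq_of_trace_eq (hl := hl) (hs := hs) hspan (hU.isDef.normal.map f)
      ((D.isNormal_rbar).map ι) (hU.isDef.reduces.map f hf) hred fun σ => ?_
    obtain ⟨o, ho, hfo⟩ := htr σ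
    have h1 : Matrix.trace (mapRep (f : U.R →+* B) (uRep U) σ) = f (Matrix.trace (uRep U σ)) := by
      simp [Matrix.trace, Fin.sum_univ_two]
    have h2 : Matrix.trace (mapRep (ι : ResidueField 𝒪 →+* B) D.rbar σ) =
        ι (Matrix.trace (D.rbar σ)) := by simp [Matrix.trace, Fin.sum_univ_two]
    rw [h1, h2, hfo, ← ho, hι]
  rw [entryIdeal, map_entryIdealOf, heq, entryIdealOf, sup_eq_bot_iff]
  refine ⟨?_, Ideal.span_eq_bot.mpr ?_⟩
  · rw [Ideal.map_eq_bot_iff_le_ker]
    exact hϖ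
  · rintro _ ⟨σ, i, j, o, ho, rfl⟩
    rw [mapRep_apply, Matrix.map_apply, RingHom.coe_coe, ← ho, hι, sub_self]

end Fermat.Agent.TwoAdic.Pair
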