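import Fermat.Agent.TwoAdic.Pair.Quotient

/-!
# Removing an auxiliary prime from a ring of pairs

Removing an auxiliary prime `q`: `R̃_A / (b) ≃ R̃_B / (u)` where `b` generates the inertia ideal at
`q` and `u = tr ρ(Frob_q) - s (q + 1)`.
-/

set_option autoImplicit false

noncomputable section

open IsLocalRing GaloisRep Fermat.Agent.DefRing Fermat.Agent.Deform
open scoped Pointwise

namespace Fermat.Agent.TwoAdic.Pair

variable {𝒪 : Type} [CommRing 𝒪] [IsLocalRing 𝒪] {D : NormalData 𝒪} {E : LiftData}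
  {Q : Finset ℕ} {C : Set (GQ × GQ)}

/-- A proper quotient of a complete Noetherian local algebra with the residue field of `𝒪`. -/
theorem quotient_setup {R : Type} [CommRing R] [IsLocalRing R] [IsNoetherianRing R]
    [IsAdicComplete (maximalIdeal R) R] [Algebra 𝒪 R] (hl : IsLocalHom (algebraMap 𝒪 R))
    (hs : Function.Surjective (residue R ∘ algebraMap 𝒪 R)) {J : Ideal R}
    (hJ : J ≤ maximalIdeal R) :
    ∃ (_ : IsLocalRing (R ⧸ J)), IsAdicComplete (maximalIdeal (R ⧸ J)) (R ⧸ J) ∧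
      IsLocalHom (algebraMap 𝒪 (R ⧸ J)) ∧
      Function.Surjective (residue (R ⧸ J) ∘ algebraMap 𝒪 (R ⧸ J)) ∧
      IsLocalHom (Ideal.Quotient.mk J) := by
  have : Nontrivial (R ⧸ J) := Ideal.Quotient.nontrivial_iff.mpr fun htop =>
    (maximalIdeal.isMaximal R).ne_top (top_le_iff.mp (htop ▸ hJ))
  have hloc : IsLocalRing (R ⧸ J) :=
    IsLocalRing.of_surjective' (Ideal.Quotient.mk J) Ideal.Quotient.mk_surjective
  have hmk : IsLocalHom (Ideal.Quotient.mk J) :=
    isLocalHom_of_surjective' _ Ideal.Quotient.mk_surjective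
  have : IsLocalHom (algebraMap R (R ⧸ J)) := hmk
  refine ⟨hloc, IsLocalRing.isAdicComplete_of_module_finite (𝒪 := R) (T := R ⧸ J),
    ⟨fun o ho => hl.map_nonunit o (hmk.map_nonunit _ ho)⟩, fun y => ?_, hmk⟩
  obtain ⟨r, rfl⟩ := IsLocalRing.residue_surjective y
  obtain ⟨x, rfl⟩ := Ideal.Quotient.mk_surjective r
  obtain ⟨o, ho⟩ := exists_algebraMap_add_mem hs x
  refine ⟨o, (Ideal.Quotient.mk_eq_mk_iff_sub_mem _ _).mpr ?_⟩
  intro hu
  rw [show algebraMap 𝒪 (R ⧸ J) o = Ideal.Quotient.mk J (algebraMap 𝒪 R o) from rfl, ← map_sub]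
    at hu
  exact (by simpa using neg_mem ho : algebraMap 𝒪 R o - x ∈ maximalIdeal R) (hmk.map_nonunit _ hu)

/-- Where inertia is trivial the trace of Frobenius does not depend on the choices. -/
theorem trace_frobenius_eq {A : Type} [CommRing A] (N : MRep A) {q : ℕ} (hq : q.Prime)
    (hur : ∀ P : ValuationSubring (AlgebraicClosure ℚ), P.LiesOverPrime q →
      ∀ τ ∈ P.inertiaSubgroupIn ℚ, N τ = 1)
    {P P' : ValuationSubring (AlgebraicClosure ℚ)} (hP : P.LiesOverPrime q)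
    (hP' : P'.LiesOverPrime q) {φ φ' : GQ} (hφ : P.IsFrobeniusAt φ q)
    (hφ' : P'.IsFrobeniusAt φ' q) : (N φ').trace = (N φ).trace := by
  obtain ⟨g, rfl⟩ := Frobenius.exists_smul_eq_of_liesOverPrime_qbar hq hP hP'
  have h2 : N φ' = N (g * φ * g⁻¹) := by
    have h3 := hur _ hP' _
      (Frobenius.isFrobeniusAt_inv_mul_mem_inertia (Frobenius.isFrobeniusAt_conj hφ g) hφ')
    calc N φ' = N ((g * φ * g⁻¹) * ((g * φ * g⁻¹)⁻¹ * φ')) := by rw [mul_inv_cancel_left]
      _ = _ := by rw [map_mul, h3, mul_one]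
  rw [h2, map_mul, map_mul, Matrix.trace_mul_comm, ← mul_assoc, ← map_mul, inv_mul_cancel, map_one,
    one_mul]

/-- Matrices killed on both sides by matrices with unit entries: one entry generates all. -/
theorem exists_entry_generates {A : Type} [CommRing A] {U V : Matrix (Fin 2) (Fin 2) A}
    (hU : ∃ i j, IsUnit (U i j)) (hV : ∃ i j, IsUnit (V i j)) :
    ∃ i₀ j₀ : Fin 2, ∀ X : Matrix (Fin 2) (Fin 2) A, V * X = 0 → X * U = 0 →
      ∀ i j, X i j ∈ Ideal.span ({X i₀ j₀} : Set A) := by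
  obtain ⟨a, b, hUu⟩ := hU
  obtain ⟨c, d, hVu⟩ := hV
  refine ⟨1 - d, 1 - a, fun X h1 h2 i j => ?_⟩
  set I := Ideal.span ({X (1 - d) (1 - a)} : Set A)
  have hcol : ∀ i, X i (1 - a) ∈ I → X i a ∈ I := fun i hi => by
    have e := congrFun (congrFun h2 i) b
    simp only [Matrix.mul_apply, Fin.sum_univ_two, Matrix.zero_apply] at e
    refine (Ideal.mul_unit_mem_iff_mem I hUu).mp ?_
    rcases (by decide : ∀ x : Fin 2, x = 0 ∨ x = 1) a with rfl | rfl
    · rw [show (1 - (0 : Fin 2)) = 1 from rfl] at hi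
      rw [show X i 0 * U 0 b = -(X i 1 * U 1 b) by linear_combination e]
      exact neg_mem (Ideal.mul_mem_right _ _ hi)
    · rw [show (1 - (1 : Fin 2)) = 0 from rfl] at hi
      rw [show X i 1 * U 1 b = -(X i 0 * U 0 b) by linear_combination e]
      exact neg_mem (Ideal.mul_mem_right _ _ hi)
  have hrow : ∀ j, X (1 - d) j ∈ I → X d j ∈ I := fun j hj => by
    have e := congrFun (congrFun h1 c) j
    simp only [Matrix.mul_apply, Fin.sum_univ_two, Matrix.zero_apply] at e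
    refine (Ideal.unit_mul_mem_iff_mem I hVu).mp ?_
    rcases (by decide : ∀ x : Fin 2, x = 0 ∨ x = 1) d with rfl | rfl
    · rw [show (1 - (0 : Fin 2)) = 1 from rfl] at hj
      rw [show V c 0 * X 0 j = -(V c 1 * X 1 j) by linear_combination e]
      exact neg_mem (Ideal.mul_mem_left _ _ hj)
    · rw [show (1 - (1 : Fin 2)) = 0 from rfl] at hj
      rw [show V c 1 * X 1 j = -(V c 0 * X 0 j) by linear_combination e]
      exact neg_mem (Ideal.mul_mem_left _ _ hj)
  have h0 : X (1 - d) (1 - a) ∈ I := Ideal.subset_span rfl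
  have hj : ∀ j : Fin 2, j = 1 - a ∨ j = a := (by decide : ∀ a j : Fin 2, j = 1 - a ∨ j = a) a
  have hi : ∀ i : Fin 2, i = 1 - d ∨ i = d := (by decide : ∀ d i : Fin 2, i = 1 - d ∨ i = d) d
  have hfirst : ∀ j, X (1 - d) j ∈ I := fun j => by
    rcases hj j with h | h <;> rw [h]
    · exact h0
    · exact hcol _ h0
  rcases hi i with h | h <;> rw [h]
  · exact hfirst j
  · exact hrow j (hfirst j)

theorem trace_toAdic' {A : Type} [CommRing A] [IsLocalRing A] (N : MRep A) (hc : IsCont N)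
    (σ : GQ) : (toAdic N hc).trace σ = (N σ).trace :=
  Matrix.trace_toLin'_eq (N σ)

variable [CharP (ResidueField 𝒪) 2] {q : ℕ}

/-- The inertia ideal at an auxiliary prime is principal. -/
theorem IsPair.exists_span_inertiaIdeal {A : Type} [CommRing A] [IsLocalRing A] [IsNoetherianRing A]
    [Algebra 𝒪 A] {hl : IsLocalHom (algebraMap 𝒪 A)}
    {hs : Function.Surjective (residue A ∘ algebraMap 𝒪 A)} {N : MRep A} {α : A}
    (h : IsPair D E Q C hl hs N α) (hr : IsDihedralResidual E.D D.rbar) (hq : q ∈ E.aux)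
    {P : ValuationSubring (AlgebraicClosure ℚ)} (hP : P.LiesOverPrime q) {φ : GQ}
    (hφ : P.IsFrobeniusAt φ q) (hA : D.rbar φ ≠ 1) :
    ∃ b : A, b ∈ maximalIdeal A ∧ Scalar.inertiaIdeal N P = Ideal.span {b} := by
  obtain ⟨hqp, hq2, hqD⟩ := E.aux_spec q hq
  obtain ⟨hc, hd⟩ := h.isDef.exists_cont
  have hres := residual_inertia h hr hqp hqD hP
  have hodd : (q : ResidueField 𝒪) = 1 := by
    obtain ⟨m, rfl⟩ : ∃ m, q = 2 * m + 1 := ⟨q / 2, by
      have := Nat.Prime.eq_two_or_odd hqp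
      omega⟩
    rw [Nat.cast_add, Nat.cast_mul, Nat.cast_ofNat, CharTwo.two_eq_zero, zero_mul, zero_add,
      Nat.cast_one]
  have hsgn : ((E.sgn q : ℤ) : ResidueField 𝒪) = 1 := by
    rcases E.sgn_spec q with h | h <;> simp [h, CharTwo.neg_eq]
  have hunit : ∀ c : A, toResidue hl hs c = 1 → ∃ i j, IsUnit ((N φ - c • 1) i j) := fun c hc' => by
    by_contra hcon
    push Not at hcon
    refine hA (Matrix.ext fun i j => ?_)
    have h1 : toResidue hl hs ((N φ - c • 1) i j) = 0 :=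
      (toResidue_eq_zero_iff hl hs).mpr (hcon i j)
    rw [Matrix.sub_apply, Matrix.smul_apply, smul_eq_mul, map_sub, map_mul, hc', one_mul,
      sub_eq_zero, map_matrix_one_apply] at h1
    rw [← h1]
    exact (congrFun (congrFun (DFunLike.congr_fun h.isDef.reduces φ) i) j).symm
  obtain ⟨i₀, j₀, hgen⟩ := exists_entry_generates
    (hunit ((E.sgn q : A)) (by rw [map_intCast, hsgn]))
    (hunit ((E.sgn q : A) * (q : A)) (by rw [map_mul, map_intCast, map_natCast, hsgn, hodd, one_mul]))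
  have hnew : ∀ τ ∈ P.inertiaSubgroupIn ℚ,
      (N φ - ((E.sgn q : A) * (q : A)) • 1) * (N τ - 1) = 0 ∧
        (N τ - 1) * (N φ - (E.sgn q : A) • 1) = 0 := fun τ hτ => by
    obtain ⟨-, e1, e2⟩ := (hd.2.2.2.1 q hqp (Or.inr hq) P hP φ hφ).2 τ hτ
    constructor <;> refine (Matrix.toLinAlgEquiv' (R := A) (n := Fin 2)).injective ?_ <;>
      rw [map_mul, map_sub, map_sub, map_smul, map_one, map_zero]
    · exact e1
    · exact e2
  have h2A : ((2 : ℕ) : A) ∈ maximalIdeal A := by simpa using hd.1.1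
  have : IsHausdorff (maximalIdeal A) A :=
    ⟨fun x hx => eq_zero_of_forall_mem_pow fun n => by simpa [SModEq.zero] using hx n⟩
  obtain ⟨d, hdI, hgenτ, -⟩ := TameInertia.exists_tame_generator (MonoidHom.id GQ) N
    (fun k => by
      obtain ⟨F, hF, h1⟩ := hc k
      exact ⟨F, hF, fun g hg =>
        h1 g fun x hx => (IntermediateField.mem_fixingSubgroup_iff F g).mp hg x hx⟩)
    Nat.prime_two h2A hqp (Ne.symm hq2) hP hres
  have hdgen := hgen (N d - 1) (hnew d hdI).1 (hnew d hdI).2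
  refine ⟨(N d - 1) i₀ j₀, hres d hdI _ _, le_antisymm (Ideal.span_le.2 ?_) ?_⟩
  · rintro x ⟨τ, hτ, i, j, rfl⟩
    refine Scalar.mem_of_forall_mem_sup_pow fun k => ?_
    obtain ⟨n, hn⟩ := hgenτ τ hτ k
    rw [show (N τ - 1) i j = (N d ^ n - 1) i j + (N τ - N d ^ n) i j by simp]
    exact Submodule.add_mem_sup (Scalar.pow_sub_one_entry_mem hdgen n i j) (hn i j)
  · rw [Ideal.span_singleton_le_iff_mem]
    exact Scalar.sub_one_mem_inertiaIdeal N hdI _ _

/-- The inertia ideal at one place makes the representation unramified at `q`. -/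
theorem mapRep_eq_one_of_le {A B : Type} [CommRing A] [CommRing B] (N : MRep A) (f : A →+* B)
    (hq : q.Prime) {P : ValuationSubring (AlgebraicClosure ℚ)} (hP : P.LiesOverPrime q)
    (h : Scalar.inertiaIdeal N P ≤ RingHom.ker f) :
    ∀ P' : ValuationSubring (AlgebraicClosure ℚ), P'.LiesOverPrime q →
      ∀ τ ∈ P'.inertiaSubgroupIn ℚ, mapRep f N τ = 1 := by
  intro P' hP' τ hτ
  obtain ⟨g, rfl⟩ := Frobenius.exists_smul_eq_of_liesOverPrime_qbar hq hP hP'
  have h1 := GalCoh.conj_mem_inertiaSubgroupIn hτ g⁻¹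
  rw [inv_smul_smul, inv_inv] at h1
  have h2 : mapRep f N (g⁻¹ * τ * g) = 1 := Matrix.ext fun i j => by
    have h0 : f ((N (g⁻¹ * τ * g) - 1) i j) = 0 := h (Scalar.sub_one_mem_inertiaIdeal N h1 i j)
    rw [Matrix.sub_apply, map_sub, sub_eq_zero, map_matrix_one_apply] at h0
    exact h0
  calc mapRep f N τ = mapRep f N g * mapRep f N (g⁻¹ * τ * g) * mapRep f N g⁻¹ := by
        rw [← map_mul, ← map_mul]; congr 1; group
    _ = 1 := by rw [h2, mul_one, ← map_mul, mul_inv_cancel, map_one]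

variable {hA : IsResidualPair D E Q C} {hB : IsResidualPair D (E.erase q) Q C}

/-- The Mazur element below. -/
def traceElt (V : (pairFunctor hB).UniversalPoint) (φ : GQ) : V.R :=
  (uRep V φ).trace - (E.sgn q : V.R) * ((q : V.R) + 1)

/-- **Descent at an auxiliary prime.** -/
theorem exists_eraseEquiv (U : (pairFunctor hA).UniversalPoint) (V : (pairFunctor hB).UniversalPoint)
    (hr : IsDihedralResidual E.D D.rbar) (hq : q ∈ E.aux) (hqQ : q ∉ Q)
    {P : ValuationSubring (AlgebraicClosure ℚ)} (hP : P.LiesOverPrime q) {φ : GQ}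
    (hφ : P.IsFrobeniusAt φ q) (htr : (D.rbar φ).trace = 0) (hne : D.rbar φ ≠ 1) :
    ∃ b : U.R, b ∈ maximalIdeal U.R ∧ Scalar.inertiaIdeal (uRep U) P = Ideal.span {b} ∧
      traceElt V φ ∈ maximalIdeal V.R ∧
      ∃ e : (U.R ⧸ Ideal.span {b}) ≃ₐ[𝒪] (V.R ⧸ Ideal.span {traceElt V φ}),
        (∀ σ i j, e (Ideal.Quotient.mk _ (uRep U σ i j)) = Ideal.Quotient.mk _ (uRep V σ i j)) ∧
        e (Ideal.Quotient.mk _ (uRoot U)) = Ideal.Quotient.mk _ (uRoot V) := by
  obtain ⟨hqp, hq2, hqD⟩ := E.aux_spec q hq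
  have hU := isPair_universal U
  have hV := isPair_universal V
  obtain ⟨b, hbm, hbI⟩ := hU.exists_span_inertiaIdeal hr hq hP hφ hne
  set u := traceElt V φ with hu
  have hum : u ∈ maximalIdeal V.R := by
    rw [← toResidue_eq_zero_iff V.instIsLocalHom V.residue_surjective, hu, traceElt, map_sub,
      map_mul, map_add, map_one, map_intCast, map_natCast, Matrix.trace_fin_two, map_add,
      show toResidue V.instIsLocalHom V.residue_surjective (uRep V φ 0 0) = D.rbar φ 0 0 from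
        congrFun (congrFun (DFunLike.congr_fun hV.isDef.reduces φ) 0) 0,
      show toResidue V.instIsLocalHom V.residue_surjective (uRep V φ 1 1) = D.rbar φ 1 1 from
        congrFun (congrFun (DFunLike.congr_fun hV.isDef.reduces φ) 1) 1,
      ← Matrix.trace_fin_two, htr]
    obtain ⟨m, hm⟩ : ∃ m, q + 1 = 2 * m := ⟨(q + 1) / 2, by
      have := Nat.Prime.eq_two_or_odd hqp
      omega⟩
    rw [show (q : ResidueField 𝒪) + 1 = ((q + 1 : ℕ) : ResidueField 𝒪) by push_cast; rfl, hm,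
      Nat.cast_mul, Nat.cast_ofNat, CharTwo.two_eq_zero, zero_mul, mul_zero, sub_zero]
  obtain ⟨hRloc, hRc, hRl, hRs, hRmk⟩ := quotient_setup U.instIsLocalHom U.residue_surjective
    ((Ideal.span_singleton_le_iff_mem _).mpr hbm : Ideal.span {b} ≤ _)
  obtain ⟨hSloc, hSc, hSl, hSs, hSmk⟩ := quotient_setup V.instIsLocalHom V.residue_surjective
    ((Ideal.span_singleton_le_iff_mem _).mpr hum : Ideal.span {u} ≤ _)
  let mkU : U.R →ₐ[𝒪] U.R ⧸ Ideal.span {b} := Ideal.Quotient.mkₐ 𝒪 _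
  let mkV : V.R →ₐ[𝒪] V.R ⧸ Ideal.span {u} := Ideal.Quotient.mkₐ 𝒪 _
  have hR := IsPair.map_surjective hA hRl hRs mkU Ideal.Quotient.mk_surjective hU
  have hS := IsPair.map_surjective hB hSl hSs mkV Ideal.Quotient.mk_surjective hV
  have hRur : ∀ P' : ValuationSubring (AlgebraicClosure ℚ), P'.LiesOverPrime q →
      ∀ τ ∈ P'.inertiaSubgroupIn ℚ,
        mapRep (mkU : U.R →+* U.R ⧸ Ideal.span {b}) (uRep U) τ = 1 :=
    mapRep_eq_one_of_le (uRep U) (mkU : U.R →+* U.R ⧸ Ideal.span {b}) hqp hP (fun x hx =>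
      (Ideal.Quotient.eq_zero_iff_mem.mpr (hbI ▸ hx) : Ideal.Quotient.mk (Ideal.span {b}) x = 0))
  -- the pair over `R_A/(b)` is of the smaller type
  obtain ⟨hRct, hRd⟩ := hR.isDef.exists_cont
  obtain ⟨hRlow, hRtr⟩ := (pairCond_unramified_iff hq hqQ _).mp
    ⟨hRd, isUnramifiedAt_toAdic hRct hqp hP (hRur P hP)⟩
  have hR' : IsPair D (E.erase q) Q C hRl hRs
      (mapRep (mkU : U.R →+* U.R ⧸ Ideal.span {b}) (uRep U)) (mkU (uRoot U)) := by
    refine ⟨⟨?_, ?_, ?_, ?_⟩, ?_, ?_⟩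
    · exact hR.isDef.normal
    · exact hR.isDef.reduces
    · exact hRct
    · exact hRlow
    · exact hR.residue_eq
    · exact hR.ordinary
  -- the pair over `R_B/(u)` is of the bigger type
  obtain ⟨hSct, hSd⟩ := hS.isDef.exists_cont
  obtain ⟨hS1, hS2, hS3, hS4, hS5⟩ := id hSd
  have hSur : (toAdic (mapRep (mkV : V.R →+* V.R ⧸ Ideal.span {u}) (uRep V)) hSct).IsUnramifiedAt q := by
    exact hS5 q hqp hq2 hqD (Finset.notMem_erase q E.aux) hqQ
  have hShigh := ((pairCond_unramified_iff hq hqQ _).mpr ⟨hSd, fun P' hP' φ' hφ' => by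
    rw [trace_toAdic', trace_frobenius_eq _ hqp (fun _ h τ hτ => matrix_eq_one_of_isUnramifiedAt hSur h hτ) hP hP' hφ hφ',
      ← sub_eq_zero]
    have h0 : mkV u = 0 := Ideal.Quotient.eq_zero_iff_mem.mpr (Ideal.mem_span_singleton_self u)
    rw [show mkV u = mkV ((uRep V φ).trace - (E.sgn q : V.R) * ((q : V.R) + 1)) from rfl, map_sub,
      map_mul, map_add, map_one, map_intCast, map_natCast, Matrix.trace_fin_two, map_add] at h0
    rw [Matrix.trace_fin_two]
    exact h0⟩).1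
  have hS' : IsPair D E Q C hSl hSs
      (mapRep (mkV : V.R →+* V.R ⧸ Ideal.span {u}) (uRep V)) (mkV (uRoot V)) := by
    refine ⟨⟨?_, ?_, ?_, ?_⟩, ?_, ?_⟩
    · exact hS.isDef.normal
    · exact hS.isDef.reduces
    · exact hSct
    · exact hShigh
    · exact hS.residue_eq
    · exact hS.ordinary
  -- the maps
  obtain ⟨f, ⟨hf, hfN, hfα⟩, -⟩ := existsUnique_map U (A := V.R ⧸ Ideal.span {u}) hSs hS'
  obtain ⟨g, ⟨hg, hgN, hgα⟩, -⟩ := existsUnique_map V (A := U.R ⧸ Ideal.span {b}) hRs hR'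
  have hfN' : ∀ σ i j, f (uRep U σ i j) = mkV (uRep V σ i j) := fun σ i j =>
    congrFun (congrFun (DFunLike.congr_fun hfN σ) i) j
  have hgN' : ∀ σ i j, g (uRep V σ i j) = mkU (uRep U σ i j) := fun σ i j =>
    congrFun (congrFun (DFunLike.congr_fun hgN σ) i) j
  have hkf : ∀ x ∈ Ideal.span {b}, f x = 0 := by
    intro x hx
    refine (?_ : Ideal.span {b} ≤ RingHom.ker f) hx
    rw [← hbI]
    refine Ideal.span_le.2 ?_
    rintro _ ⟨τ, hτ, i, j, rfl⟩
    show f _ = 0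
    rw [Matrix.sub_apply, map_sub, hfN', map_matrix_one_apply, sub_eq_zero]
    exact congrFun (congrFun (matrix_eq_one_of_isUnramifiedAt hSur hP hτ) i) j
  have hkg : ∀ x ∈ Ideal.span {u}, g x = 0 := by
    intro x hx
    refine (?_ : Ideal.span {u} ≤ RingHom.ker g) hx
    rw [Ideal.span_singleton_le_iff_mem, RingHom.mem_ker, hu, traceElt, map_sub, map_mul, map_add,
      map_one, map_intCast, map_natCast, Matrix.trace_fin_two, map_add, hgN', hgN']
    have h1 := hRtr P hP φ hφ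
    rw [trace_toAdic', Matrix.trace_fin_two] at h1
    exact sub_eq_zero.mpr h1
  let f' : (U.R ⧸ Ideal.span {b}) →ₐ[𝒪] (V.R ⧸ Ideal.span {u}) := Ideal.Quotient.liftₐ _ f hkf
  let g' : (V.R ⧸ Ideal.span {u}) →ₐ[𝒪] (U.R ⧸ Ideal.span {b}) := Ideal.Quotient.liftₐ _ g hkg
  have hf' : IsLocalHom (f' : (U.R ⧸ Ideal.span {b}) →+* (V.R ⧸ Ideal.span {u})) := ⟨fun x hx => by
    obtain ⟨y, rfl⟩ := Ideal.Quotient.mk_surjective x
    exact (hf.map_nonunit y hx).map (Ideal.Quotient.mk _)⟩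
  have hg' : IsLocalHom (g' : (V.R ⧸ Ideal.span {u}) →+* (U.R ⧸ Ideal.span {b})) := ⟨fun x hx => by
    obtain ⟨y, rfl⟩ := Ideal.Quotient.mk_surjective x
    exact (hg.map_nonunit y hx).map (Ideal.Quotient.mk _)⟩
  have e1 : f'.comp g = mkV := by
    refine (existsUnique_map V (A := V.R ⧸ Ideal.span {u}) hSs hS).unique
      ⟨RingHom.isLocalHom_comp (f' : (U.R ⧸ Ideal.span {b}) →+* (V.R ⧸ Ideal.span {u})) (g : V.R →+* (U.R ⧸ Ideal.span {b})), ?_, ?_⟩
      ⟨hSmk, rfl, rfl⟩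
    · refine MonoidHom.ext fun σ => Matrix.ext fun i j => ?_
      show f' (g (uRep V σ i j)) = _
      rw [hgN']
      exact hfN' σ i j
    · show f' (g (uRoot V)) = _
      rw [hgα]
      exact hfα
  have e2 : g'.comp f = mkU := by
    refine (existsUnique_map U (A := U.R ⧸ Ideal.span {b}) hRs hR).unique
      ⟨RingHom.isLocalHom_comp (g' : (V.R ⧸ Ideal.span {u}) →+* (U.R ⧸ Ideal.span {b})) (f : U.R →+* (V.R ⧸ Ideal.span {u})), ?_, ?_⟩
      ⟨hRmk, rfl, rfl⟩
    · refine MonoidHom.ext fun σ => Matrix.ext fun i j => ?_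
      show g' (f (uRep U σ i j)) = _
      rw [hfN']
      exact hgN' σ i j
    · show g' (f (uRoot U)) = _
      rw [hfα]
      exact hgα
  refine ⟨b, hbm, hbI, hum, AlgEquiv.ofAlgHom f' g' (AlgHom.ext fun x => ?_)
    (AlgHom.ext fun x => ?_), fun σ i j => hfN' σ i j, hfα⟩
  · obtain ⟨y, rfl⟩ := Ideal.Quotient.mk_surjective x
    exact DFunLike.congr_fun e1 y
  · obtain ⟨y, rfl⟩ := Ideal.Quotient.mk_surjective x
    exact DFunLike.congr_fun e2 y

end Fermat.Agent.TwoAdic.Pair
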