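import Fermat.Agent.DefRing.MatrixRep
import Fermat.Agent.FlatJ0.InertiaFixed
import Fermat.Agent.MultRed.Galois
import Fermat.Agent.TameInertia.Qbar
import Fermat.Agent.FreyReducible.Places
import Mathlib.FieldTheory.Galois.Profinite
import Mathlib.GroupTheory.FiniteAbelian.Duality
import Mathlib.RingTheory.RootsOfUnity.AlgebraicallyClosed
import Mathlib.RingTheory.Polynomial.Cyclotomic.Eval

/-!
# Kummer pairs in inertia at 2

Kummer lemma (a): a pair `(s, t)` in inertia at `2` with cyclotomic values `5`, `-1` and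
`s y / y * (t y / y) ^ 2 = 1` for every unit `y` some `2`-power of which is unramified.

The only arithmetic input is that inertia realises every odd exponent on `2`-power roots of unity
and that `2` is not a square of an unramified number times a unit.
-/

set_option autoImplicit false

noncomputable section

open Fermat.Agent.DefRing
open scoped Pointwise

namespace Fermat.Agent.TwoAdic.Pair

local notation "Ω" => AlgebraicClosure ℚ

local instance isAlgebraicQbar_pair : Algebra.IsAlgebraic ℚ (AlgebraicClosure ℚ) :=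
  AlgebraicClosure.isAlgebraic ℚ
local instance isGaloisQbar_pair : IsGalois ℚ (AlgebraicClosure ℚ) :=
  have : IsAlgClosure ℚ (AlgebraicClosure ℚ) := ⟨inferInstance, inferInstance⟩
  have : Normal ℚ (AlgebraicClosure ℚ) := IsAlgClosure.normal ℚ (AlgebraicClosure ℚ)
  IsGalois.mk

/-! ### Compactness -/

theorem isOpen_setOf_apply (x : AlgebraicClosure ℚ) (P : AlgebraicClosure ℚ → Prop) :
    IsOpen {σ : GQ | P (σ x)} := by
  have : FiniteDimensional ℚ (IntermediateField.adjoin ℚ ({x} : Set Ω)) :=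
    IntermediateField.adjoin.finiteDimensional (Algebra.IsIntegral.isIntegral x)
  let H := (IntermediateField.adjoin ℚ ({x} : Set Ω)).fixingSubgroup
  have hH : IsOpen (H : Set GQ) :=
    IntermediateField.fixingSubgroup_isOpen (IntermediateField.adjoin ℚ ({x} : Set Ω))
  rw [isOpen_iff_forall_mem_open]
  intro σ hσ
  refine ⟨(fun g => σ * g) '' H, ?_, (Homeomorph.mulLeft σ).isOpenMap _ hH,
    1, H.one_mem, mul_one σ⟩
  rintro _ ⟨g, hg, rfl⟩
  show P (σ (g x))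
  rw [(IntermediateField.mem_fixingSubgroup_iff _ g).mp hg x
    (IntermediateField.mem_adjoin_simple_self ℚ x)]
  exact hσ

theorem isClosed_setOf_apply (x : AlgebraicClosure ℚ) (P : AlgebraicClosure ℚ → Prop) :
    IsClosed {σ : GQ | P (σ x)} :=
  isOpen_compl_iff.mp (isOpen_setOf_apply x fun y => ¬ P y)

theorem isClosed_inertia (A : ValuationSubring (AlgebraicClosure ℚ)) :
    IsClosed (A.inertiaSubgroupIn ℚ : Set GQ) := by
  have h : (A.inertiaSubgroupIn ℚ : Set GQ) =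
      (⋂ x : Ω, {σ : GQ | σ x ∈ A ↔ x ∈ A}) ∩
        ⋂ x : Ω, {σ : GQ | x ∈ A → σ x - x ∈ A.nonunits} := by
    ext σ
    simp only [SetLike.mem_coe, FreyReducible.mem_inertiaSubgroupIn_iff, Set.mem_inter_iff,
      Set.mem_iInter, Set.mem_ofPred_eq]
    refine and_congr_left fun _ => ⟨fun h x =>
      FreyReducible.apply_mem_of_mem_decompositionSubgroup A h, fun h => ?_⟩
    refine MulAction.mem_stabilizer_iff.mpr (SetLike.ext fun x => ?_)
    rw [ValuationSubring.mem_pointwise_smul_iff_inv_smul_mem, ← h (σ⁻¹ • x), AlgEquiv.smul_def,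
      ← AlgEquiv.mul_apply, mul_inv_cancel, AlgEquiv.one_apply]
  rw [h]
  exact (isClosed_iInter fun x => isClosed_setOf_apply x fun y => y ∈ A ↔ x ∈ A).inter
    (isClosed_iInter fun x => isClosed_setOf_apply x fun y => x ∈ A → y - x ∈ A.nonunits)

/-- Compactness of inertia for conditions on values. -/
theorem exists_inertia_forall (A : ValuationSubring (AlgebraicClosure ℚ)) {ι : Type}
    (x : ι → AlgebraicClosure ℚ) (P : ι → AlgebraicClosure ℚ → Prop)
    (h : ∀ F : Finset ι, ∃ σ ∈ A.inertiaSubgroupIn ℚ, ∀ i ∈ F, P i (σ (x i))) :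
    ∃ σ ∈ A.inertiaSubgroupIn ℚ, ∀ i, P i (σ (x i)) := by
  obtain ⟨σ, hσ, hσ'⟩ := (isClosed_inertia A).isCompact.inter_iInter_nonempty
    (fun i => {σ : GQ | P i (σ (x i))}) (fun i => isClosed_setOf_apply (x i) (P i)) fun F => by
      obtain ⟨σ, hσ, h'⟩ := h F
      exact ⟨σ, hσ, Set.mem_iInter₂.mpr h'⟩
  exact ⟨σ, hσ, fun i => Set.mem_iInter.mp hσ' i⟩

/-! ### Exponents -/

theorem exists_five_pow (n : ℕ) (a : ℤ) (ha : (4 : ℤ) ∣ a - 1) :
    ∃ i : ℕ, (2 : ℤ) ^ (n + 2) ∣ 5 ^ i - a := by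
  have key : ∀ m : ℕ, ∃ u : ℤ, Odd u ∧ (5 : ℤ) ^ 2 ^ m = 1 + 2 ^ (m + 2) * u := by
    intro m
    induction m with
    | zero => exact ⟨1, odd_one, by norm_num⟩
    | succ m ih =>
      obtain ⟨u, hu, he⟩ := ih
      refine ⟨u + 2 ^ (m + 1) * u ^ 2, hu.add_even ?_, ?_⟩
      · exact (even_two.pow_of_ne_zero (by omega)).mul_right _
      · rw [pow_succ, pow_mul, he]; ring
  induction n with
  | zero =>
    refine ⟨0, ?_⟩
    rw [show (2 : ℤ) ^ (0 + 2) = 4 by norm_num, pow_zero]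
    simpa using (dvd_neg.mpr ha)
  | succ n ih =>
    obtain ⟨i, k, hk⟩ := ih
    rcases Int.even_or_odd k with ⟨l, rfl⟩ | hk'
    · exact ⟨i, l, by rw [hk]; ring⟩
    · obtain ⟨u, hu, he⟩ := key n
      obtain ⟨l, hl⟩ : Even (k + 5 ^ i * u) :=
        hk'.add_odd ((Odd.pow (by decide)).mul hu)
      refine ⟨i + 2 ^ n, l, ?_⟩
      rw [pow_add (5 : ℤ), he]
      linear_combination hk + (2 : ℤ) ^ (n + 2) * hl

theorem exists_five_pow_neg_one_pow (n : ℕ) (a : ℤ) (ha : Odd a) :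
    ∃ i j : ℕ, (2 : ℤ) ^ (n + 2) ∣ (-1) ^ j * 5 ^ i - a := by
  obtain ⟨b, rfl⟩ := ha
  rcases Int.even_or_odd b with ⟨c, rfl⟩ | ⟨c, rfl⟩
  · obtain ⟨i, hi⟩ := exists_five_pow n (2 * (c + c) + 1) ⟨c, by ring⟩
    exact ⟨i, 0, by simpa using hi⟩
  · obtain ⟨i, hi⟩ := exists_five_pow n (-(2 * (2 * c + 1) + 1)) ⟨-c - 1, by ring⟩
    refine ⟨i, 1, ?_⟩
    have h := dvd_neg.mpr hi
    rw [show -(5 ^ i - -(2 * (2 * c + 1) + 1)) = (-1 : ℤ) ^ 1 * 5 ^ i - (2 * (2 * c + 1) + 1) by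
      ring] at h
    exact h

theorem zpow_eq_of_dvd {K : Type*} [Field K] {ζ : K} (hζ0 : ζ ≠ 0) {n : ℕ}
    (hζ : ζ ^ 2 ^ n = 1) {a b : ℤ} (h : (2 : ℤ) ^ n ∣ a - b) : ζ ^ a = ζ ^ b := by
  obtain ⟨k, hk⟩ := h
  rw [show a = b + ((2 ^ n : ℕ) : ℤ) * k by push_cast; linarith, zpow_add₀ hζ0, zpow_mul,
    zpow_natCast, hζ, one_zpow, mul_one]

variable {A : ValuationSubring (AlgebraicClosure ℚ)}

theorem ne_zero_of_pow_eq_one {n : ℕ} {ζ : AlgebraicClosure ℚ} (h : ζ ^ 2 ^ n = 1) : ζ ≠ 0 := by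
  rintro rfl
  rw [zero_pow (pow_ne_zero n two_ne_zero)] at h
  exact zero_ne_one h

theorem valuation_eq_one_of_pow {x : AlgebraicClosure ℚ} {n : ℕ} (hn : n ≠ 0)
    (h : A.valuation (x ^ n) = 1) : A.valuation x = 1 := by
  rw [map_pow] at h
  exact (pow_eq_one_iff_of_nonneg zero_le hn).mp h

theorem valuation_root {n : ℕ} {ζ : AlgebraicClosure ℚ} (h : ζ ^ 2 ^ n = 1) :
    A.valuation ζ = 1 :=
  valuation_eq_one_of_pow (pow_ne_zero n two_ne_zero) (by rw [h, map_one])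

/-- Inertia at `2` realises every odd exponent at every level. -/
theorem exists_inertia_exponent_level (hA : A.LiesOverPrime 2) (n : ℕ) {a : ℤ} (ha : Odd a) :
    ∃ σ ∈ A.inertiaSubgroupIn ℚ, ∀ ζ : AlgebraicClosure ℚ, ζ ^ 2 ^ n = 1 → σ ζ = ζ ^ a := by
  classical
  rcases Nat.eq_zero_or_pos n with rfl | hn
  · exact ⟨1, one_mem _, fun ζ hζ => by
      rw [pow_zero, pow_one] at hζ
      simp [hζ]⟩
  obtain ⟨m, rfl⟩ : ∃ m, n = m + 1 := ⟨n - 1, by omega⟩
  have : NeZero (2 ^ (m + 1)) := ⟨by positivity⟩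
  have : NeZero ((2 ^ (m + 1) : ℕ) : Ω) := ⟨Nat.cast_ne_zero.mpr (by positivity)⟩
  obtain ⟨ζ, hζ⟩ := HasEnoughRootsOfUnity.exists_primitiveRoot Ω (2 ^ (m + 1))
  have hζ0 : ζ ≠ 0 := hζ.ne_zero (by positivity)
  let Pr : Finset Ω := primitiveRoots (2 ^ (m + 1)) Ω
  have hPr : ∀ x, x ∈ Pr ↔ IsPrimitiveRoot x (2 ^ (m + 1)) := fun x =>
    mem_primitiveRoots (by positivity)
  have hcard : Pr.card = 2 ^ m := by
    rw [hζ.card_primitiveRoots, Nat.totient_prime_pow_succ Nat.prime_two]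
    simp
  have hprod : ∏ x ∈ Pr, (1 - x) = 2 := by
    have h1 := congrArg (Polynomial.eval (1 : Ω))
      (Polynomial.cyclotomic_eq_prod_X_sub_primitiveRoots hζ)
    rw [Polynomial.eval_one_cyclotomic_prime_pow, Polynomial.eval_prod] at h1
    simpa using h1.symm
  have hle : ∀ {x : Ω}, IsPrimitiveRoot x (2 ^ (m + 1)) → ∀ j : ℕ,
      A.valuation (1 - x ^ j) ≤ A.valuation (1 - x) := by
    intro x hx j
    rw [← geom_sum_mul_neg x j, map_mul]
    refine mul_le_of_le_one_left zero_le (A.valuation.map_sum_le fun i _ => ?_)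
    rw [map_pow, valuation_root hx.pow_eq_one, one_pow]
  have hw : ∀ x ∈ Pr, A.valuation (1 - x) = A.valuation (1 - ζ) := by
    intro x hx
    rw [hPr] at hx
    obtain ⟨i, -, hi⟩ := hζ.eq_pow_of_pow_eq_one hx.pow_eq_one
    obtain ⟨j, -, hj⟩ := hx.eq_pow_of_pow_eq_one hζ.pow_eq_one
    exact le_antisymm (hi ▸ hle hζ i) (hj ▸ hle hx j)
  set w := A.valuation (1 - ζ) with hwdef
  have hw2 : w ^ 2 ^ m = A.valuation (2 : Ω) := by
    rw [← hprod, map_prod, Finset.prod_congr rfl hw, Finset.prod_const, hcard]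
  let S : Finset Ω := Pr.filter fun x => ∃ σ ∈ A.inertiaSubgroupIn ℚ, σ ζ = x
  have hζS : ζ ∈ S := Finset.mem_filter.mpr ⟨(hPr ζ).mpr hζ, 1, one_mem _, rfl⟩
  have hne : ∀ x ∈ Pr, (1 : Ω) - x ≠ 0 := fun x hx h => by
    have := ((hPr x).mp hx).ne_one (Nat.one_lt_pow (by omega) (by omega))
    exact this (sub_eq_zero.mp h).symm
  have hP0 : ∏ x ∈ S, (1 - x) ≠ 0 :=
    Finset.prod_ne_zero_iff.mpr fun x hx => hne x (Finset.mem_filter.mp hx).1
  obtain ⟨k, hk⟩ := FlatJ0.exists_valuation_eq_zpow_of_fixed Nat.prime_two hA hP0 fun σ hσ => by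
    rw [map_prod]
    refine Finset.prod_nbij' (fun x => σ x) (fun x => σ⁻¹ x) ?_ ?_ ?_ ?_ ?_
    · intro x hx
      obtain ⟨hx, τ, hτ, rfl⟩ := Finset.mem_filter.mp hx
      exact Finset.mem_filter.mpr ⟨(hPr _).mpr (((hPr _).mp hx).map_of_injective σ.injective),
        σ * τ, mul_mem hσ hτ, rfl⟩
    · intro x hx
      obtain ⟨hx, τ, hτ, rfl⟩ := Finset.mem_filter.mp hx
      exact Finset.mem_filter.mpr ⟨(hPr _).mpr (((hPr _).mp hx).map_of_injective σ⁻¹.injective),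
        σ⁻¹ * τ, mul_mem (inv_mem hσ) hτ, rfl⟩
    · intro x _
      rw [← AlgEquiv.mul_apply, inv_mul_cancel, AlgEquiv.one_apply]
    · intro x _
      rw [← AlgEquiv.mul_apply, mul_inv_cancel, AlgEquiv.one_apply]
    · intro x _
      rw [map_sub, map_one]
  have hwS : A.valuation (∏ x ∈ S, (1 - x)) = w ^ S.card := by
    rw [map_prod, Finset.prod_congr rfl fun x hx => hw x (Finset.mem_filter.mp hx).1,
      Finset.prod_const]
  have hlt : w ^ 2 ^ m < 1 := hw2 ▸ (by exact_mod_cast MultRed.vq_lt_one hA)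
  have hw0 : 0 < w := A.valuation.pos_iff.mpr (hne ζ ((hPr ζ).mpr hζ))
  have hw1 : w ≠ 1 := fun h => by rw [h, one_pow] at hlt; exact lt_irrefl _ hlt
  have hzp : w ^ (S.card : ℤ) = w ^ (((2 ^ m : ℕ) : ℤ) * k) := by
    rw [zpow_natCast, ← hwS, hk, zpow_mul, zpow_natCast, hw2, Nat.cast_ofNat]
  have heq := zpow_right_injective₀ hw0 hw1 hzp
  have hScard : S.card = Pr.card := by
    refine le_antisymm (Finset.card_filter_le _ _) ?_
    rw [hcard]
    have h1 : 0 < S.card := Finset.card_pos.mpr ⟨ζ, hζS⟩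
    have h2 : (1 : ℤ) ≤ k := by
      by_contra hk0
      have : (((2 ^ m : ℕ) : ℤ) * k) ≤ 0 :=
        mul_nonpos_of_nonneg_of_nonpos (Int.natCast_nonneg _) (by omega)
      omega
    have h3 : ((2 ^ m : ℕ) : ℤ) ≤ S.card := heq ▸ le_mul_of_one_le_right (Int.natCast_nonneg _) h2
    exact_mod_cast h3
  have hSeq : S = Pr := Finset.eq_of_subset_of_card_le (Finset.filter_subset _ _) hScard.ge
  obtain ⟨a', ha'⟩ : ∃ a' : ℕ, (a' : ℤ) = a % (2 ^ (m + 1) : ℕ) :=
    ⟨(a % (2 ^ (m + 1) : ℕ)).toNat, Int.toNat_of_nonneg (Int.emod_nonneg _ (by positivity))⟩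
  have hdvd : (2 : ℤ) ^ (m + 1) ∣ a - a' := by
    rw [ha']
    push_cast
    rw [Int.emod_def]
    exact ⟨a / 2 ^ (m + 1), by ring⟩
  have hpa : ∀ x : Ω, x ^ 2 ^ (m + 1) = 1 → x ^ a = x ^ a' := fun x hx => by
    rw [zpow_eq_of_dvd (ne_zero_of_pow_eq_one hx) hx hdvd, zpow_natCast]
  have ha'odd : Odd (a' : ℤ) := by
    obtain ⟨l, hl⟩ := hdvd
    rw [show (a' : ℤ) = a - 2 * (2 ^ m * l) by rw [pow_succ] at hl; linarith]
    exact ha.sub_even (even_two_mul _)
  have hmem : ζ ^ a' ∈ S := by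
    rw [hSeq, hPr]
    refine hζ.pow_of_coprime a' (Nat.Coprime.pow_right _ ?_)
    rw [Nat.coprime_two_right]
    exact_mod_cast ha'odd
  obtain ⟨-, σ, hσ, hσζ⟩ := Finset.mem_filter.mp hmem
  refine ⟨σ, hσ, fun x hx => ?_⟩
  obtain ⟨i, -, rfl⟩ := hζ.eq_pow_of_pow_eq_one hx
  rw [hpa _ hx, map_pow, hσζ, ← pow_mul, ← pow_mul, mul_comm]

/-- Inertia at `2` realises every odd exponent on all `2`-power roots of unity. -/
theorem exists_inertia_exponent (hA : A.LiesOverPrime 2) {a : ℤ} (ha : Odd a) :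
    ∃ σ ∈ A.inertiaSubgroupIn ℚ, ∀ (n : ℕ) (ζ : AlgebraicClosure ℚ),
      ζ ^ 2 ^ n = 1 → σ ζ = ζ ^ a := by
  obtain ⟨σ, hσ, h⟩ := exists_inertia_forall A
    (fun i : {x : ℕ × Ω // x.2 ^ 2 ^ x.1 = 1} => i.1.2) (fun i y => y = i.1.2 ^ a) fun F => by
      obtain ⟨σ, hσ, h⟩ := exists_inertia_exponent_level hA (F.sup fun i => i.1.1) ha
      refine ⟨σ, hσ, fun i hi => h _ ?_⟩
      obtain ⟨d, hd⟩ := Nat.exists_eq_add_of_le (Finset.le_sup (f := fun i => i.1.1) hi)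
      rw [hd, pow_add, pow_mul, i.2, one_pow]
  exact ⟨σ, hσ, fun n ζ hζ => h ⟨(n, ζ), hζ⟩⟩

/-! ### Root units and the pair -/

/-- A unit some `2`-power of which is fixed by inertia. -/
structure IsRootUnit (A : ValuationSubring (AlgebraicClosure ℚ)) (n : ℕ)
    (y : AlgebraicClosure ℚ) : Prop where
  valuation_eq : A.valuation y = 1
  fixed : ∀ σ ∈ A.inertiaSubgroupIn ℚ, σ (y ^ 2 ^ n) = y ^ 2 ^ n

/-- `s x / x * (t x / x) ^ 2`. -/
def kummerDefect (s t : GQ) (x : AlgebraicClosure ℚ) : AlgebraicClosure ℚ :=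
  s x / x * (t x / x) ^ 2

variable {n : ℕ} {y y' : AlgebraicClosure ℚ}

theorem IsRootUnit.ne_zero (h : IsRootUnit A n y) : y ≠ 0 := fun h0 => by
  have := h.valuation_eq
  rw [h0, map_zero] at this
  exact zero_ne_one this

theorem IsRootUnit.mono (h : IsRootUnit A n y) {m : ℕ} (hnm : n ≤ m) : IsRootUnit A m y := by
  refine ⟨h.valuation_eq, fun σ hσ => ?_⟩
  obtain ⟨d, rfl⟩ := Nat.exists_eq_add_of_le hnm
  rw [pow_add, pow_mul, map_pow, h.fixed σ hσ]

theorem IsRootUnit.mul (h : IsRootUnit A n y) (h' : IsRootUnit A n y') :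
    IsRootUnit A n (y * y') :=
  ⟨by rw [map_mul, h.valuation_eq, h'.valuation_eq, one_mul],
    fun σ hσ => by rw [mul_pow, map_mul, h.fixed σ hσ, h'.fixed σ hσ]⟩

theorem isRootUnit_one : IsRootUnit A n 1 :=
  ⟨map_one _, fun σ _ => by rw [one_pow, map_one]⟩

theorem IsRootUnit.zpow (h : IsRootUnit A n y) (e : ℤ) : IsRootUnit A n (y ^ e) := by
  refine ⟨by rw [map_zpow₀, h.valuation_eq, one_zpow], fun σ hσ => ?_⟩
  rw [← zpow_natCast (y ^ e), ← zpow_mul, mul_comm, zpow_mul, zpow_natCast, map_zpow₀,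
    h.fixed σ hσ]

theorem isRootUnit_of_pow_eq_one (h : y ^ 2 ^ n = 1) : IsRootUnit A n y :=
  ⟨valuation_root h, fun σ _ => by rw [h, map_one]⟩

theorem IsRootUnit.apply_div (h : IsRootUnit A n y) {σ : GQ}
    (hσ : σ ∈ A.inertiaSubgroupIn ℚ) : (σ y / y) ^ 2 ^ n = 1 := by
  rw [div_pow, ← map_pow, h.fixed σ hσ, div_self (pow_ne_zero _ h.ne_zero)]

theorem kummerDefect_mul (s t : GQ) (x x' : AlgebraicClosure ℚ) :
    kummerDefect s t (x * x') = kummerDefect s t x * kummerDefect s t x' := by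
  simp only [kummerDefect, map_mul, mul_div_mul_comm, mul_pow]
  ring

theorem kummerDefect_zpow (s t : GQ) (x : AlgebraicClosure ℚ) (e : ℤ) :
    kummerDefect s t (x ^ e) = kummerDefect s t x ^ e := by
  simp only [kummerDefect, map_zpow₀, ← div_zpow, mul_zpow]
  rw [← zpow_natCast, ← zpow_natCast, ← zpow_mul, ← zpow_mul, mul_comm e]

theorem kummerDefect_prod {ι : Type} (s t : GQ) (S : Finset ι) (x : ι → AlgebraicClosure ℚ) :
    kummerDefect s t (∏ i ∈ S, x i) = ∏ i ∈ S, kummerDefect s t (x i) := by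
  classical
  induction S using Finset.induction_on with
  | empty => simp [kummerDefect]
  | insert i S hi ih => rw [Finset.prod_insert hi, Finset.prod_insert hi, kummerDefect_mul, ih]

/-- The candidate pair: exponents `5` and `-1`. -/
structure IsExpPair (A : ValuationSubring (AlgebraicClosure ℚ)) (s t : GQ) : Prop where
  s_mem : s ∈ A.inertiaSubgroupIn ℚ
  t_mem : t ∈ A.inertiaSubgroupIn ℚ
  s_root : ∀ (n : ℕ) (ζ : AlgebraicClosure ℚ), ζ ^ 2 ^ n = 1 → s ζ = ζ ^ 5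
  t_root : ∀ (n : ℕ) (ζ : AlgebraicClosure ℚ), ζ ^ 2 ^ n = 1 → t ζ = ζ⁻¹

theorem IsExpPair.defect_root {s t : GQ} (h : IsExpPair A s t) {ζ : AlgebraicClosure ℚ}
    (hζ : ζ ^ 2 ^ n = 1) : kummerDefect s t ζ = 1 := by
  have h0 := ne_zero_of_pow_eq_one hζ
  rw [kummerDefect, h.s_root n ζ hζ, h.t_root n ζ hζ]
  field_simp

/-- `σ` fixes all `2`-power roots of unity. -/
def FixesRoots (σ : GQ) : Prop :=
  ∀ (n : ℕ) (ζ : AlgebraicClosure ℚ), ζ ^ 2 ^ n = 1 → σ ζ = ζ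

/-- What is fixed by `s`, `t` and the root-fixing part of inertia is fixed by inertia. -/
theorem IsExpPair.fixed {s t : GQ} (h : IsExpPair A s t) {w : AlgebraicClosure ℚ}
    (hJ : ∀ σ ∈ A.inertiaSubgroupIn ℚ, FixesRoots σ → σ w = w) (hs : s w = w) (ht : t w = w) :
    ∀ σ ∈ A.inertiaSubgroupIn ℚ, σ w = w := by
  classical
  obtain ⟨N, hN⟩ : ∃ N : ℕ, ∀ σ ∈ A.inertiaSubgroupIn ℚ,
      (∀ ζ : Ω, ζ ^ 2 ^ N = 1 → σ ζ = ζ) → σ w = w := by
    by_contra hcon
    push Not at hcon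
    obtain ⟨σ, hσ, hP⟩ := exists_inertia_forall A
      (fun i : Option {x : ℕ × Ω // x.2 ^ 2 ^ x.1 = 1} => i.elim w fun z => z.1.2)
      (fun i v => i.elim (v ≠ w) fun z => v = z.1.2) fun F => by
        obtain ⟨σ, hσ, h1, h2⟩ := hcon (F.sup fun i => i.elim 0 fun z => z.1.1)
        refine ⟨σ, hσ, fun i hi => ?_⟩
        cases i with
        | none => exact h2
        | some z =>
          refine h1 _ ?_
          obtain ⟨d, hd⟩ := Nat.exists_eq_add_of_le
            (Finset.le_sup (f := fun i : Option {x : ℕ × Ω // x.2 ^ 2 ^ x.1 = 1} =>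
              i.elim 0 fun z => z.1.1) hi)
          rw [hd, pow_add, pow_mul]
          show ((z.1.2 : Ω) ^ 2 ^ z.1.1) ^ 2 ^ d = 1
          rw [z.2, one_pow]
    exact hP none (hJ σ hσ fun n ζ hζ => hP (some ⟨(n, ζ), hζ⟩))
  intro σ hσ
  have : NeZero (2 ^ (N + 2)) := ⟨by positivity⟩
  have : NeZero ((2 ^ (N + 2) : ℕ) : Ω) := ⟨Nat.cast_ne_zero.mpr (by positivity)⟩
  obtain ⟨ζ, hζ⟩ := HasEnoughRootsOfUnity.exists_primitiveRoot Ω (2 ^ (N + 2))
  obtain ⟨a, -, ha⟩ := hζ.eq_pow_of_pow_eq_one (ξ := σ ζ) (by rw [← map_pow, hζ.pow_eq_one, map_one])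
  have hexp : ∀ x : Ω, x ^ 2 ^ (N + 2) = 1 → σ x = x ^ a := fun x hx => by
    obtain ⟨l, -, rfl⟩ := hζ.eq_pow_of_pow_eq_one hx
    rw [map_pow, ← ha, ← pow_mul, ← pow_mul, mul_comm]
  have hodd : Odd (a : ℤ) := by
    rw [Int.odd_coe_nat, ← Nat.not_even_iff_odd]
    rintro ⟨l, rfl⟩
    have h1 : (σ ζ) ^ 2 ^ (N + 1) = 1 := by
      rw [← ha, ← pow_mul, show (l + l) * 2 ^ (N + 1) = 2 ^ (N + 2) * l by ring, pow_mul,
        hζ.pow_eq_one, one_pow]
    rw [← map_pow, ← map_one σ] at h1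
    have h2 := Nat.le_of_dvd (by positivity) (hζ.dvd_of_pow_eq_one _ (σ.injective h1))
    exact absurd h2 (not_le.mpr (Nat.pow_lt_pow_right (by omega) (by omega)))
  obtain ⟨i, j, hij⟩ := exists_five_pow_neg_one_pow N a hodd
  have hsi : ∀ (i : ℕ) (x : Ω), x ^ 2 ^ (N + 2) = 1 → (s ^ i) x = x ^ (5 ^ i : ℕ) := by
    intro i
    induction i with
    | zero => intro x _; simp
    | succ i ih =>
      intro x hx
      rw [pow_succ, AlgEquiv.mul_apply, h.s_root _ x hx,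
        ih (x ^ 5) (by rw [← pow_mul, mul_comm, pow_mul, hx, one_pow]), ← pow_mul, pow_succ' 5 i]
  have htj : ∀ (j : ℕ) (x : Ω), x ^ 2 ^ (N + 2) = 1 → (t ^ j) x = x ^ ((-1 : ℤ) ^ j) := by
    intro j
    induction j with
    | zero => intro x _; simp
    | succ j ih =>
      intro x hx
      rw [pow_succ, AlgEquiv.mul_apply, h.t_root _ x hx,
        ih x⁻¹ (by rw [inv_pow, hx, inv_one]), pow_succ', neg_one_mul, inv_zpow, zpow_neg]
  let g : GQ := t ^ j * s ^ i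
  have hg : g ∈ A.inertiaSubgroupIn ℚ := mul_mem (pow_mem h.t_mem _) (pow_mem h.s_mem _)
  have hgw : g w = w := by
    have hp : ∀ (u : GQ), u w = w → ∀ l : ℕ, (u ^ l) w = w := fun u hu l => by
      induction l with
      | zero => simp
      | succ l ih => rw [pow_succ, AlgEquiv.mul_apply, hu, ih]
    rw [AlgEquiv.mul_apply, hp s hs, hp t ht]
  have hfix : ∀ x : Ω, x ^ 2 ^ N = 1 → (g⁻¹ * σ) x = x := by
    intro x hx
    have hx2 : x ^ 2 ^ (N + 2) = 1 := by rw [pow_add, pow_mul, hx, one_pow]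
    rw [AlgEquiv.mul_apply, AlgEquiv.aut_inv, AlgEquiv.symm_apply_eq, AlgEquiv.mul_apply,
      hsi i x hx2, htj j _ (by rw [← pow_mul, mul_comm, pow_mul, hx2, one_pow]), hexp x hx2,
      ← zpow_natCast, ← zpow_natCast x (5 ^ i), ← zpow_mul]
    refine zpow_eq_of_dvd (ne_zero_of_pow_eq_one hx) hx2 ?_
    rw [dvd_sub_comm]
    push_cast
    rwa [mul_comm]
  have := hN _ (mul_mem (inv_mem hg) hσ) hfix
  rw [AlgEquiv.mul_apply, AlgEquiv.aut_inv, AlgEquiv.symm_apply_eq] at this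
  rw [this, hgw]

/-- A root unit fixed by the root-fixing part of inertia has defect `1`. -/
theorem IsExpPair.defect_eq_one {s t : GQ} (h : IsExpPair A s t) (hA : A.LiesOverPrime 2)
    (hy : IsRootUnit A n y) (hJ : ∀ σ ∈ A.inertiaSubgroupIn ℚ, FixesRoots σ → σ y = y) :
    kummerDefect s t y = 1 := by
  set θ := s y / y with hθ
  set η := t y / y with hη
  have hy0 := hy.ne_zero
  have hθn : θ ^ 2 ^ n = 1 := hy.apply_div h.s_mem
  have hηn : η ^ 2 ^ n = 1 := hy.apply_div h.t_mem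
  have hθ0 := ne_zero_of_pow_eq_one hθn
  have hη0 := ne_zero_of_pow_eq_one hηn
  have hsy : s y = θ * y := by rw [hθ, div_mul_cancel₀ _ hy0]
  have hty : t y = η * y := by rw [hη, div_mul_cancel₀ _ hy0]
  have hc : ((s * t)⁻¹ * (t * s)) y = y := by
    refine hJ _ (mul_mem (inv_mem (mul_mem h.s_mem h.t_mem)) (mul_mem h.t_mem h.s_mem))
      fun m ζ hζ => ?_
    rw [AlgEquiv.mul_apply, AlgEquiv.aut_inv, AlgEquiv.symm_apply_eq, AlgEquiv.mul_apply,
      AlgEquiv.mul_apply, h.s_root m ζ hζ, map_pow, h.t_root m ζ hζ, map_inv₀, h.s_root m ζ hζ,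
      inv_pow]
  rw [AlgEquiv.mul_apply, AlgEquiv.aut_inv, AlgEquiv.symm_apply_eq, AlgEquiv.mul_apply,
    AlgEquiv.mul_apply, hsy, hty, map_mul, map_mul, h.t_root n θ hθn, h.s_root n η hηn, hsy,
    hty] at hc
  have h1 : (θ * η ^ 2) ^ 2 = 1 := by
    field_simp at hc
    linear_combination -hc
  have hδ : kummerDefect s t y = θ * η ^ 2 := rfl
  rw [hδ]
  rcases sq_eq_one_iff.mp h1 with h2 | h2
  · exact h2
  exfalso
  obtain ⟨ζ, hζ⟩ := IsAlgClosed.exists_pow_nat_eq η two_pos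
  have hζn : ζ ^ 2 ^ (n + 1) = 1 := by rw [pow_succ', pow_mul, hζ, hηn]
  have hζ0 := ne_zero_of_pow_eq_one hζn
  set z := y * ζ with hz
  have hzu : IsRootUnit A (n + 1) z := (hy.mono (by omega)).mul (isRootUnit_of_pow_eq_one hζn)
  have htz : t z = z := by
    rw [hz, map_mul, hty, h.t_root _ ζ hζn, ← hζ]
    field_simp
  have hsz : s z = -z := by
    have h3 : kummerDefect s t z = -1 := by
      rw [hz, kummerDefect_mul, h.defect_root hζn, mul_one, hδ, h2]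
    rw [kummerDefect, htz, div_self hzu.ne_zero, one_pow, mul_one,
      div_eq_iff hzu.ne_zero] at h3
    rw [h3, neg_one_mul]
  have : NeZero (2 ^ 3) := ⟨by positivity⟩
  have : NeZero ((2 ^ 3 : ℕ) : Ω) := ⟨Nat.cast_ne_zero.mpr (by positivity)⟩
  obtain ⟨ω, hω⟩ := HasEnoughRootsOfUnity.exists_primitiveRoot Ω (2 ^ 3)
  have hω0 : ω ≠ 0 := hω.ne_zero (by positivity)
  have hω4 : ω ^ 4 = -1 := by
    have h3 : (ω ^ 4 - 1) * (ω ^ 4 + 1) = 0 := by linear_combination hω.pow_eq_one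
    rcases mul_eq_zero.mp h3 with h4 | h4
    · exact absurd (hω.dvd_of_pow_eq_one 4 (sub_eq_zero.mp h4)) (by decide)
    · exact eq_neg_of_add_eq_zero_left h4
  set r := ω + ω⁻¹ with hr
  have hr2 : r ^ 2 = 2 := by
    rw [hr]
    field_simp
    linear_combination hω4
  have hsr : s r = -r := by
    rw [hr, map_add, map_inv₀, h.s_root 3 ω hω.pow_eq_one,
      show ω ^ 5 = -ω by linear_combination ω * hω4, inv_neg, neg_add]
  have htr : t r = r := by
    rw [hr, map_add, map_inv₀, h.t_root 3 ω hω.pow_eq_one, inv_inv, add_comm]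
  have hwfix := h.fixed (w := z * r)
    (fun σ hσ hσr => by
      rw [map_mul, hz, map_mul, hJ σ hσ hσr, hσr _ ζ hζn, hr, map_add, map_inv₀,
        hσr 3 ω hω.pow_eq_one])
    (by rw [map_mul, hsz, hsr, neg_mul_neg]) (by rw [map_mul, htz, htr])
  have hr0 : r ≠ 0 := fun h0 => by rw [h0] at hr2; norm_num at hr2
  obtain ⟨k, hk⟩ := FlatJ0.exists_valuation_eq_zpow_of_fixed Nat.prime_two hA
    (mul_ne_zero hzu.ne_zero hr0) hwfix
  have h4 : (A.valuation (2 : Ω)) ^ (k * 2) = A.valuation (2 : Ω) ^ (1 : ℤ) := by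
    rw [zpow_mul, zpow_ofNat, show (2 : Ω) = ((2 : ℕ) : Ω) by norm_num, ← hk, map_mul,
      hzu.valuation_eq, one_mul, ← map_pow, hr2, zpow_one]
    norm_num
  have hv0 : (0 : _) < A.valuation (2 : Ω) := A.valuation.pos_iff.mpr two_ne_zero
  have hv1 : A.valuation (2 : Ω) ≠ 1 := ne_of_lt (by exact_mod_cast MultRed.vq_lt_one hA)
  have := zpow_right_injective₀ hv0 hv1 h4
  omega

/-- The modification: finitely many root units at a time. -/
theorem IsExpPair.exists_modify {s t : GQ} (h : IsExpPair A s t) (hA : A.LiesOverPrime 2)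
    {ι : Type} [Fintype ι] (y : ι → AlgebraicClosure ℚ) (hy : ∀ i, IsRootUnit A n (y i)) :
    ∃ σ ∈ A.inertiaSubgroupIn ℚ, FixesRoots σ ∧
      ∀ i, σ (y i) * kummerDefect s t (y i) = y i := by
  classical
  have : NeZero (2 ^ n) := ⟨by positivity⟩
  have : NeZero ((2 ^ n : ℕ) : Ω) := ⟨Nat.cast_ne_zero.mpr (by positivity)⟩
  let J : Subgroup GQ :=
    { carrier := {σ | σ ∈ A.inertiaSubgroupIn ℚ ∧ FixesRoots σ}
      one_mem' := ⟨one_mem _, fun _ _ _ => rfl⟩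
      mul_mem' := fun {a b} ha hb => ⟨mul_mem ha.1 hb.1, fun m ζ hζ => by
        rw [AlgEquiv.mul_apply, hb.2 m ζ hζ, ha.2 m ζ hζ]⟩
      inv_mem' := fun {a} ha => ⟨inv_mem ha.1, fun m ζ hζ => by
        rw [AlgEquiv.aut_inv, AlgEquiv.symm_apply_eq, ha.2 m ζ hζ]⟩ }
  have hmem : ∀ {x : Ω}, x ^ 2 ^ n = 1 → ∃ u : rootsOfUnity (2 ^ n) Ω, ((u : Ωˣ) : Ω) = x :=
    fun {x} hx => ⟨rootsOfUnity.mkOfPowEq x hx, rfl⟩
  have hd : ∀ i, (kummerDefect s t (y i)) ^ 2 ^ n = 1 := fun i => by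
    rw [kummerDefect, mul_pow, ← pow_mul, mul_comm 2, pow_mul, (hy i).apply_div h.s_mem,
      (hy i).apply_div h.t_mem, one_pow, one_mul]
  choose Φ hΦ using fun (σ : J) i => hmem ((hy i).apply_div σ.2.1)
  choose d hd' using fun i => hmem (hd i)
  let F : J →* (ι → rootsOfUnity (2 ^ n) Ω) :=
    { toFun := Φ
      map_one' := funext fun i => Subtype.ext (Units.ext (by
        simp [hΦ, div_self (hy i).ne_zero]))
      map_mul' := fun a b => funext fun i => Subtype.ext (Units.ext (by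
        show ((Φ (a * b) i : Ωˣ) : Ω) = ((Φ a i : Ωˣ) : Ω) * ((Φ b i : Ωˣ) : Ω)
        rw [hΦ, hΦ, hΦ, Subgroup.coe_mul, AlgEquiv.mul_apply]
        have h1 := a.2.2 n _ ((hy i).apply_div b.2.1)
        rw [map_div₀] at h1
        field_simp [(hy i).ne_zero, show (a : GQ) (y i) ≠ 0 by simpa using (hy i).ne_zero] at h1 ⊢
        linear_combination h1)) }
  by_cases hrange : d⁻¹ ∈ F.range
  · obtain ⟨σ, hσ⟩ := hrange
    refine ⟨σ, σ.2.1, σ.2.2, fun i => ?_⟩
    have h1 := congrArg (fun f : ι → rootsOfUnity (2 ^ n) Ω => ((f i : Ωˣ) : Ω)) hσ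
    simp only [Pi.inv_apply, Subgroup.coe_inv, Units.val_inv_eq_inv_val, hd'] at h1
    change ((Φ σ i : Ωˣ) : Ω) = _ at h1
    rw [hΦ, div_eq_iff (hy i).ne_zero] at h1
    rw [h1, mul_right_comm, inv_mul_cancel₀ (ne_zero_of_pow_eq_one (hd i)), one_mul]
  exfalso
  have hne : (QuotientGroup.mk d⁻¹ : (ι → rootsOfUnity (2 ^ n) Ω) ⧸ F.range) ≠ 1 := fun h1 =>
    hrange ((QuotientGroup.eq_one_iff _).mp h1)
  have : NeZero (Monoid.exponent ((ι → rootsOfUnity (2 ^ n) Ω) ⧸ F.range) : Ω) :=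
    ⟨Nat.cast_ne_zero.mpr Monoid.exponent_ne_zero_of_finite⟩
  obtain ⟨χ, hχ⟩ := CommGroup.exists_apply_ne_one_of_hasEnoughRootsOfUnity
    ((ι → rootsOfUnity (2 ^ n) Ω) ⧸ F.range) Ω hne
  obtain ⟨g, hg⟩ := IsCyclic.exists_generator (α := rootsOfUnity (2 ^ n) Ω)
  have he : ∀ i, ∃ e : ℤ, χ (QuotientGroup.mk (Pi.mulSingle i g)) = (g : Ωˣ) ^ e := by
    intro i
    have h1 : χ (QuotientGroup.mk (Pi.mulSingle i g)) ∈ rootsOfUnity (2 ^ n) Ω := by
      rw [mem_rootsOfUnity, ← map_pow, ← QuotientGroup.mk_pow, ← Pi.mulSingle_pow,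
        show g ^ 2 ^ n = 1 from Subtype.ext ((mem_rootsOfUnity _ _).mp g.2), Pi.mulSingle_one,
        QuotientGroup.mk_one, map_one]
    obtain ⟨e, he⟩ := hg ⟨_, h1⟩
    exact ⟨e, (congrArg Subtype.val he).symm⟩
  choose e he using he
  have hχf : ∀ f : ι → rootsOfUnity (2 ^ n) Ω,
      χ (QuotientGroup.mk f) = ∏ i, (f i : Ωˣ) ^ e i := by
    intro f
    conv_lhs => rw [← Finset.univ_prod_mulSingle f]
    rw [QuotientGroup.mk_prod, map_prod]
    refine Finset.prod_congr rfl fun i _ => ?_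
    obtain ⟨l, hl⟩ := hg (f i)
    rw [← hl]
    show χ (QuotientGroup.mk (Pi.mulSingle i (g ^ l))) = _
    rw [Pi.mulSingle_zpow, QuotientGroup.mk_zpow, map_zpow, he, ← zpow_mul, mul_comm, zpow_mul]
    rfl
  set Y := ∏ i, y i ^ e i with hY
  have hYu : IsRootUnit A n Y := by
    refine Finset.prod_induction _ (IsRootUnit A n) (fun a b => IsRootUnit.mul) isRootUnit_one
      fun i _ => (hy i).zpow _
  have hYJ : ∀ σ ∈ A.inertiaSubgroupIn ℚ, FixesRoots σ → σ Y = Y := by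
    intro σ hσ hσr
    have h1 := hχf (F ⟨σ, hσ, hσr⟩)
    rw [(QuotientGroup.eq_one_iff _).mpr (MonoidHom.mem_range.mpr ⟨_, rfl⟩), map_one] at h1
    have h2 := congrArg (Units.val (α := Ω)) h1
    simp only [Units.val_one, Units.coe_prod, Units.val_zpow_eq_zpow_val] at h2
    change (1 : Ω) = ∏ i, ((Φ ⟨σ, hσ, hσr⟩ i : Ωˣ) : Ω) ^ e i at h2
    simp only [hΦ, div_zpow, Finset.prod_div_distrib] at h2
    rw [hY, map_prod]
    simp only [map_zpow₀]
    exact (div_eq_one_iff_eq (hY ▸ hYu.ne_zero)).mp h2.symm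
  apply hχ
  have h3 := h.defect_eq_one hA hYu hYJ
  rw [hY, kummerDefect_prod] at h3
  simp only [kummerDefect_zpow] at h3
  rw [hχf]
  refine Units.ext ?_
  simp only [Units.coe_prod, Units.val_zpow_eq_zpow_val, Units.val_one, Pi.inv_apply,
    Subgroup.coe_inv, Units.val_inv_eq_inv_val, hd', inv_zpow, Finset.prod_inv_distrib, h3,
    inv_one]

/-- A pair for the crystalline equation. -/
structure KummerPair where
  /-- a place over `2` -/
  P : ValuationSubring (AlgebraicClosure ℚ)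
  /-- exponent `5` -/
  s : GQ
  /-- exponent `-1` -/
  t : GQ
  over_two : P.LiesOverPrime 2
  exp : IsExpPair P s t
  kummer : ∀ (n : ℕ) (y : AlgebraicClosure ℚ), IsRootUnit P n y → kummerDefect s t y = 1

/-- **Kummer lemma (a)**: the pair exists at every place over `2`. -/
theorem exists_kummerPair (hA : A.LiesOverPrime 2) : ∃ K : KummerPair, K.P = A := by
  classical
  obtain ⟨s, hs, hs5⟩ := exists_inertia_exponent hA (show Odd (5 : ℤ) by decide)
  obtain ⟨t, ht, ht1⟩ := exists_inertia_exponent hA (show Odd (-1 : ℤ) by decide)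
  have h : IsExpPair A s t := ⟨hs, ht, fun n ζ hζ => by rw [hs5 n ζ hζ, zpow_ofNat],
    fun n ζ hζ => by rw [ht1 n ζ hζ, zpow_neg_one]⟩
  obtain ⟨σ, hσ, hP⟩ := exists_inertia_forall A
    (fun i : {x : ℕ × Ω // x.2 ^ 2 ^ x.1 = 1} ⊕ {x : ℕ × Ω // IsRootUnit A x.1 x.2} =>
      i.elim (fun z => z.1.2) (fun z => z.1.2))
    (fun i v => i.elim (fun z => v = z.1.2) fun z => v * kummerDefect s t z.1.2 = z.1.2)
    fun F => by
      let S := F.toRight
      let N := S.sup fun z => z.1.1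
      obtain ⟨σ, hσ, hσr, hσy⟩ := h.exists_modify hA (n := N) (fun z : S => z.1.1.2)
        fun z => z.1.2.mono (Finset.le_sup (f := fun z => z.1.1) z.2)
      refine ⟨σ, hσ, fun i hi => ?_⟩
      cases i with
      | inl z => exact hσr _ _ z.2
      | inr z => exact hσy ⟨z, Finset.mem_toRight.mpr hi⟩
  have hfix : FixesRoots σ := fun n ζ hζ => hP (Sum.inl ⟨(n, ζ), hζ⟩)
  refine ⟨⟨A, σ * s, t, hA, ⟨mul_mem hσ hs, ht, fun n ζ hζ => ?_, h.t_root⟩, fun n y hy => ?_⟩,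
    rfl⟩
  · rw [AlgEquiv.mul_apply, h.s_root n ζ hζ, map_pow, hfix n ζ hζ]
  · have h1 := hP (Sum.inr ⟨(n, y), hy⟩)
    change σ y * kummerDefect s t y = y at h1
    have hy0 := hy.ne_zero
    have h2 := hfix n _ (hy.apply_div hs)
    rw [map_div₀, div_eq_iff (show σ y ≠ 0 by simpa using hy0)] at h2
    rw [kummerDefect, AlgEquiv.mul_apply, h2]
    rw [kummerDefect] at h1
    field_simp at h1 ⊢
    linear_combination h1

theorem nonempty_kummerPair : ∀ {A : ValuationSubring (AlgebraicClosure ℚ)},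
    A.LiesOverPrime 2 → Nonempty KummerPair :=
  fun hA => ⟨(exists_kummerPair hA).choose⟩

end Fermat.Agent.TwoAdic.Pair
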