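import Fermat.Agent.TwoAdic.Pair.Inertia
import Fermat.Agent.GalCoh.Descent.Mu

/-!
# Defects of twisted cocycles on inertia at 2

Kummer lemma (b): a twisted cocycle on inertia at `2` whose conjugate by an element `g` of
the decomposition group is `c` times itself (up to the cyclotomic twist and a coboundary) has
defect `b s + 2 b t` fixed by `c`.
-/

set_option autoImplicit false

noncomputable section

open Fermat.Agent.DefRing Fermat.Agent.GalCoh
open scoped Pointwise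

namespace Fermat.Agent.TwoAdic.Pair

local notation "Ω" => AlgebraicClosure ℚ

variable {A : ValuationSubring (AlgebraicClosure ℚ)}

theorem kummerDefect_two (s t : GQ) : kummerDefect s t 2 = 1 := by
  simp [kummerDefect, map_ofNat]

theorem conj_mem_inertia {g τ : GQ} (hg : g ∈ A.decompositionSubgroup ℚ)
    (hτ : τ ∈ A.inertiaSubgroupIn ℚ) : g * τ * g⁻¹ ∈ A.inertiaSubgroupIn ℚ :=
  TameInertia.inertia_normal_in_decomposition hg hτ

/-- The Kummer generator of a character of a cocycle. -/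
theorem KummerPair.exists_generator (K : KummerPair) {N : ℕ} (β : GQ → AlgebraicClosure ℚ)
    (hβ : ∀ σ, β σ ^ 2 ^ N = 1)
    (hlev : ∃ F : IntermediateField ℚ (AlgebraicClosure ℚ), FiniteDimensional ℚ F ∧
      ∀ σ ∈ K.P.inertiaSubgroupIn ℚ, ∀ τ ∈ K.P.inertiaSubgroupIn ℚ,
        τ ∈ F.fixingSubgroup → β (σ * τ) = β σ)
    (hcoc : ∀ σ ∈ K.P.inertiaSubgroupIn ℚ, ∀ τ ∈ K.P.inertiaSubgroupIn ℚ,
      β (σ * τ) = σ (β τ) * β σ)
    {r : AlgebraicClosure ℚ} (hr : r ^ 2 ^ N = 2) :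
    ∃ (x : AlgebraicClosure ℚ) (m : ℤ), x ≠ 0 ∧
      (∀ σ ∈ K.P.inertiaSubgroupIn ℚ, β σ = σ x / x) ∧
      K.P.valuation x ^ 2 ^ N = K.P.valuation (2 : AlgebraicClosure ℚ) ^ m ∧
      β K.s * β K.t ^ 2 = kummerDefect K.s K.t r ^ m := by
  obtain ⟨F, hF, hFlev⟩ := hlev
  obtain ⟨x, hx0, hx⟩ := GalCoh.Descent.hilbert90 (J := K.P.inertiaSubgroupIn ℚ)
    (U := F.fixingSubgroup) ⟨F, hF, le_rfl⟩ (a := β)
    (fun σ _ => ne_zero_of_pow_eq_one (hβ σ)) hcoc (fun σ hσ τ hτ hτU => hFlev σ hσ τ hτ hτU)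
  have hfix : ∀ σ ∈ K.P.inertiaSubgroupIn ℚ, σ (x ^ 2 ^ N) = x ^ 2 ^ N := fun σ hσ => by
    have h1 := hβ σ
    rw [hx σ hσ, div_pow, div_eq_one_iff_eq (pow_ne_zero _ hx0)] at h1
    rw [map_pow, h1]
  obtain ⟨m, hm⟩ := FlatJ0.exists_valuation_eq_zpow_of_fixed Nat.prime_two K.over_two
    (pow_ne_zero _ hx0) hfix
  rw [map_pow, Nat.cast_ofNat] at hm
  have hr0 : r ≠ 0 := by
    rintro rfl
    rw [zero_pow (pow_ne_zero N two_ne_zero)] at hr
    exact two_ne_zero hr.symm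
  refine ⟨x, m, hx0, hx, hm, ?_⟩
  have hy : IsRootUnit K.P N (x / r ^ m) := by
    refine ⟨valuation_eq_one_of_pow (pow_ne_zero N two_ne_zero) ?_, fun σ hσ => ?_⟩
    · rw [map_pow, map_div₀, div_pow, hm, map_zpow₀, ← zpow_natCast (_ ^ m), ← zpow_mul, mul_comm,
        zpow_mul, zpow_natCast, ← map_pow K.P.valuation, hr, div_self]
      exact zpow_ne_zero _ ((map_ne_zero _).mpr two_ne_zero)
    · rw [div_pow, map_div₀, hfix σ hσ, ← zpow_natCast (r ^ m), ← zpow_mul, mul_comm, zpow_mul,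
        zpow_natCast, hr, map_zpow₀, map_ofNat]
  have h1 := K.kummer N _ hy
  have h2 := kummerDefect_mul K.s K.t (x / r ^ m) (r ^ m)
  rw [div_mul_cancel₀ _ (zpow_ne_zero _ hr0), h1, one_mul, kummerDefect_zpow] at h2
  rw [← h2, hx _ K.exp.s_mem, hx _ K.exp.t_mem]
  rfl

/-- **Kummer lemma (b)**. -/
theorem KummerPair.mul_defect_eq (K : KummerPair) {R : Type} [CommRing R] [Finite R] {N : ℕ}
    (hN : (2 : R) ^ N = 0) (ex : GQ → ℕ)
    (hex : ∀ (σ : GQ) (ζ : AlgebraicClosure ℚ), ζ ^ 2 ^ N = 1 → σ ζ = ζ ^ ex σ) (b : GQ → R)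
    (hlev : ∃ F : IntermediateField ℚ (AlgebraicClosure ℚ), FiniteDimensional ℚ F ∧
      ∀ σ ∈ K.P.inertiaSubgroupIn ℚ, ∀ τ ∈ K.P.inertiaSubgroupIn ℚ,
        τ ∈ F.fixingSubgroup → b (σ * τ) = b σ)
    (hcoc : ∀ σ ∈ K.P.inertiaSubgroupIn ℚ, ∀ τ ∈ K.P.inertiaSubgroupIn ℚ,
      b (σ * τ) = b σ + (ex σ : R) * b τ)
    {g : GQ} (hg : g ∈ K.P.decompositionSubgroup ℚ) (c e : R)
    (hconj : ∀ τ ∈ K.P.inertiaSubgroupIn ℚ,
      b (g * τ * g⁻¹) = (ex g : R) * (c * b τ) + e * ((ex τ : R) - 1)) :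
    c * (b K.s + 2 * b K.t) = b K.s + 2 * b K.t := by
  classical
  set d := b K.s + 2 * b K.t with hd
  by_contra hne
  have : NeZero (Monoid.exponent (Multiplicative R) : Ω) :=
    ⟨Nat.cast_ne_zero.mpr Monoid.exponent_ne_zero_of_finite⟩
  obtain ⟨φ, hφ⟩ := CommGroup.exists_apply_ne_one_of_hasEnoughRootsOfUnity
    (Multiplicative R) Ω (a := Multiplicative.ofAdd (c * d - d))
    (fun h1 => hne (sub_eq_zero.mp (ofAdd_eq_one.mp h1)))
  let X : R → Ω := fun u => ((φ (Multiplicative.ofAdd u) : Ωˣ) : Ω)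
  have hXadd : ∀ u v, X (u + v) = X u * X v := fun u v => by
    simp [X, ofAdd_add, map_mul]
  have hX0 : X 0 = 1 := by simp [X]
  have hXne : ∀ u, X u ≠ 0 := fun u => Units.ne_zero _
  have hXmul : ∀ (k : ℕ) (u : R), X ((k : R) * u) = X u ^ k := fun k u => by
    induction k with
    | zero => simp [hX0]
    | succ k ih => rw [Nat.cast_succ, add_mul, one_mul, hXadd, ih, pow_succ]
  have hXroot : ∀ u, X u ^ 2 ^ N = 1 := fun u => by
    rw [← hXmul, Nat.cast_pow, Nat.cast_ofNat, hN, zero_mul, hX0]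
  have hXsub : ∀ u v, X (u - v) = X u / X v := fun u v => by
    rw [eq_div_iff (hXne v), ← hXadd, sub_add_cancel]
  have hgal : ∀ (σ : GQ) u, σ (X u) = X ((ex σ : R) * u) := fun σ u => by
    rw [hXmul, hex σ _ (hXroot u)]
  obtain ⟨r, hr⟩ := IsAlgClosed.exists_pow_nat_eq (2 : Ω) (show 0 < 2 ^ N by positivity)
  obtain ⟨F, hF, hFlev⟩ := hlev
  have gen : ∀ a : R, ∃ (x : Ω) (m : ℤ), x ≠ 0 ∧
      (∀ σ ∈ K.P.inertiaSubgroupIn ℚ, X (a * b σ) = σ x / x) ∧
      K.P.valuation x ^ 2 ^ N = K.P.valuation (2 : Ω) ^ m ∧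
      X (a * b K.s) * X (a * b K.t) ^ 2 = kummerDefect K.s K.t r ^ m := fun a =>
    K.exists_generator (fun σ => X (a * b σ)) (fun σ => hXroot _)
      ⟨F, hF, fun σ hσ τ hτ hτF => congrArg (fun u => X (a * u)) (hFlev σ hσ τ hτ hτF)⟩
      (fun σ hσ τ hτ => by
        rw [hgal, hcoc σ hσ τ hτ, mul_add, hXadd, mul_comm, mul_left_comm])
      hr
  obtain ⟨x, m, hx0, hx, hxv, hxd⟩ := gen 1
  obtain ⟨x', m', hx0', hx', hxv', hxd'⟩ := gen c
  have hXd : ∀ a, X (a * b K.s) * X (a * b K.t) ^ 2 = X (a * d) := fun a => by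
    rw [← hXmul, ← hXadd, hd]
    congr 1
    push_cast
    ring
  rw [hXd, one_mul] at hxd
  rw [hXd] at hxd'
  -- the element fixed by inertia
  set z := g x' * X e / x with hz
  have hz0 : z ≠ 0 := div_ne_zero (mul_ne_zero (by simpa using hx0') (hXne e)) hx0
  have hzfix : ∀ σ ∈ K.P.inertiaSubgroupIn ℚ, σ z = z := by
    intro σ hσ
    set τ := g⁻¹ * σ * g with hτdef
    have hτ : τ ∈ K.P.inertiaSubgroupIn ℚ := by
      have := conj_mem_inertia (inv_mem hg) hσ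
      rwa [inv_inv] at this
    have hσ' : g * τ * g⁻¹ = σ := by rw [hτdef]; group
    have h1 : σ (g x') = g (τ x') := by
      rw [← hσ']; simp [AlgEquiv.mul_apply]
    have h2 : σ (X e) = X ((ex τ : R) * e) := by
      have hroot : (g⁻¹ (X e)) ^ 2 ^ N = 1 := by rw [← map_pow, hXroot, map_one]
      rw [← hσ', AlgEquiv.mul_apply, AlgEquiv.mul_apply, hex τ _ hroot, map_pow, hXmul,
        ← AlgEquiv.mul_apply, mul_inv_cancel, AlgEquiv.one_apply]
    have h3 : τ x' = X (c * b τ) * x' := by rw [hx' τ hτ, div_mul_cancel₀ _ hx0']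
    have h4 : σ x = X (b σ) * x := by
      rw [← one_mul (b σ), hx σ hσ, div_mul_cancel₀ _ hx0]
    have h5 : X (b σ) = X ((ex g : R) * (c * b τ)) * (X ((ex τ : R) * e) / X e) := by
      rw [← hσ', hconj τ hτ, hXadd, ← hXsub]
      congr 2
      ring
    rw [hz, map_div₀, map_mul, h1, h3, map_mul, hgal, h2, h4, h5]
    field_simp [hXne]
  obtain ⟨j, hj⟩ := FlatJ0.exists_valuation_eq_zpow_of_fixed Nat.prime_two K.over_two hz0 hzfix
  rw [hz, map_div₀, map_mul, MultRed.decomp_isometry hg, valuation_root (hXroot e), mul_one,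
    Nat.cast_ofNat] at hj
  have hv0 : (0 : _) < K.P.valuation (2 : Ω) := K.P.valuation.pos_iff.mpr two_ne_zero
  have hv1 : K.P.valuation (2 : Ω) ≠ 1 := ne_of_lt (by exact_mod_cast MultRed.vq_lt_one K.over_two)
  have hm' : m' = m + j * ((2 ^ N : ℕ) : ℤ) := by
    refine zpow_right_injective₀ hv0 hv1 ?_
    show K.P.valuation (2 : Ω) ^ m' = K.P.valuation (2 : Ω) ^ (m + j * ((2 ^ N : ℕ) : ℤ))
    rw [zpow_add₀ hv0.ne', zpow_mul, zpow_natCast, ← hj, ← hxv, ← hxv', div_pow,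
      mul_div_cancel₀ _ (pow_ne_zero _ ((map_ne_zero _).mpr hx0))]
  have hr0 : r ≠ 0 := by
    rintro rfl
    rw [zero_pow (pow_ne_zero N two_ne_zero)] at hr
    exact two_ne_zero hr.symm
  have hper : kummerDefect K.s K.t r ^ (2 ^ N) = 1 := by
    rw [← zpow_natCast, ← kummerDefect_zpow, zpow_natCast, hr, kummerDefect_two]
  have hδ0 : kummerDefect K.s K.t r ≠ 0 := by simp [kummerDefect, hr0]
  refine hφ (Units.ext ?_)
  show X (c * d - d) = 1
  rw [hXsub, div_eq_one_iff_eq (hXne _), hxd, hxd', hm', zpow_add₀ hδ0, mul_comm j, zpow_mul,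
    zpow_natCast, hper, one_zpow, mul_one]

end Fermat.Agent.TwoAdic.Pair
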