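import Fermat.Agent.TwoAdic.Pair.Residual
import Fermat.Agent.GalCoh.GlobalLevels

/-!
# Quadratic Kummer characters of inertia at 2

A quadratic Kummer character of inertia invariant under Frobenius is cut out by `√(±1)` or `√(±2)`:
an unramified unit `v` with `φ v / v` a square is `±` a square (mod `4` computation, `1 + 4b` has an
unramified square root); the crystalline equation kills `√2`.
-/

set_option autoImplicit false

noncomputable section

open IsLocalRing GaloisRep Fermat.Agent.DefRing Fermat.Agent.Deform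
open scoped Pointwise

namespace Fermat.Agent.TwoAdic.Pair

local notation "Ω" => AlgebraicClosure ℚ

/-- A square root of an unramified unit congruent to `1` mod `4` is unramified. -/
theorem fixed_sqrt_one_add_four {P : ValuationSubring (AlgebraicClosure ℚ)}
    (hP : P.LiesOverPrime 2) {y b : AlgebraicClosure ℚ} (hy : y ^ 2 = 1 + 4 * b)
    (hb : P.valuation b ≤ 1) (hbfix : ∀ σ ∈ P.inertiaSubgroupIn ℚ, σ b = b) :
    ∀ σ ∈ P.inertiaSubgroupIn ℚ, σ y = y := by
  intro σ hσ
  have hv2 : P.valuation (2 : Ω) < 1 := by exact_mod_cast MultRed.vq_lt_one hP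
  have h4b : P.valuation (4 * b) < 1 := by
    rw [map_mul]
    refine lt_of_le_of_lt (mul_le_of_le_one_right zero_le hb) ?_
    rw [show (4 : Ω) = 2 ^ 2 by norm_num, map_pow]
    exact pow_lt_one₀ zero_le hv2 two_ne_zero
  have hyv : P.valuation y = 1 := valuation_eq_one_of_pow two_ne_zero (by
    rw [hy]
    exact P.valuation.map_one_add_of_lt h4b)
  have hsq : σ y ^ 2 = y ^ 2 := by
    rw [← map_pow, hy, map_add, map_one, map_mul, map_ofNat, hbfix σ hσ]
  rcases sq_eq_sq_iff_eq_or_eq_neg.mp hsq with h | h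
  · exact h
  exfalso
  set x := (1 + y) / 2 with hx
  have hxx : x ^ 2 - x = b := by rw [hx]; linear_combination (1 / 4 : Ω) * hy
  have hxle : P.valuation x ≤ 1 := by
    by_contra hgt
    push Not at hgt
    have h1 : P.valuation (x + b) = P.valuation x := by
      rw [P.valuation.map_add_eq_of_lt_left (hb.trans_lt hgt)]
    rw [show x + b = x ^ 2 by linear_combination -hxx, map_pow, pow_two] at h1
    exact absurd h1 (ne_of_gt (lt_mul_of_one_lt_left (zero_lt_one.trans hgt) hgt))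
  have h2 := MultRed.inertia_residue hσ x hxle
  rw [hx, map_div₀, map_add, map_one, map_ofNat, h, show (1 + -y) / 2 - (1 + y) / 2 = -y by ring,
    Valuation.map_neg, hyv] at h2
  exact lt_irrefl _ h2

/-- An unramified unit whose Frobenius conjugate differs from it by a square is `±` a square. -/
theorem sqrt_fixed_or_mul_fixed {P : ValuationSubring (AlgebraicClosure ℚ)}
    (hP : P.LiesOverPrime 2) {φ : GQ} (hφ : P.IsFrobeniusAt φ 2) {y : AlgebraicClosure ℚ}
    (hy : IsRootUnit P 1 y) (hz : ∀ σ ∈ P.inertiaSubgroupIn ℚ, σ (φ y / y) = φ y / y)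
    {i : AlgebraicClosure ℚ} (hi : i ^ 2 = -1) :
    (∀ σ ∈ P.inertiaSubgroupIn ℚ, σ y = y) ∨
      ∀ σ ∈ P.inertiaSubgroupIn ℚ, σ (i * y) = i * y := by
  have hD := hφ.mem_decompositionSubgroup
  have hv2 : P.valuation (2 : Ω) < 1 := by exact_mod_cast MultRed.vq_lt_one hP
  have hv20 : 0 < P.valuation (2 : Ω) := P.valuation.pos_iff.mpr two_ne_zero
  -- a fixed element of valuation `< 1` has valuation at most that of `2`
  have hsmall : ∀ x : Ω, (∀ σ ∈ P.inertiaSubgroupIn ℚ, σ x = x) → P.valuation x < 1 →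
      P.valuation (x / 2) ≤ 1 := by
    intro x hx hlt
    rcases eq_or_ne x 0 with rfl | hx0
    · simp
    obtain ⟨k, hk⟩ := FlatJ0.exists_valuation_eq_zpow_of_fixed Nat.prime_two hP hx0 hx
    rw [Nat.cast_ofNat] at hk
    rw [map_div₀, hk]
    rw [hk] at hlt
    have hk1 : 1 ≤ k := by
      by_contra hk0
      exact absurd hlt (not_lt.mpr (one_le_zpow_of_nonpos₀ hv20 hv2.le (by omega)))
    rw [div_le_one₀ hv20]
    calc P.valuation (2 : Ω) ^ k ≤ P.valuation (2 : Ω) ^ (1 : ℤ) :=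
          zpow_le_zpow_right_of_le_one₀ hv20 hv2.le hk1
      _ = P.valuation (2 : Ω) := zpow_one _
  have hfixmap : ∀ g ∈ P.decompositionSubgroup ℚ, ∀ x : Ω,
      (∀ σ ∈ P.inertiaSubgroupIn ℚ, σ x = x) → ∀ σ ∈ P.inertiaSubgroupIn ℚ, σ (g x) = g x := by
    intro g hg x hx σ hσ
    have h1 := conj_mem_inertia (inv_mem hg) hσ
    rw [inv_inv] at h1
    have h2 := congrArg g (hx _ h1)
    rwa [AlgEquiv.mul_apply, AlgEquiv.mul_apply, AlgEquiv.aut_inv,
      AlgEquiv.apply_symm_apply] at h2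
  have hy0 := hy.ne_zero
  have hyfix : ∀ σ ∈ P.inertiaSubgroupIn ℚ, σ (y ^ 2) = y ^ 2 := fun σ hσ => by
    simpa using hy.fixed σ hσ
  -- make `y² ≡ 1 (mod 2)`
  set c := φ⁻¹ (y ^ 2) with hc
  have hcfix := hfixmap φ⁻¹ (inv_mem hD) _ hyfix
  rw [← hc] at hcfix
  have hcv : P.valuation c = 1 := by
    rw [hc, MultRed.decomp_isometry (inv_mem hD), map_pow, hy.valuation_eq, one_pow]
  have hc0 : c ≠ 0 := by simp [hc, hy0]
  have hφc : φ c = y ^ 2 := by rw [hc, AlgEquiv.aut_inv, AlgEquiv.apply_symm_apply]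
  set u := y / c with hu
  set v := u ^ 2 with hv
  have huv : P.valuation u = 1 := by rw [hu, map_div₀, hy.valuation_eq, hcv, div_one]
  have hu0 : u ≠ 0 := div_ne_zero hy0 hc0
  have hvfix : ∀ σ ∈ P.inertiaSubgroupIn ℚ, σ v = v := fun σ hσ => by
    rw [hv, hu, div_pow, map_div₀, hyfix σ hσ, map_pow, hcfix σ hσ]
  set a := (v - 1) / 2 with ha
  have hafix : ∀ σ ∈ P.inertiaSubgroupIn ℚ, σ a = a := fun σ hσ => by
    rw [ha, map_div₀, map_sub, hvfix σ hσ, map_one, map_ofNat]
  have hv1 : P.valuation (v - 1) < 1 := by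
    have h1 := TameInertia.frobenius_sub_pow_mem hφ ((P.valuation_le_one_iff c).mp hcv.le)
    rw [ValuationSubring.mem_nonunits_iff, hφc] at h1
    rw [show v - 1 = (y ^ 2 - c ^ 2) / c ^ 2 by rw [hv, hu]; field_simp, map_div₀,
      map_pow _ c, hcv, one_pow, div_one]
    exact h1
  have hale : P.valuation a ≤ 1 :=
    hsmall _ (fun σ hσ => by rw [map_sub, hvfix σ hσ, map_one]) hv1
  -- the multiplier
  set w := φ u / u with hw
  have hwfix : ∀ σ ∈ P.inertiaSubgroupIn ℚ, σ w = w := fun σ hσ => by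
    rw [show w = φ y / y * (c / φ c) by
      rw [hw, hu, map_div₀]; field_simp [show φ c ≠ 0 by simpa using hc0]]
    rw [map_mul, hz σ hσ, map_div₀, hcfix σ hσ, hfixmap φ hD c hcfix σ hσ]
  have hwv : P.valuation w = 1 := by
    rw [hw, map_div₀, MultRed.decomp_isometry hD, huv, div_one]
  have hφv : φ v = w ^ 2 * v := by
    rw [hv, map_pow, hw, ← mul_pow, div_mul_cancel₀ _ hu0]
  have hvle : P.valuation v ≤ 1 := by rw [hv, map_pow, huv, one_pow]
  have hw1 : P.valuation (w - 1) < 1 := by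
    have h1 : P.valuation ((w ^ 2 - 1) * v) < 1 := by
      rw [show (w ^ 2 - 1) * v = φ (v - 1) - (v - 1) by rw [map_sub, map_one, hφv]; ring]
      refine lt_of_le_of_lt (P.valuation.map_sub _ _) (max_lt ?_ hv1)
      rwa [MultRed.decomp_isometry hD]
    rw [map_mul, show P.valuation v = 1 by rw [hv, map_pow, huv, one_pow], mul_one] at h1
    have h3 : P.valuation ((w - 1) ^ 2) < 1 := by
      rw [show (w - 1) ^ 2 = (w ^ 2 - 1) - 2 * (w - 1) by ring]
      refine lt_of_le_of_lt (P.valuation.map_sub _ _) (max_lt h1 ?_)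
      rw [map_mul]
      refine lt_of_le_of_lt (mul_le_of_le_one_right zero_le ?_) hv2
      exact (P.valuation.map_sub _ _).trans (max_le hwv.le (map_one P.valuation).le)
    rw [map_pow] at h3
    exact lt_of_not_ge fun h => absurd h3 (not_lt.mpr (one_le_pow₀ h))
  have hφa : P.valuation (φ a - a) < 1 := by
    have h2 := hsmall _ (fun σ hσ => by rw [map_sub, hwfix σ hσ, map_one]) hw1
    rw [show φ a - a = 2 * (((w - 1) / 2) * ((w - 1) / 2 + 1)) * v by
      rw [ha, map_div₀, map_sub, map_one, map_ofNat, hφv]; ring]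
    rw [map_mul, map_mul, map_mul]
    refine lt_of_le_of_lt (mul_le_of_le_one_right zero_le hvle)
      (lt_of_le_of_lt (mul_le_of_le_one_right zero_le ?_) hv2)
    exact mul_le_one₀ h2 zero_le ((P.valuation.map_add _ _).trans (max_le h2 (map_one _).le))
  have hφa2 : P.valuation (φ a - a ^ 2) < 1 := by
    have h1 := TameInertia.frobenius_sub_pow_mem hφ ((P.valuation_le_one_iff a).mp hale)
    rwa [ValuationSubring.mem_nonunits_iff] at h1
  have haa : P.valuation (a * (a - 1)) < 1 := by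
    rw [show a * (a - 1) = (φ a - a) - (φ a - a ^ 2) by ring]
    exact lt_of_le_of_lt (P.valuation.map_sub _ _) (max_lt hφa hφa2)
  have hale1 : P.valuation (a - 1) ≤ 1 :=
    (P.valuation.map_sub _ _).trans (max_le hale (map_one P.valuation).le)
  have hcase : P.valuation a < 1 ∨ P.valuation (a - 1) < 1 := by
    by_contra hcon
    push Not at hcon
    rw [map_mul, le_antisymm hale hcon.1, le_antisymm hale1 hcon.2, one_mul] at haa
    exact lt_irrefl _ haa
  rcases hcase with hlt | hlt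
  · refine Or.inl fun σ hσ => ?_
    have h1 := fixed_sqrt_one_add_four hP (y := u) (b := a / 2)
      (by rw [← hv, ha]; ring) (hsmall a hafix hlt)
      (fun σ hσ => by rw [map_div₀, hafix σ hσ, map_ofNat]) σ hσ
    rw [hu, map_div₀, hcfix σ hσ, div_left_inj' hc0] at h1
    exact h1
  · refine Or.inr fun σ hσ => ?_
    have h2 : P.valuation (-(1 + a)) < 1 := by
      rw [Valuation.map_neg, show 1 + a = (a - 1) + 2 by ring]
      exact lt_of_le_of_lt (P.valuation.map_add _ _) (max_lt hlt hv2)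
    have h1 := fixed_sqrt_one_add_four hP (y := i * u) (b := -(1 + a) / 2)
      (by rw [mul_pow, hi, ← hv, ha]; ring)
      (hsmall _ (fun σ hσ => by rw [map_neg, map_add, map_one, hafix σ hσ]) h2)
      (fun σ hσ => by rw [map_div₀, map_neg, map_add, map_one, hafix σ hσ, map_ofNat]) σ hσ
    rw [hu, ← mul_div_assoc, map_div₀, hcfix σ hσ, div_left_inj' hc0] at h1
    exact h1

theorem KummerPair.defect_sqrt_two (K : KummerPair) {r : AlgebraicClosure ℚ} (hr : r ^ 2 = 2) :
    kummerDefect K.s K.t r = -1 := by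
  have : NeZero (2 ^ 3) := ⟨by positivity⟩
  have : NeZero ((2 ^ 3 : ℕ) : Ω) := ⟨Nat.cast_ne_zero.mpr (by positivity)⟩
  obtain ⟨ω, hω⟩ := HasEnoughRootsOfUnity.exists_primitiveRoot Ω (2 ^ 3)
  have hω0 : ω ≠ 0 := hω.ne_zero (by positivity)
  have hω4 : ω ^ 4 = -1 := by
    have h3 : (ω ^ 4 - 1) * (ω ^ 4 + 1) = 0 := by linear_combination hω.pow_eq_one
    rcases mul_eq_zero.mp h3 with h4 | h4
    · exact absurd (hω.dvd_of_pow_eq_one 4 (sub_eq_zero.mp h4)) (by decide)
    · exact eq_neg_of_add_eq_zero_left h4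
  set r₀ := ω + ω⁻¹ with hr₀
  have hr2 : r₀ ^ 2 = 2 := by
    rw [hr₀]
    field_simp
    linear_combination hω4
  have h0 : r₀ ≠ 0 := fun h0 => by rw [h0] at hr2; norm_num at hr2
  have hsr : K.s r₀ = -r₀ := by
    rw [hr₀, map_add, map_inv₀, K.exp.s_root 3 ω hω.pow_eq_one,
      show ω ^ 5 = -ω by linear_combination ω * hω4, inv_neg, neg_add]
  have htr : K.t r₀ = r₀ := by
    rw [hr₀, map_add, map_inv₀, K.exp.t_root 3 ω hω.pow_eq_one, inv_inv, add_comm]
  have hd : kummerDefect K.s K.t r₀ = -1 := by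
    rw [kummerDefect, hsr, htr, div_self h0, one_pow, mul_one, neg_div, div_self h0]
  rcases sq_eq_sq_iff_eq_or_eq_neg.mp (hr.trans hr2.symm) with rfl | rfl
  · exact hd
  · rw [← hd]
    simp [kummerDefect, map_neg]

/-- A Frobenius invariant sign character of inertia killed by `s` factors through `ℚ₂(i)`. -/
theorem KummerPair.eq_one_of_fixes_sqrt_neg_one (K : KummerPair) {φ : GQ}
    (hφ : K.P.IsFrobeniusAt φ 2) (β : GQ → AlgebraicClosure ℚ) (hβ : ∀ σ, β σ ^ 2 = 1)
    (hlev : ∃ F : IntermediateField ℚ (AlgebraicClosure ℚ), FiniteDimensional ℚ F ∧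
      ∀ σ ∈ K.P.inertiaSubgroupIn ℚ, ∀ τ ∈ K.P.inertiaSubgroupIn ℚ,
        τ ∈ F.fixingSubgroup → β (σ * τ) = β σ)
    (hhom : ∀ σ ∈ K.P.inertiaSubgroupIn ℚ, ∀ τ ∈ K.P.inertiaSubgroupIn ℚ,
      β (σ * τ) = β σ * β τ)
    (hinv : ∀ τ ∈ K.P.inertiaSubgroupIn ℚ, β (φ * τ * φ⁻¹) = β τ) (hs : β K.s = 1)
    {i : AlgebraicClosure ℚ} (hi : i ^ 2 = -1) :
    ∀ σ ∈ K.P.inertiaSubgroupIn ℚ, σ i = i → β σ = 1 := by
  obtain ⟨r, hr⟩ := IsAlgClosed.exists_pow_nat_eq (2 : Ω) two_pos
  have hpm : ∀ (g σ : GQ), g (β σ) = β σ := fun g σ => by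
    rcases sq_eq_one_iff.mp (hβ σ) with h | h <;> simp [h]
  obtain ⟨x, m, hx0, hx, hxv, hxd⟩ := K.exists_generator (N := 1) β (fun σ => by simpa using hβ σ)
    hlev (fun σ hσ τ hτ => by rw [hpm, hhom σ hσ τ hτ, mul_comm]) (r := r) (by simpa using hr)
  rw [hs, one_mul, hβ, K.defect_sqrt_two hr] at hxd
  obtain ⟨l, rfl⟩ : Even m := by
    rcases Int.even_or_odd m with h | h
    · exact h
    · rw [h.neg_one_zpow] at hxd
      norm_num at hxd
  set y := x / 2 ^ l with hy
  have h2l : (2 : Ω) ^ l ≠ 0 := zpow_ne_zero _ two_ne_zero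
  have hyv : K.P.valuation y = 1 := valuation_eq_one_of_pow two_ne_zero (by
    rw [map_pow, hy, map_div₀, div_pow, ← pow_one (2 : ℕ), hxv, pow_one, map_zpow₀,
      ← zpow_natCast, ← zpow_mul, show l * ((2 : ℕ) : ℤ) = l + l by push_cast; ring]
    exact div_self (zpow_ne_zero _ ((map_ne_zero _).mpr two_ne_zero)))
  have hσy : ∀ σ ∈ K.P.inertiaSubgroupIn ℚ, σ y = β σ * y := fun σ hσ => by
    rw [hy, map_div₀, map_zpow₀, map_ofNat, hx σ hσ]
    field_simp
  have hyu : IsRootUnit K.P 1 y := ⟨hyv, fun σ hσ => by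
    rw [pow_one, map_pow, hσy σ hσ, mul_pow, hβ, one_mul]⟩
  have hy0 := hyu.ne_zero
  have hz : ∀ σ ∈ K.P.inertiaSubgroupIn ℚ, σ (φ y / y) = φ y / y := by
    intro σ hσ
    have hτ := conj_mem_inertia (inv_mem hφ.mem_decompositionSubgroup) hσ
    rw [inv_inv] at hτ
    have h1 := congrArg φ (hσy _ hτ)
    have hi' := hinv _ hτ
    rw [show φ * (φ⁻¹ * σ * φ) * φ⁻¹ = σ by group] at hi'
    rw [map_mul φ, hpm, ← hi', AlgEquiv.mul_apply, AlgEquiv.mul_apply, AlgEquiv.aut_inv,
      AlgEquiv.apply_symm_apply] at h1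
    rw [map_div₀, h1, hσy σ hσ, mul_div_mul_left _ _]
    intro h0
    have := hβ σ
    rw [h0] at this
    norm_num at this
  intro σ hσ hσi
  have key : σ y = y := by
    rcases sqrt_fixed_or_mul_fixed K.over_two hφ hyu hz hi with h | h
    · exact h σ hσ
    · have h1 := h σ hσ
      rw [map_mul, hσi] at h1
      refine mul_left_cancel₀ ?_ h1
      intro h0
      rw [h0] at hi
      norm_num at hi
  have h2 := hσy σ hσ
  rw [key] at h2
  exact (mul_eq_right₀ hy0).mp h2.symm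

end Fermat.Agent.TwoAdic.Pair
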